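import Fermat.Agent.XHLite.Glue.UnitsInst
import Fermat.Agent.SemistableRed.Components
import Fermat.Agent.SemistableRed.GaloisCompat
import Fermat.Agent.Reduction.Igusa

/-!
# The modular unit `Δ(z)/Δ(q z)` on the split model of `X₀(M q)`

Its reduction on the component at `∞` is `Δ̄ ^ (1 - q)`, a rational function of `j̄` of degree
`q - 1`; on the other component the reduction of `Δ(z)/Δ(q z) / q ^ 12` is its inverse.
-/

set_option autoImplicit false
set_option linter.unusedSectionVars false

noncomputable section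

open IsLocalRing AlgebraicCurve ModularCurve Fermat.Agent.FunctionFieldRR
  Fermat.Agent.SemistableRed Fermat.Agent.Reduction

namespace Fermat.Agent.LevelP

local notation "Qbar" => AlgebraicClosure ℚ

open XHLite (qSerZ kSer aSer ιS_aSer redS_aSer qSerZ_ne_zero qSerZ_inv unitSer deltaUnit
  expandUnit IsRep exists_isRep exists_alData deltaQuotEl invDeltaQuotEl deltaQuotEl_mul_inv
  coeffMap_qSerZ ser_deltaQuotEl isRep_algebraMap)

section Series

variable {k : Type*} [Field k]

theorem order_jqModC : (jqModC k).order = -1 := by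
  have hc : (jqModC k).coeff (-1) ≠ 0 := by rw [coeff_jqModC_neg_one]; exact one_ne_zero
  refine le_antisymm (HahnSeries.order_le_of_coeff_ne_zero hc) ?_
  by_contra h
  exact mt HahnSeries.coeff_order_eq_zero.mp (jqModC_ne_zero_of_nontrivial k)
    (coeff_jqModC_of_lt k (not_le.mp h))

/-- A polynomial in a series of negative order. -/
theorem order_aeval_series {j : LaurentSeries k} (hj : j.order < 0) {p : Polynomial k}
    (hp : p ≠ 0) :
    Polynomial.aeval j p ≠ 0 ∧
      (Polynomial.aeval j p).order = (p.natDegree : ℤ) * j.order := by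
  have hj0 : j ≠ 0 := fun h => by rw [h, HahnSeries.order_zero] at hj; exact lt_irrefl _ hj
  induction hd : p.natDegree generalizing p with
  | zero =>
    rw [Polynomial.eq_C_of_natDegree_eq_zero hd, Polynomial.aeval_C,
      algebraMap_laurentSeries_eq_single]
    have h : p.coeff 0 ≠ 0 := fun h => hp (by
      rw [Polynomial.eq_C_of_natDegree_eq_zero hd, h, map_zero])
    exact ⟨HahnSeries.single_ne_zero h, by simp [HahnSeries.order_single h]⟩
  | succ n ih =>
    have hq : p.divX.natDegree = n := by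
      rw [Polynomial.natDegree_divX_eq_natDegree_tsub_one, hd]; rfl
    have hq0 : p.divX ≠ 0 := fun h => by
      rw [Polynomial.divX_eq_zero_iff.mp h, Polynomial.natDegree_C] at hd
      omega
    obtain ⟨h1, h2⟩ := ih hq0 hq
    set a := j * Polynomial.aeval j p.divX with ha
    have ha0 : a ≠ 0 := mul_ne_zero hj0 h1
    have hao : a.order = ((n + 1 : ℕ) : ℤ) * j.order := by
      rw [ha, HahnSeries.order_mul hj0 h1, h2]; push_cast; ring
    have hneg : a.order < 0 := hao ▸ mul_neg_of_pos_of_neg (by positivity) hj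
    have hsplit : Polynomial.aeval j p = a + HahnSeries.single 0 (p.coeff 0) := by
      conv_lhs => rw [← p.X_mul_divX_add]
      rw [map_add, map_mul, Polynomial.aeval_X, Polynomial.aeval_C,
        algebraMap_laurentSeries_eq_single]
    have hc : (Polynomial.aeval j p).coeff a.order ≠ 0 := by
      rw [hsplit, HahnSeries.coeff_add, HahnSeries.coeff_single_of_ne hneg.ne, add_zero]
      exact mt HahnSeries.coeff_order_eq_zero.mp ha0
    have hp0 : Polynomial.aeval j p ≠ 0 := fun h => hc (by rw [h, HahnSeries.coeff_zero])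
    refine ⟨hp0, ?_⟩
    rw [← hao]
    refine le_antisymm (HahnSeries.order_le_of_coeff_ne_zero hc) ?_
    by_contra hlt
    push Not at hlt
    refine mt HahnSeries.coeff_order_eq_zero.mp hp0 ?_
    rw [hsplit] at hlt ⊢
    rw [HahnSeries.coeff_add, HahnSeries.coeff_single_of_ne (hlt.trans hneg).ne, add_zero]
    exact HahnSeries.coeff_eq_zero_of_lt_order hlt

/-- On a rational function of `j̄` every pole of `j̄` sees the order at `∞`. -/
theorem ord_of_mem_level_one {M : ℕ} [NeZero M] (a : ↥(modularFunctionFieldFullC k M))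
    (ha : (a : LaurentSeries k) ∈ modularFunctionFieldFullC k 1) (ha0 : a ≠ 0)
    (P : Place k ↥(modularFunctionFieldFullC k M)) (hP : P.ord (jbar k M) < 0) :
    P.ord a = -(a : LaurentSeries k).order * P.ord (jbar k M) := by
  have hset : divisorExpansionsC k 1 = {jqModC k} := by
    ext x
    constructor
    · rintro ⟨d, _, hd, rfl⟩
      obtain rfl := Nat.dvd_one.mp hd
      exact qExpand_one_apply _
    · rintro rfl
      exact ⟨1, inferInstance, dvd_rfl, (qExpand_one_apply _).symm⟩
  rw [modularFunctionFieldFullC, hset, IntermediateField.mem_adjoin_simple_iff] at ha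
  obtain ⟨r, s, hrs⟩ := ha
  have ha' : (a : LaurentSeries k) ≠ 0 := fun h => ha0 (Subtype.ext h)
  have hr : r ≠ 0 := fun h => ha' (by rw [hrs, h, map_zero, zero_div])
  have hs : s ≠ 0 := fun h => ha' (by rw [hrs, h, map_zero, div_zero])
  have hj : (jqModC k).order < 0 := by rw [order_jqModC]; norm_num
  obtain ⟨r0, ro⟩ := order_aeval_series hj hr
  obtain ⟨s0, so⟩ := order_aeval_series hj hs
  obtain ⟨r0', ro'⟩ := ord_aeval_of_pole P hP hr
  obtain ⟨s0', so'⟩ := ord_aeval_of_pole P hP hs
  have hc : ∀ p : Polynomial k, ((Polynomial.aeval (jbar k M) p :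
      ↥(modularFunctionFieldFullC k M)) : LaurentSeries k) =
      Polynomial.aeval (jqModC k) p := fun p => by
    exact (Polynomial.aeval_algHom_apply (modularFunctionFieldFullC k M).val (jbar k M) p).symm
  have e : a * Polynomial.aeval (jbar k M) s = Polynomial.aeval (jbar k M) r := Subtype.ext (by
    rw [MulMemClass.coe_mul, hc, hc, hrs, div_mul_cancel₀ _ s0])
  have h1 := congrArg P.ord e
  rw [P.ord_mul ha0 s0', ro', so'] at h1
  have h2 := congrArg HahnSeries.order (congrArg Subtype.val e)
  rw [MulMemClass.coe_mul, hc, hc, HahnSeries.order_mul ha' s0, ro, so, order_jqModC] at h2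
  linear_combination h1 + P.ord (jbar k M) * h2

theorem order_kSer_deltaUnit (A : ValuationSubring Qbar) :
    (kSer A deltaUnit).order = 1 := by
  rw [kSer, XHLite.coe_deltaUnit, map_mul, coeffMap_single, map_one, coeffMap_ofPowerSeries]
  have hc : ((HahnSeries.ofPowerSeries ℤ (ResidueField A))
      (dedekindEtaUnit.map (Int.castRingHom (ResidueField A)))).coeff ((0 : ℕ) : ℤ) = 1 := by
    rw [HahnSeries.ofPowerSeries_apply_coeff, PowerSeries.coeff_map,
      PowerSeries.coeff_zero_eq_constantCoeff, constantCoeff_dedekindEtaUnit, map_one]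
  rw [Nat.cast_zero] at hc
  set v := (HahnSeries.ofPowerSeries ℤ (ResidueField A))
    (dedekindEtaUnit.map (Int.castRingHom (ResidueField A)))
  have hne : v ≠ 0 := fun h => by rw [h] at hc; exact zero_ne_one hc
  have h0 : v.order = 0 := by
    refine le_antisymm (HahnSeries.order_le_of_coeff_ne_zero (hc ▸ one_ne_zero)) ?_
    by_contra hlt
    exact mt HahnSeries.coeff_order_eq_zero.mp hne
      (ModularCurve.ofPowerSeries_coeff_of_neg _ (not_le.mp hlt))
  rw [HahnSeries.order_mul (HahnSeries.single_ne_zero one_ne_zero) hne,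
    HahnSeries.order_single one_ne_zero, h0, add_zero]

theorem order_kSer_unitSer (A : ValuationSubring Qbar) (q : ℕ) [Fact q.Prime]
    [CharP (ResidueField A) q] [NeZero q] :
    (kSer A (unitSer q)).order = 1 - (q : ℤ) := by
  have hne : ∀ x, kSer A x ≠ 0 := fun x =>
    (x.isUnit.map (coeffMap (Int.castRingHom (ResidueField A)))).ne_zero
  have h : kSer A (unitSer q) * kSer A deltaUnit ^ q = kSer A deltaUnit := by
    rw [kSer, kSer, ← XHLite.coeffMap_expandUnit_char, ← map_mul, ← Units.val_mul, unitSer,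
      inv_mul_cancel_right]
  have h2 := congrArg HahnSeries.order h
  rw [HahnSeries.order_mul (hne _) (pow_ne_zero _ (hne _)), HahnSeries.order_pow,
    order_kSer_deltaUnit, nsmul_eq_mul, mul_one] at h2
  linarith

end Series

variable {A : ValuationSubring Qbar} {M q : ℕ} [NeZero M] [NeZero q] [Fact q.Prime]
  [CharP (ResidueField A) q] [IsAlgClosed (ResidueField A)] (S : Setting A M q)

local notation "φc" => qbarToComplex

/-- The series of `Δ(z)/Δ(q z)` is that of a function of level `M q`. -/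
theorem exists_unitFun (M q : ℕ) [NeZero M] [NeZero q] :
    ∃ w : ↥(modularFunctionFieldBar (M * q)), (w : LaurentSeries Qbar) = qSerZ (unitSer q) ∧
      IsRep φc w (deltaQuotEl (dvd_mul_left q M)) :=
  exists_isRep φc (z := qSerZ (unitSer q)) (G := deltaQuotEl (dvd_mul_left q M))
    (by rw [coeffMap_qSerZ, ser_deltaQuotEl])

/-- The series modulo `q` is a rational function of `j̄`. -/
theorem kSer_unitSer_mem_level_one (hA : A.LiesOverPrime q) :
    kSer A (unitSer q) ∈ modularFunctionFieldFullC (ResidueField A) 1 := by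
  have h1 : ¬ q ∣ 1 := (Fact.out : q.Prime).not_dvd_one
  let S₁ : Setting A 1 q := Setting.of_reductionFacts h1 hA (Reduction.reductionFacts h1 hA)
  obtain ⟨w, hw, -⟩ := exists_unitFun 1 q
  refine S₁.srep_mem (f := w) (i := 0) ?_
  rw [Setting.side_zero, hw, ← redS_aSer, ← ιS_aSer]
  exact SRep.series _

/-- `Δ(z)/Δ(q z)` on the split model. -/
structure LevelUnit (S : Setting A M q) where
  /-- the function -/
  w : ↥(modularFunctionFieldBar (M * q))
  coe_w : (w : LaurentSeries Qbar) = qSerZ (unitSer q)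
  galois : ∀ σ : Qbar ≃ₐ[ℚ] Qbar, arithmeticGalois (modularFunctionFieldFull (M * q)) σ • w = w
  w_mul : w * S.w w = algebraMap Qbar _ ((q : Qbar) ^ 12)
  ne_zero : w ≠ 0
  dual_eq : (q : ↥(modularFunctionFieldBar (M * q))) ^ 12 * w⁻¹ = S.w w
  /-- a level -/
  m : ℕ
  mem : w ∈ riemannRochSpace ((m : ℤ) • S.splitModel.H)
  mem_dual : (q : ↥(modularFunctionFieldBar (M * q))) ^ 12 * w⁻¹ ∈
    riemannRochSpace ((m : ℤ) • S.splitModel.H)
  int : ∀ i, S.splitModel.Int i w
  int_dual : ∀ i, S.splitModel.Int i ((q : ↥(modularFunctionFieldBar (M * q))) ^ 12 * w⁻¹)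
  red0 : (S.splitModel.red 0 w : LaurentSeries (ResidueField A)) = kSer A (unitSer q)
  red0_ne : S.splitModel.red 0 w ≠ 0
  red1 : S.splitModel.red 1 w = 0
  int1_div : S.splitModel.Int 1 (w * ((q : ↥(modularFunctionFieldBar (M * q))) ^ 12)⁻¹)
  red1_div : S.splitModel.red 1 (w * ((q : ↥(modularFunctionFieldBar (M * q))) ^ 12)⁻¹) =
    (S.splitModel.red 0 w)⁻¹
  ord_red0 : ∀ P : Place (ResidueField A) ↥(modularFunctionFieldFullC (ResidueField A) M),
    P.ord (jbar (ResidueField A) M) < 0 →
      P.ord (S.splitModel.red 0 w) = ((q : ℤ) - 1) * P.ord (jbar (ResidueField A) M)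

namespace LevelUnit

variable {S}

theorem red1_div_ne (U : LevelUnit S) :
    S.splitModel.red 1 (U.w * ((q : ↥(modularFunctionFieldBar (M * q))) ^ 12)⁻¹) ≠ 0 := by
  rw [U.red1_div]; exact inv_ne_zero U.red0_ne

theorem ord_red1_div (U : LevelUnit S)
    (P : Place (ResidueField A) ↥(modularFunctionFieldFullC (ResidueField A) M))
    (hP : P.ord (jbar (ResidueField A) M) < 0) :
    P.ord (S.splitModel.red 1 (U.w * ((q : ↥(modularFunctionFieldBar (M * q))) ^ 12)⁻¹)) =
      -(((q : ℤ) - 1) * P.ord (jbar (ResidueField A) M)) := by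
  rw [U.red1_div, P.ord_inv, U.ord_red0 P hP]

end LevelUnit

include S in
/-- **The unit exists.** -/
theorem nonempty_levelUnit : Nonempty (LevelUnit S) := by
  have := isFunctionField_level (M * q)
  obtain ⟨w, hw, hrep⟩ := exists_unitFun M q
  set G := deltaQuotEl (N := M * q) (dvd_mul_left q M) with hG
  set H := invDeltaQuotEl (N := M * q) (dvd_mul_left q M) with hH
  obtain ⟨u, γ, γ', h10, h11, h10', h11', hW⟩ :=
    exists_alData M q ((S.prime.coprime_iff_not_dvd).mpr S.not_dvd)
  let G' : ↥(X0Analytic.modFun (M * q)) := algebraMap ℂ _ ((q : ℂ) ^ 12) * H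
  have hwx : IsRep φc (atkinLehner φc S.prime S.not_dvd w) G' := by
    refine hrep.atkinLehner M q φc h10 h10' hW fun τ => ?_
    show (q : ℂ) ^ 12 * (XHLite.deltaQuot q τ)⁻¹ =
      XHLite.deltaQuot q (γ • (X0Analytic.scaleGL q • τ))
    simp only [XHLite.deltaQuot]
    rw [hW, X0Analytic.discriminant_smul, X0Analytic.discriminant_smul]
    have hden : UpperHalfPlane.denom (γ : GL (Fin 2) ℝ) (X0Analytic.scaleGL q • τ : UpperHalfPlane) =
        q * UpperHalfPlane.denom (γ' : GL (Fin 2) ℝ) τ := by
      rw [ModularGroup.denom_apply, ModularGroup.denom_apply, X0Analytic.coe_scaleGL_smul, h10,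
        h11, h10', h11']
      push_cast
      ring
    have := UpperHalfPlane.denom_ne_zero (γ' : GL (Fin 2) ℝ) τ
    have := ModularForm.discriminant_ne_zero τ
    have := ModularForm.discriminant_ne_zero (X0Analytic.scaleGL q • τ)
    rw [hden, mul_zpow, show ((q : ℂ) ^ (12 : ℤ)) = (q : ℂ) ^ (12 : ℕ) from zpow_natCast _ 12]
    field_simp
  have hmul : w * S.w w = algebraMap Qbar _ ((q : Qbar) ^ 12) := by
    refine (hrep.mul φc hwx).unique ?_
    have h : G * G' = algebraMap ℂ ↥(X0Analytic.modFun (M * q)) (φc ((q : Qbar) ^ 12)) := by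
      rw [map_pow φc, map_natCast]
      show G * (_ * H) = _
      rw [mul_left_comm, hG, hH, deltaQuotEl_mul_inv, mul_one]
    rw [h]
    exact isRep_algebraMap φc _
  have hw0 : w ≠ 0 := fun h => qSerZ_ne_zero (unitSer q) (by
    rw [← hw, h]; rfl)
  have hdual : (q : ↥(modularFunctionFieldBar (M * q))) ^ 12 * w⁻¹ = S.w w := by
    rw [show (q : ↥(modularFunctionFieldBar (M * q))) ^ 12 =
        algebraMap Qbar ↥(modularFunctionFieldBar (M * q)) ((q : Qbar) ^ 12) by
      rw [map_pow, map_natCast], ← hmul, mul_comm w, mul_inv_cancel_right₀ hw0]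
  -- affine places
  have haff : ∀ P : Place Qbar ↥(modularFunctionFieldBar (M * q)), S.splitModel.H P = 0 →
      P.ord w = 0 := fun P hP => by
    refine hrep.ord_eq_zero φc (deltaQuotEl_mul_inv _) P ?_
    rw [← XHLite.jEl0_eq]
    exact ((S.polesH_eq_zero_iff P).mp hP).1
  have hc0 : (q : ↥(modularFunctionFieldBar (M * q))) ^ 12 ≠ 0 :=
    pow_ne_zero _ (Nat.cast_ne_zero.mpr (NeZero.ne q))
  obtain ⟨m₁, hm₁⟩ := XHLite.exists_mem_mul S.splitModel.H_nonneg (f := w)
    fun P hP => (haff P hP).ge
  obtain ⟨m₂, hm₂⟩ := XHLite.exists_mem_mul S.splitModel.H_nonneg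
    (f := (q : ↥(modularFunctionFieldBar (M * q))) ^ 12 * w⁻¹) fun P hP => by
    rw [P.ord_mul hc0 (inv_ne_zero hw0), P.ord_inv, haff P hP, neg_zero, add_zero,
      show (q : ↥(modularFunctionFieldBar (M * q))) ^ 12 =
        algebraMap Qbar ↥(modularFunctionFieldBar (M * q)) ((q : Qbar) ^ 12) by
        rw [map_pow, map_natCast], ord_algebraMap]
  have hmono : ∀ {m m' : ℕ}, m ≤ m' → riemannRochSpace ((m : ℤ) • S.splitModel.H) ≤
      riemannRochSpace ((m' : ℤ) • S.splitModel.H) := fun {m m'} h => rrs_mono fun P => by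
    simp only [Finsupp.smul_apply, smul_eq_mul]
    exact mul_le_mul_of_nonneg_right (by exact_mod_cast h) (S.splitModel.H_nonneg P)
  -- reductions
  have hamem := full_degeneracyC_le (ResidueField A) (one_dvd M)
    (kSer_unitSer_mem_level_one (A := A) S.above)
  set a : ↥(modularFunctionFieldFullC (ResidueField A) M) := ⟨_, hamem⟩ with hadef
  have hane : a ≠ 0 := fun h =>
    ((unitSer q).isUnit.map (coeffMap (Int.castRingHom (ResidueField A)))).ne_zero
      (congrArg Subtype.val h)
  have hs0 : SRep (A := A) (S.side 0 w) (a : LaurentSeries (ResidueField A)) := by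
    rw [Setting.side_zero, hw, ← ιS_aSer, hadef]
    exact (redS_aSer (A := A) (unitSer q)) ▸ SRep.series _
  have hswne : (S.w w) ≠ 0 := (map_ne_zero _).mpr hw0
  have hq12 : SRep (A := A) (algebraMap Qbar (LaurentSeries Qbar) ((q : Qbar) ^ 12)) 0 := by
    have := SRep.const (A := A) ((q : A) ^ 12)
    rw [map_pow (residue A), map_natCast, CharP.cast_eq_zero (ResidueField A) q, zero_pow (by norm_num),
      map_zero] at this
    simpa using this
  have hS1 : S.side 1 w =
      algebraMap Qbar (LaurentSeries Qbar) ((q : Qbar) ^ 12) * (qSerZ (unitSer q))⁻¹ := by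
    rw [Setting.side_one, ← hdual, MulMemClass.coe_mul, IntermediateField.coe_inv, hw]
    simp
  obtain ⟨h0, h0r⟩ := S.red_eq (v := a) hs0
  obtain ⟨h1, h1r⟩ := S.red_eq (i := 1) (f := w) (v := 0) (by
    rw [hS1, ZeroMemClass.coe_zero]
    simpa using hq12.mul (((redS_aSer (A := A) (unitSer q)) ▸ ιS_aSer (A := A) (unitSer q) ▸
      SRep.series (aSer A (unitSer q)) : SRep (A := A) (qSerZ (unitSer q)) (kSer A (unitSer q))).inv
        ((unitSer q).isUnit.map (coeffMap (Int.castRingHom (ResidueField A)))).ne_zero))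
  obtain ⟨g0, g0r⟩ := S.red_eq (i := 0) (f := S.w w) (v := 0) (by
    rw [Setting.side_w]
    have := S.srep_red h1
    rwa [h1r] at this)
  obtain ⟨g1, g1r⟩ := S.red_eq (i := 1) (f := S.w w) (v := a) (by
    rw [Setting.side_w]; exact hs0)
  obtain ⟨k1, k1r⟩ := S.red_eq (i := 1) (f := (S.w w)⁻¹) (v := a⁻¹) (by
    rw [map_inv₀, IntermediateField.coe_inv, Setting.side_w]
    exact hs0.inv fun h => hane (Subtype.ext h))
  have hdiv : w * ((q : ↥(modularFunctionFieldBar (M * q))) ^ 12)⁻¹ = (S.w w)⁻¹ := by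
    rw [← hdual, mul_inv, inv_inv]
    exact mul_comm _ _
  refine ⟨⟨w, hw, fun σ => Subtype.ext ?_, hmul, hw0, hdual, max m₁ m₂,
    hmono (le_max_left _ _) hm₁, hmono (le_max_right _ _) hm₂, ?_, ?_, ?_, ?_, h1r, ?_, ?_, ?_⟩⟩
  · rw [coe_arithmeticGalois_smul, hw, qSerZ, coeffMap_coeffMap]
    exact coeffMap_congr (RingHom.ext_int _ _) _
  · intro i
    obtain rfl | rfl : i = 0 ∨ i = 1 := by omega
    exacts [h0, h1]
  · intro i
    rw [hdual]
    obtain rfl | rfl : i = 0 ∨ i = 1 := by omega
    exacts [g0, g1]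
  · exact congrArg Subtype.val h0r
  · exact fun h => hane (h0r.symm.trans h)
  · rw [hdiv]; exact k1
  · rw [hdiv]
    exact k1r.trans (congrArg (·⁻¹) h0r.symm)
  · intro P hP
    show P.ord (S.gauss.red 0 w) = _
    rw [h0r, ord_of_mem_level_one a (kSer_unitSer_mem_level_one (A := A) S.above) hane P hP,
      show (a : LaurentSeries (ResidueField A)) = kSer A (unitSer q) from rfl,
      order_kSer_unitSer, neg_sub]

end Fermat.Agent.LevelP

end
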