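import Fermat.Agent.SemistableRed.SeriesRep
import Fermat.Agent.FlatJ0.InertiaFixed
import Fermat.Agent.FlatJ0.EvalBasis

/-!
# Series fixed by inertia

Bounded series with inertia-fixed coefficients are powers of `p` times primitive series, a linear
form on `ℚ̄` over the fixed field sends an equation between series to a fixed one, and a space of
series stable under inertia has a fixed basis.
-/

set_option autoImplicit false

noncomputable section

open IsLocalRing ModularCurve Fermat.Agent.Reduction Fermat.Agent.SemistableRed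

namespace Fermat.Agent.LevelP

local notation "Ω" => AlgebraicClosure ℚ

/-- All coefficients are fixed by inertia. -/
def InertiaFixedSeries (A : ValuationSubring Ω) (x : LaurentSeries Ω) : Prop :=
  ∀ n, ∀ σ ∈ A.inertiaSubgroupIn ℚ, σ (x.coeff n) = x.coeff n

variable {A : ValuationSubring Ω} {q : ℕ}

theorem valuation_natCast_lt_one (hA : A.LiesOverPrime q) : A.valuation (q : Ω) < 1 := hA

/-- A fixed non-unit of `A` is divisible by `q`. -/
theorem div_natCast_mem_of_fixed (hq : q.Prime) (hA : A.LiesOverPrime q) {t : Ω} (ht : t ∈ A)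
    (hm : residue A ⟨t, ht⟩ = 0) (hfix : ∀ σ ∈ A.inertiaSubgroupIn ℚ, σ t = t) :
    t / (q : Ω) ∈ A := by
  rcases eq_or_ne t 0 with rfl | ht0
  · rw [zero_div]; exact zero_mem A
  obtain ⟨k, hk⟩ := FlatJ0.exists_valuation_eq_zpow_of_fixed hq hA ht0 hfix
  have hlt : A.valuation t < 1 := by
    rw [residue_eq_zero_iff, ← ValuationSubring.coe_mem_nonunits_iff] at hm
    exact hm
  have hvq : 0 < A.valuation (q : Ω) :=
    A.valuation.pos_iff.mpr (Nat.cast_ne_zero.mpr hq.ne_zero)
  have hk1 : 1 ≤ k := by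
    by_contra hle
    exact absurd (one_le_zpow_of_nonpos₀ hvq (valuation_natCast_lt_one hA).le
      (show k ≤ 0 by omega)) (not_le.mpr (hk ▸ hlt))
  obtain ⟨j, rfl⟩ : ∃ j : ℕ, k = (j : ℤ) + 1 := ⟨(k - 1).toNat, by omega⟩
  refine (A.valuation_le_one_iff _).mp ?_
  rw [map_div₀, hk, zpow_add_one₀ hvq.ne', mul_div_assoc, div_self hvq.ne', mul_one,
    zpow_natCast]
  exact pow_le_one₀ zero_le (valuation_natCast_lt_one hA).le

/-- A bounded nonzero series with fixed coefficients is a power of `q` times a primitive one. -/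
theorem exists_primitive_of_fixed (hq : q.Prime) (hA : A.LiesOverPrime q) (hnil : NilModulo A)
    {x : LaurentSeries Ω} (hb : Bdd A x) (hfix : InertiaFixedSeries A x) (hx : x ≠ 0) :
    ∃ (m : ℤ) (z : LaurentSeries A),
      ιS A z = HahnSeries.single 0 ((q : Ω) ^ m) * x ∧ redS A z ≠ 0 := by
  have hq0 : (q : Ω) ≠ 0 := Nat.cast_ne_zero.mpr hq.ne_zero
  have hqA : residue A (q : A) = 0 := by
    rw [residue_eq_zero_iff, ← ValuationSubring.coe_mem_nonunits_iff]
    show A.valuation ((q : A) : Ω) < 1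
    rw [show ((q : A) : Ω) = (q : Ω) from map_natCast A.subtype q]
    exact valuation_natCast_lt_one hA
  obtain ⟨c, hc, y, hy⟩ := hb
  obtain ⟨N, d, hd⟩ := hnil (q : A) ((residue_eq_zero_iff _).mp hqA) c hc
  have hd' : (q : Ω) ^ N = c * d := by
    have := congrArg (fun t : A => (t : Ω)) hd
    push_cast at this
    exact this
  have hN : ∀ n, (q : Ω) ^ N * x.coeff n ∈ A := fun n => by
    have h := congrArg (fun z => HahnSeries.coeff z n) hy
    simp only [coeff_single_zero_mul] at h
    rw [hd', show (c : Ω) * d * x.coeff n = d * (c * x.coeff n) by ring, ← h]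
    exact A.mul_mem _ _ d.2 (y.coeff n).2
  by_contra hne
  push Not at hne
  have hdiv : ∀ k : ℕ, ∀ n, (q : Ω) ^ ((N : ℤ) - k) * x.coeff n ∈ A := by
    intro k
    induction k with
    | zero => simpa using hN
    | succ k ih =>
      obtain ⟨z, hz⟩ : HahnSeries.single 0 ((q : Ω) ^ ((N : ℤ) - k)) * x ∈ (ιS A).range :=
        mem_range_ιS_iff.mpr fun n => by rw [coeff_single_zero_mul]; exact ih n
      have h0 := hne _ z hz
      intro n
      have hn : residue A (z.coeff n) = 0 :=
        (residue_eq_zero_iff _).mpr (redS_eq_zero_iff.mp h0 n)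
      have hzn : ((z.coeff n : A) : Ω) = (q : Ω) ^ ((N : ℤ) - k) * x.coeff n := by
        have h := congrArg (fun z => HahnSeries.coeff z n) hz
        simpa [coeff_single_zero_mul] using h
      have := div_natCast_mem_of_fixed hq hA (z.coeff n).2 hn fun σ hσ => by
        rw [hzn, map_mul, map_zpow₀, map_natCast, hfix n σ hσ]
      rw [hzn] at this
      rw [show (N : ℤ) - ((k + 1 : ℕ) : ℤ) = ((N : ℤ) - k) - 1 by push_cast; ring,
        zpow_sub_one₀ hq0, mul_right_comm, ← div_eq_mul_inv]
      exact this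
  refine hx (HahnSeries.ext (funext fun n => ?_))
  by_contra hn0
  change x.coeff n ≠ 0 at hn0
  set t := (q : Ω) ^ N * x.coeff n
  have ht : t ≠ 0 := mul_ne_zero (pow_ne_zero _ hq0) hn0
  obtain ⟨m, d, hd⟩ := hnil (q : A) ((residue_eq_zero_iff _).mp hqA) ⟨t, hN n⟩
    fun e => ht (congrArg Subtype.val e)
  have hd' : (q : Ω) ^ m = t * d := by
    have := congrArg (fun u : A => (u : Ω)) hd
    push_cast at this
    exact this
  have h1 : (q : Ω)⁻¹ ∈ A := by
    have e : (q : Ω) ^ ((N : ℤ) - ((m + 1 : ℕ) : ℤ)) * x.coeff n * (d : Ω) = (q : Ω)⁻¹ := by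
      rw [zpow_sub₀ hq0, zpow_natCast, zpow_natCast, div_mul_eq_mul_div, div_mul_eq_mul_div,
        show (q : Ω) ^ N * x.coeff n * (d : Ω) = (q : Ω) ^ m from hd'.symm, pow_succ,
        ← div_div, div_self (pow_ne_zero m hq0), one_div]
    exact e ▸ A.mul_mem _ _ (hdiv (m + 1) n) d.2
  have h2 : (q : A) * ⟨_, h1⟩ = 1 := Subtype.ext (by
    push_cast
    exact mul_inv_cancel₀ hq0)
  have := congrArg (residue A) h2
  rw [map_mul, hqA, zero_mul, map_one] at this
  exact zero_ne_one this

/-- The fixed field of inertia. -/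
abbrev inertiaField (A : ValuationSubring Ω) : IntermediateField ℚ Ω :=
  IntermediateField.fixedField (A.inertiaSubgroupIn ℚ)

/-- A coefficientwise linear form over the fixed field commutes with fixed series. -/
theorem map_mul_of_fixed (φ : Ω →ₗ[inertiaField A] Ω) {x : LaurentSeries Ω}
    (hx : InertiaFixedSeries A x) (y : LaurentSeries Ω) :
    (x * y).map φ = x * y.map φ := by
  ext n
  rw [HahnSeries.map_coeff, HahnSeries.coeff_mul, map_sum,
    HahnSeries.coeff_mul_right' y.isPWO_support fun i hi (h : y.coeff i = 0) =>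
      hi (by rw [HahnSeries.map_coeff, h, map_zero])]
  refine Finset.sum_congr rfl fun ij _ => ?_
  have h : x.coeff ij.1 ∈ inertiaField A := fun σ => hx ij.1 σ.1 σ.2
  rw [HahnSeries.map_coeff]
  exact φ.map_smul (⟨_, h⟩ : inertiaField A) _

/-- A nonzero series has a nonzero image under a linear form with fixed values. -/
theorem exists_form {y : LaurentSeries Ω} (hy : y ≠ 0) :
    ∃ φ : Ω →ₗ[inertiaField A] Ω, y.map φ ≠ 0 ∧
      ∀ z : LaurentSeries Ω, InertiaFixedSeries A (z.map φ) := by
  obtain ⟨n, hn⟩ : ∃ n, y.coeff n ≠ 0 := by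
    by_contra! h
    exact hy (HahnSeries.ext (funext h))
  obtain ⟨ψ, hψ⟩ : ∃ ψ : Ω →ₗ[inertiaField A] inertiaField A, ψ (y.coeff n) ≠ 0 := by
    by_contra! h
    exact hn ((Module.forall_dual_apply_eq_zero_iff (inertiaField A) _).mp h)
  refine ⟨(Algebra.linearMap (inertiaField A) Ω).comp ψ, fun h => hψ ?_, fun z k σ hσ => ?_⟩
  · have := congrArg (fun u => HahnSeries.coeff u n) h
    simpa using this
  · simp only [HahnSeries.map_coeff, LinearMap.comp_apply, Algebra.linearMap_apply]
    exact (ψ (z.coeff k)).2 ⟨σ, hσ⟩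

theorem coeff_smul_coe {F : IntermediateField Ω (LaurentSeries Ω)} (c : Ω) (a : F) (n : ℤ) :
    ((c • a : F) : LaurentSeries Ω).coeff n = c * (a : LaurentSeries Ω).coeff n := by
  rw [Algebra.smul_def, MulMemClass.coe_mul,
    show ((algebraMap Ω F c : F) : LaurentSeries Ω) = algebraMap Ω (LaurentSeries Ω) c from rfl,
    algebraMap_laurentSeries_eq_single, coeff_single_zero_mul]

/-- Finitely many coefficients separate a finite-dimensional space of series. -/
theorem exists_separating {F : IntermediateField Ω (LaurentSeries Ω)} (V : Submodule Ω F)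
    [FiniteDimensional Ω V] :
    ∃ s : Finset ℤ, ∀ v ∈ V, (∀ n ∈ s, (v : LaurentSeries Ω).coeff n = 0) → v = 0 := by
  classical
  let Vs : Finset ℤ → Submodule Ω F := fun s =>
    { carrier := {v | v ∈ V ∧ ∀ n ∈ s, (v : LaurentSeries Ω).coeff n = 0}
      zero_mem' := ⟨zero_mem _, fun n _ => rfl⟩
      add_mem' := fun ha hb => ⟨add_mem ha.1 hb.1, fun n hn => by
        simp [ha.2 n hn, hb.2 n hn]⟩
      smul_mem' := fun c a ha => ⟨V.smul_mem c ha.1, fun n hn => by
        rw [coeff_smul_coe, ha.2 n hn, mul_zero]⟩ }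
  have hV : ∀ s, Vs s ≤ V := fun s v hv => hv.1
  have hne : ∃ r, ∃ s, Module.finrank Ω (Vs s) = r := ⟨_, ∅, rfl⟩
  obtain ⟨s, hs⟩ := Nat.find_spec hne
  refine ⟨s, fun v hv h => ?_⟩
  by_contra hv0
  obtain ⟨n, hn⟩ : ∃ n, (v : LaurentSeries Ω).coeff n ≠ 0 := by
    by_contra! hall
    exact hv0 (Subtype.ext (HahnSeries.ext (funext hall)))
  have hlt : Vs (insert n s) < Vs s := by
    refine lt_of_le_of_ne (fun u hu => ⟨hu.1, fun k hk => hu.2 k (Finset.mem_insert_of_mem hk)⟩)
      fun e => hn ?_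
    exact (e.symm ▸ (show v ∈ Vs s from ⟨hv, h⟩) : v ∈ Vs (insert n s)).2 n
      (Finset.mem_insert_self _ _)
  have : FiniteDimensional Ω (Vs s) := Submodule.finiteDimensional_of_le (hV s)
  have := Submodule.finrank_lt_finrank_of_lt hlt
  have := Nat.find_min' hne ⟨_, (rfl : Module.finrank Ω (Vs (insert n s)) = _)⟩
  omega

/-- A finite-dimensional space of series stable under inertia is spanned by its fixed members. -/
theorem le_span_fixed {F : IntermediateField Ω (LaurentSeries Ω)} (V : Submodule Ω F)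
    [FiniteDimensional Ω V]
    (hV : ∀ σ ∈ A.inertiaSubgroupIn ℚ, ∀ v ∈ V, ∃ w ∈ V,
      ∀ n, (w : LaurentSeries Ω).coeff n = σ ((v : LaurentSeries Ω).coeff n)) :
    V ≤ Submodule.span Ω {v | v ∈ V ∧ InertiaFixedSeries A (v : LaurentSeries Ω)} := by
  classical
  obtain ⟨s, hs⟩ := exists_separating V
  let ev : V →ₗ[Ω] (s → Ω) :=
    { toFun := fun v n => ((v : F) : LaurentSeries Ω).coeff n
      map_add' := fun a b => funext fun n => by simp
      map_smul' := fun c a => funext fun n => coeff_smul_coe c a.1 n }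
  have hev : Function.Injective ev := (injective_iff_map_eq_zero ev).mpr fun v h =>
    Subtype.ext (hs v v.2 fun n hn => congrFun h ⟨n, hn⟩)
  obtain ⟨t, v, -, hdual, hexp, -⟩ := FlatJ0.exists_eval_basis A ev hev
  have hfix : ∀ l, InertiaFixedSeries A ((v l : F) : LaurentSeries Ω) := fun l n σ hσ => by
    obtain ⟨w, hw, hwn⟩ := hV σ hσ (v l) (v l).2
    have hc : ∀ k, ev ⟨w, hw⟩ (t k) = ev (v l) (t k) := fun k => by
      show (w : LaurentSeries Ω).coeff _ = _
      rw [hwn, show ((v l : F) : LaurentSeries Ω).coeff (t k : ℤ) = ev (v l) (t k) from rfl,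
        hdual l k]
      split_ifs <;> simp
    have he : (⟨w, hw⟩ : V) = v l := by
      rw [hexp ⟨w, hw⟩, hexp (v l)]
      simp only [hc]
    rw [← hwn, show w = (v l : F) from congrArg Subtype.val he]
  intro u hu
  have h := congrArg Subtype.val (hexp ⟨u, hu⟩)
  simp only [Submodule.coe_sum, Submodule.coe_smul] at h
  rw [h]
  exact Submodule.sum_mem _ fun l _ =>
    Submodule.smul_mem _ _ (Submodule.subset_span ⟨(v l).2, hfix l⟩)

end Fermat.Agent.LevelP

end
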