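import Fermat.Agent.LevelP.Inst.Descent
import Fermat.Agent.LevelP.Inst.SeriesDescent
import Fermat.Agent.SemistableRed.GaloisCompat
import Fermat.Agent.FlatJ0.Lifts

/-!
# The inertia field as field of rationality of the split model of `X₀(M q)`

The coefficient action of inertia at `A` fixes a field on which both Gauss valuations are discrete
with uniformiser `q` and which contains lifts of all residues.
-/

set_option autoImplicit false
set_option linter.unusedSectionVars false

noncomputable section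

open IsLocalRing ModularCurve AlgebraicCurve Fermat.Agent.Reduction Fermat.Agent.SemistableRed

namespace Fermat.Agent.LevelP

local notation "Ω" => AlgebraicClosure ℚ

theorem inertiaFixedSeries_iff {A : ValuationSubring Ω} {x : LaurentSeries Ω} :
    InertiaFixedSeries A x ↔
      ∀ σ ∈ A.inertiaSubgroupIn ℚ, coeffMap (σ : Ω →+* Ω) x = x :=
  ⟨fun h σ hσ => HahnSeries.ext (funext fun n => h n σ hσ),
    fun h n σ hσ => congrArg (fun u => HahnSeries.coeff u n) (h σ hσ)⟩

theorem inertiaFixedSeries_jq {A : ValuationSubring Ω} (d : ℕ) [NeZero d] :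
    InertiaFixedSeries A (qExpand Ω d (jqModC Ω)) :=
  inertiaFixedSeries_iff.mpr fun _ _ => coeffMap_qExpand_jq _ d

/-- A member of the function field fixed by inertia is a quotient of bounded fixed series. -/
theorem exists_fixed_quotient {A : ValuationSubring Ω} {N : ℕ} {x : LaurentSeries Ω}
    (hx : x ∈ modularFunctionFieldBar N) (hfix : InertiaFixedSeries A x) :
    ∃ P Q : LaurentSeries Ω, x * Q = P ∧ Q ≠ 0 ∧ InertiaFixedSeries A P ∧
      InertiaFixedSeries A Q ∧ Bdd A P ∧ Bdd A Q := by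
  rw [modularFunctionFieldBar_eq, IntermediateField.mem_adjoin_iff_div] at hx
  obtain ⟨r, hr, s, hs, rfl⟩ := hx
  rcases eq_or_ne s 0 with rfl | hs0
  · rw [div_zero] at hfix ⊢
    refine ⟨0, 1, by simp, one_ne_zero, hfix, ?_, Bdd.of_range (zero_mem _),
      Bdd.of_range (one_mem _)⟩
    exact inertiaFixedSeries_iff.mpr fun σ _ => map_one _
  obtain ⟨φ, hφ, hfixed⟩ := exists_form (A := A) hs0
  have hmon : ∀ m ∈ Submonoid.closure (divisorExpansionsC Ω N),
      m ∈ (ιS A).range ∧ InertiaFixedSeries A m := fun m hm => by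
    induction hm using Submonoid.closure_induction with
    | mem y hy =>
      obtain ⟨d, hne, hd, rfl⟩ := hy
      exact ⟨⟨qExpand A d (jqModC A), coeffMap_qExpand_jq A.subtype d⟩,
        inertiaFixedSeries_jq d⟩
    | one => exact ⟨one_mem _, inertiaFixedSeries_iff.mpr fun σ _ => map_one _⟩
    | mul a b _ _ ha hb =>
      exact ⟨mul_mem ha.1 hb.1, inertiaFixedSeries_iff.mpr fun σ hσ => by
        rw [map_mul, inertiaFixedSeries_iff.mp ha.2 σ hσ, inertiaFixedSeries_iff.mp hb.2 σ hσ]⟩
  have hbdd : ∀ y ∈ Algebra.adjoin Ω (divisorExpansionsC Ω N), Bdd A (y.map φ) := by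
    intro y hy
    rw [← Subalgebra.mem_toSubmodule, Algebra.adjoin_eq_span] at hy
    suffices h : ∀ c : Ω, Bdd A ((HahnSeries.single 0 c * y).map φ) by
      simpa using h 1
    induction hy using Submodule.span_induction with
    | mem m hm =>
      intro c
      obtain ⟨h1, h2⟩ := hmon m hm
      have e : (HahnSeries.single 0 c : LaurentSeries Ω).map φ = HahnSeries.single 0 (φ c) := by
        ext n
        by_cases hn : n = 0 <;> simp [hn]
      rw [mul_comm, map_mul_of_fixed φ h2, e, mul_comm]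
      exact (Bdd.of_range h1).single_mul _
    | zero =>
      intro c
      have e : ((0 : LaurentSeries Ω).map φ : LaurentSeries Ω) = 0 := by ext n; simp
      rw [mul_zero, e]
      exact Bdd.of_range (zero_mem _)
    | add a b _ _ ha hb =>
      intro c
      have e : ∀ u v : LaurentSeries Ω,
          ((u + v).map φ : LaurentSeries Ω) = u.map φ + v.map φ := fun u v => by ext n; simp
      rw [mul_add, e]
      exact (ha c).add (hb c)
    | smul d a _ ha =>
      intro c
      rw [Algebra.smul_def, algebraMap_laurentSeries_eq_single, ← mul_assoc,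
        HahnSeries.single_mul_single, zero_add]
      exact ha (c * d)
  refine ⟨r.map φ, s.map φ, ?_, hφ, hfixed r, hfixed s, hbdd r hr, hbdd s hs⟩
  rw [← map_mul_of_fixed φ hfix, div_mul_cancel₀ r hs0]

variable {A : ValuationSubring Ω} {M q : ℕ} [NeZero M] [NeZero q] [Fact q.Prime]
  [CharP (ResidueField A) q] [IsAlgClosed (ResidueField A)] (S : Setting A M q)

local notation "gal" => arithmeticGalois (L := AlgebraicClosure ℚ) (modularFunctionFieldFull (M * q))

variable (A M q) in
/-- The coefficient action of inertia, as ring automorphisms. -/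
def inertiaAct :
    Set (modularFunctionFieldBar (M * q) ≃+* modularFunctionFieldBar (M * q)) :=
  {τ | ∃ σ ∈ A.inertiaSubgroupIn ℚ, SemilinearAut.toRingAut (gal σ) = τ}

theorem mem_fixed_iff {f : modularFunctionFieldBar (M * q)} :
    f ∈ fixedSubfield (inertiaAct A M q) ↔
      InertiaFixedSeries A (f : LaurentSeries Ω) := by
  rw [mem_fixedSubfield, inertiaFixedSeries_iff]
  constructor
  · exact fun h σ hσ => congrArg Subtype.val (h _ ⟨σ, hσ, rfl⟩)
  · rintro h _ ⟨σ, hσ, rfl⟩
    exact Subtype.ext (h σ hσ)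

theorem const_mem_fixed_iff {c : Ω} :
    algebraMap Ω (modularFunctionFieldBar (M * q)) c ∈ fixedSubfield (inertiaAct A M q) ↔
      ∀ σ ∈ A.inertiaSubgroupIn ℚ, σ c = c := by
  rw [mem_fixed_iff, inertiaFixedSeries_iff]
  have e : ∀ σ : Ω ≃ₐ[ℚ] Ω, coeffMap (σ : Ω →+* Ω)
      ((algebraMap Ω (modularFunctionFieldBar (M * q)) c : modularFunctionFieldBar (M * q)) :
        LaurentSeries Ω) = algebraMap Ω (LaurentSeries Ω) (σ c) :=
    fun σ => coeffMap_algebraMap _ c
  exact ⟨fun h σ hσ => (algebraMap Ω (LaurentSeries Ω)).injective ((e σ).symm.trans (h σ hσ)),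
    fun h σ hσ => by rw [e, h σ hσ]; rfl⟩

include S in
theorem fixed_w {f : modularFunctionFieldBar (M * q)}
    (hf : InertiaFixedSeries A (f : LaurentSeries Ω)) :
    InertiaFixedSeries A (S.w f : LaurentSeries Ω) := by
  rw [inertiaFixedSeries_iff] at hf ⊢
  intro σ hσ
  have h : gal σ • f = f := Subtype.ext (hf σ hσ)
  have := wq_galois_smul S.prime S.not_dvd σ f
  rw [h] at this
  exact (congrArg Subtype.val this).symm

/-- A fixed function is a power of `q` times a primitive one on either side. -/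
theorem exists_fixed_normalise (i : Fin 2) {f : modularFunctionFieldBar (M * q)}
    (hf : InertiaFixedSeries A (f : LaurentSeries Ω)) (hf0 : f ≠ 0) :
    ∃ m : ℤ, S.gauss.Int i (((q : Ω) ^ m) • f) ∧ S.gauss.red i (((q : Ω) ^ m) • f) ≠ 0 := by
  have hq : q.Prime := Fact.out
  obtain ⟨g, hg, hside, hg0⟩ : ∃ g : modularFunctionFieldBar (M * q),
      InertiaFixedSeries A (g : LaurentSeries Ω) ∧ S.side i f = (g : LaurentSeries Ω) ∧ g ≠ 0 := by
    obtain rfl | rfl : i = 0 ∨ i = 1 := by omega
    · exact ⟨f, hf, rfl, hf0⟩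
    · exact ⟨S.w f, fixed_w S hf, rfl, (map_ne_zero S.w).mpr hf0⟩
  obtain ⟨P, Q, hPQ, hQ0, hP, hQ, hbP, hbQ⟩ := exists_fixed_quotient g.2 hg
  have hgne : (g : LaurentSeries Ω) ≠ 0 := fun e => hg0 (Subtype.ext e)
  have hP0 : P ≠ 0 := hPQ ▸ mul_ne_zero hgne hQ0
  obtain ⟨a, P', hP', hPr⟩ := exists_primitive_of_fixed hq S.above S.nilModulo' hbP hP hP0
  obtain ⟨b, Q', hQ', hQr⟩ := exists_primitive_of_fixed hq S.above S.nilModulo' hbQ hQ hQ0
  have hrep : SRep (S.side i (((q : Ω) ^ (a - b)) • f)) (redS A P' / redS A Q') := by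
    refine ⟨P', Q', ?_, hQr, rfl⟩
    rw [S.side_smul, hside, smul_eq_algebraMap_mul, algebraMap_laurentSeries_eq_single, hP', hQ',
      ← hPQ, show (q : Ω) ^ a = (q : Ω) ^ b * (q : Ω) ^ (a - b) by
        rw [← zpow_add₀ (Nat.cast_ne_zero.mpr hq.ne_zero)]; congr 1; ring,
      ← zero_add (0 : ℤ), ← HahnSeries.single_mul_single, zero_add]
    ring
  refine ⟨a - b, ⟨_, hrep⟩, ?_⟩
  rw [(S.red_eq (v := ⟨_, S.srep_mem hrep⟩) hrep).2]
  exact fun h => div_ne_zero hPr hQr (congrArg Subtype.val h)

/-- Inertia at `A` as field of rationality of the split model. -/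
def descent : Descent S.splitModel q where
  act := inertiaAct A M q
  natCast_ne := Nat.cast_ne_zero.mpr (Fact.out : q.Prime).ne_zero
  act_const := by
    rintro _ ⟨σ, -, rfl⟩ c
    exact ⟨_, SemilinearAut.commutes (gal σ) c⟩
  natCast_residue := by rw [map_natCast]; exact residue_natCast_eq_zero S.above
  const_value c hc hc0 := by
    obtain ⟨k, hk⟩ := FlatJ0.exists_valuation_eq_zpow_of_fixed Fact.out S.above hc0
      (const_mem_fixed_iff.mp hc)
    have hq0 : (q : Ω) ≠ 0 := Nat.cast_ne_zero.mpr (Fact.out : q.Prime).ne_zero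
    have hv : A.valuation (c * (q : Ω) ^ (-k)) = 1 := by
      rw [map_mul, map_zpow₀, hk, ← zpow_add₀ (A.valuation.ne_zero_iff.mpr hq0), add_neg_cancel,
        zpow_zero]
    refine ⟨-k, (A.valuation_le_one_iff _).mp hv.le, fun h => ?_⟩
    rw [residue_eq_zero_iff, ← ValuationSubring.coe_mem_nonunits_iff] at h
    exact (show A.valuation (c * (q : Ω) ^ (-k)) < 1 from h).ne hv
  exists_lift c := by
    obtain ⟨r, hr, hrc⟩ := FlatJ0.IsOver.exists_fixed_lift ⟨Fact.out, S.above⟩ c
    exact ⟨r, const_mem_fixed_iff.mpr hr.2, hrc⟩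
  fixed_normalise i f hf hf0 := exists_fixed_normalise S i (mem_fixed_iff.mp hf) hf0
  stable_rr m := by
    rintro _ ⟨σ, -, rfl⟩ f hf
    show gal σ • f ∈ _
    rw [Fermat.Agent.SemistableRed.mem_rrs_iff] at hf ⊢
    refine hf.imp (fun e => by rw [e, smul_zero]) fun h P => ?_
    obtain ⟨P', rfl⟩ := MulAction.surjective (gal σ) P
    rw [SemilinearAut.ord_smul]
    have := h P'
    simp only [Finsupp.smul_apply, smul_eq_mul] at this ⊢
    show -((m : ℤ) * S.polesH (gal σ • P')) ≤ _
    rw [S.polesH_galois]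
    exact this
  stable_span V _ hV := by
    refine (le_span_fixed (A := A) V fun σ hσ v hv =>
      ⟨gal σ • v, hV _ ⟨σ, hσ, rfl⟩ v hv, fun n => rfl⟩).trans (Submodule.span_mono ?_)
    exact fun v hv => ⟨hv.1, mem_fixed_iff.mpr hv.2⟩

end Fermat.Agent.LevelP

end
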