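import Fermat.Agent.LevelP.Inst.LocalRing
import Fermat.Agent.LevelP.PairRefine

/-!
# The local ring at a glued pair

Quotients of lattice elements whose denominator takes a nonzero value at the pair.
-/

set_option autoImplicit false
set_option linter.unusedSectionVars false

noncomputable section

open AlgebraicCurve Fermat.Agent.FunctionFieldRR Fermat.Agent.SemistableRed

namespace Fermat.Agent.LevelP

variable {L : Type*} [Field L] {A : ValuationSubring L} {k : Type*} [Field k] [IsAlgClosed k]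
  {π : A →+* k} {F : Type*} [Field F] [Algebra L F] [IsAlgClosed L] [IsFunctionField L F]
  {G : Type*} [Field G] [Algebra k G] [IsFunctionField k G]
  {S : SplitModel A π F G} {p : ℕ} [Fact p.Prime] [CharP G p] (Δ : Descent S p)

/-- The branch of a pair on the component `i`. -/
def branch (x : Place k G × Place k G) (i : Fin 2) : Place k G := if i = 0 then x.1 else x.2

theorem branch_zero (x : Place k G × Place k G) : branch x 0 = x.1 := rfl

theorem branch_one (x : Place k G × Place k G) : branch x 1 = x.2 := rfl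

theorem C_branch {x : Place k G × Place k G} (hx : x ∈ S.pairs) (i : Fin 2) :
    S.C (branch x i) = 0 := by
  have hp := S.mem_pairs.mp hx
  obtain rfl | rfl : i = 0 ∨ i = 1 := by omega
  · exact hp.1
  · exact hp.2.1

namespace Descent

variable {Δ} {x : Place k G × Place k G}

theorem InLat.regular {m : ℕ} {f : F} (hf : Δ.InLat m f) (hx : x ∈ S.pairs) (i : Fin 2) :
    VanishesTo (branch x i) 0 (S.red i f) := by
  simpa [C_branch hx i] using hf.red_vanishes i (branch x i)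

theorem InLat.value_eq {m : ℕ} {f : F} (hf : Δ.InLat m f) (hx : x ∈ S.pairs) (i : Fin 2) :
    residueConst (branch x i) (S.red i f) = residueConst x.1 (S.red 0 f) := by
  obtain rfl | rfl : i = 0 ∨ i = 1 := by omega
  · rfl
  · exact ((S.imgSpace_le_glueSpace m hf.red2_mem).2 x hx).symm

variable (Δ)

/-- The local ring at a glued pair. -/
def pairRing (hx : x ∈ S.pairs) : Subring Δ.F₀ where
  carrier := {f | ∃ m num den, Δ.InLat m num ∧ Δ.InLat m den ∧
    residueConst x.1 (S.red 0 den) ≠ 0 ∧ (f : F) * den = num}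
  mul_mem' := by
    rintro a b ⟨m, n, d, hn, hd, hd0, hf⟩ ⟨m', n', d', hn', hd', hd0', hf'⟩
    refine ⟨m + m', n * n', d * d', hn.mul hn', hd.mul hd', ?_,
      by push_cast; rw [← hf, ← hf']; ring⟩
    have h := residueConst_mul (hd.regular hx 0) (hd'.regular hx 0)
    rw [branch_zero] at h
    rw [S.red_mul 0 _ _ (hd.2.1 0) (hd'.2.1 0), h]
    exact mul_ne_zero hd0 hd0'
  one_mem' := ⟨0, 1, 1, Δ.one_inLat, Δ.one_inLat,
    by rw [S.red_one, residueConst_one]; exact one_ne_zero, by simp⟩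
  add_mem' := by
    rintro a b ⟨m, n, d, hn, hd, hd0, hf⟩ ⟨m', n', d', hn', hd', hd0', hf'⟩
    refine ⟨m + m', n * d' + n' * d, d * d', ?_, hd.mul hd', ?_,
      by push_cast; rw [← hf, ← hf']; ring⟩
    · have h2 := hn'.mul hd
      rw [Nat.add_comm m' m] at h2
      simpa using (hn.mul hd').add h2
    have h := residueConst_mul (hd.regular hx 0) (hd'.regular hx 0)
    rw [branch_zero] at h
    rw [S.red_mul 0 _ _ (hd.2.1 0) (hd'.2.1 0), h]
    exact mul_ne_zero hd0 hd0'
  zero_mem' := ⟨0, 0, 1, ⟨zero_mem _, S.int_zero, Submodule.zero_mem _⟩, Δ.one_inLat,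
    by rw [S.red_one, residueConst_one]; exact one_ne_zero, by simp⟩
  neg_mem' := by
    rintro a ⟨m, n, d, hn, hd, hd0, hf⟩
    exact ⟨m, -n, d, hn.neg, hd, hd0, by push_cast; rw [← hf]; ring⟩

variable {Δ}

theorem InLat.mem_pairRing {m : ℕ} {f : F} (hf : Δ.InLat m f) (hx : x ∈ S.pairs) :
    (⟨f, hf.1⟩ : Δ.F₀) ∈ Δ.pairRing hx :=
  ⟨m, f, 1, hf, Δ.one_inLat.mono (Nat.zero_le m),
    by rw [S.red_one, residueConst_one]; exact one_ne_zero, by simp⟩

theorem W_le_pairRing (hx : x ∈ S.pairs) : Δ.W ≤ Δ.pairRing hx := by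
  rintro f ⟨c, hc, hcf⟩
  have h := (Δ.inLat_const hc (hcf ▸ f.2)).mem_pairRing hx
  rwa [show (⟨algebraMap L F c, _⟩ : Δ.F₀) = f from Subtype.ext hcf] at h

theorem red_ne_of_value (hx : x ∈ S.pairs) {m : ℕ} {d : F} (hd : Δ.InLat m d)
    (h0 : residueConst x.1 (S.red 0 d) ≠ 0) (i : Fin 2) :
    residueConst (branch x i) (S.red i d) ≠ 0 ∧ S.red i d ≠ 0 := by
  rw [← hd.value_eq hx i] at h0
  exact ⟨h0, fun e => h0 (by rw [e, residueConst_zero])⟩

/-- Integrality, regularity and the value at the pair of a member of the ring. -/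
theorem pairRing_spec (hx : x ∈ S.pairs) {f : Δ.F₀} {m : ℕ} {num den : F}
    (hn : Δ.InLat m num) (hd : Δ.InLat m den) (hd0 : residueConst x.1 (S.red 0 den) ≠ 0)
    (h : (f : F) * den = num) (i : Fin 2) :
    f ∈ Δ.glueData.Int i ∧ VanishesTo (branch x i) 0 (Δ.glueData.redF i f) ∧
      residueConst (branch x i) (Δ.glueData.redF i f) * residueConst x.1 (S.red 0 den) =
        residueConst x.1 (S.red 0 num) ∧
      Δ.glueData.redF i f = S.red i num / S.red i den := by
  obtain ⟨hv, hne⟩ := red_ne_of_value hx hd hd0 i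
  obtain ⟨h1, h2⟩ := red_quotient hn hd hne h
  have hord : (branch x i).ord (S.red i den) = 0 := by
    have a := (hd.regular hx i).resolve_left hne
    by_contra hne'
    exact hv ((vanishesTo_one_iff (hd.regular hx i)).mp (Or.inr (by omega)))
  have hreg : VanishesTo (branch x i) 0 (S.red i (f : F)) := by
    rw [h2]
    rcases eq_or_ne (S.red i num) 0 with h0 | h0
    · exact Or.inl (by rw [h0, zero_div])
    refine Or.inr ?_
    rw [ord_div _ h0 hne, hord]
    have := (hn.regular hx i).resolve_left h0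
    omega
  refine ⟨h1, by rw [Δ.glueData_redF h1]; exact hreg, ?_, by rw [Δ.glueData_redF h1, h2]⟩
  rw [Δ.glueData_redF h1, ← hd.value_eq hx i, ← residueConst_mul hreg (hd.regular hx i),
    ← S.red_mul i _ _ h1 (hd.2.1 i), h, hn.value_eq hx i]

theorem pairRing_le (hx : x ∈ S.pairs) (i : Fin 2) : Δ.pairRing hx ≤ Δ.glueData.Int i := by
  rintro f ⟨m, num, den, hn, hd, hd0, h⟩
  exact (pairRing_spec hx hn hd hd0 h i).1

theorem pairRing_red_mem (hx : x ∈ S.pairs) {f : Δ.F₀} (hf : f ∈ Δ.pairRing hx) (i : Fin 2) :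
    VanishesTo (branch x i) 0 (Δ.glueData.redF i f) := by
  obtain ⟨m, num, den, hn, hd, hd0, h⟩ := hf
  exact (pairRing_spec hx hn hd hd0 h i).2.1

theorem pairRing_value_eq (hx : x ∈ S.pairs) {f : Δ.F₀} (hf : f ∈ Δ.pairRing hx) :
    residueConst x.1 (Δ.glueData.redF 0 f) = residueConst x.2 (Δ.glueData.redF 1 f) := by
  obtain ⟨m, num, den, hn, hd, hd0, h⟩ := hf
  exact mul_right_cancel₀ hd0 ((pairRing_spec hx hn hd hd0 h 0).2.2.1.trans
    (pairRing_spec hx hn hd hd0 h 1).2.2.1.symm)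

theorem pairRing_inv_mem (hx : x ∈ S.pairs) {f : Δ.F₀} (hf : f ∈ Δ.pairRing hx)
    (h0 : residueConst x.1 (Δ.glueData.redF 0 f) ≠ 0) : f⁻¹ ∈ Δ.pairRing hx := by
  obtain ⟨m, num, den, hn, hd, hd0, h⟩ := hf
  have hn0 : residueConst x.1 (S.red 0 num) ≠ 0 := by
    rw [← (pairRing_spec hx hn hd hd0 h 0).2.2.1]
    exact mul_ne_zero h0 hd0
  refine ⟨m, den, num, hd, hn, hn0, ?_⟩
  have hf0 : (f : F) ≠ 0 := fun e => h0 (by
    rw [show f = 0 from Subtype.ext e, GlueData.redF_zero, residueConst_zero])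
  push_cast
  rw [← h, ← mul_assoc, inv_mul_cancel₀ hf0, one_mul]

theorem pairRing_ker (hx : x ∈ S.pairs) {f : Δ.F₀} (hf : f ∈ Δ.pairRing hx)
    (h0 : Δ.glueData.redF 0 f = 0) (h1 : Δ.glueData.redF 1 f = 0) :
    ∃ y ∈ Δ.pairRing hx, f = p * y := by
  obtain ⟨m, num, den, hn, hd, hd0, h⟩ := hf
  have hz : ∀ i, S.red i num = 0 := fun i => by
    have := (pairRing_spec hx hn hd hd0 h i).2.2.2
    obtain rfl | rfl : i = 0 ∨ i = 1 := by omega
    · rw [h0, eq_comm, div_eq_zero_iff] at this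
      exact this.resolve_right (red_ne_of_value hx hd hd0 0).2
    · rw [h1, eq_comm, div_eq_zero_iff] at this
      exact this.resolve_right (red_ne_of_value hx hd hd0 1).2
  obtain ⟨y, hy, hyi, hye⟩ := Δ.exists_p_mul hn.1 (hn.2.1 0) (hz 0)
  obtain ⟨y', -, hy'i, hye'⟩ := Δ.exists_p_mul hn.1 (hn.2.1 1) (hz 1)
  have hyy : y' = y := mul_left_cancel₀ Δ.natCast_F_ne (hye'.symm.trans hye)
  have hylat : Δ.InLat m y := by
    refine ⟨hy, fun j => ?_, ?_⟩
    · obtain rfl | rfl : j = 0 ∨ j = 1 := by omega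
      · exact hyi
      · exact hyy ▸ hy'i
    · rw [show y = ((p : L)⁻¹) • num by
        rw [hye, natCast_eq L (F := F), ← Algebra.smul_def, smul_smul,
          inv_mul_cancel₀ Δ.natCast_ne, one_smul]]
      exact Submodule.smul_mem _ _ hn.2.2
  have hden : den ≠ 0 := S.ne_zero_of_red_ne (red_ne_of_value hx hd hd0 0).2
  refine ⟨⟨y, hy⟩ * ⟨den, hd.1⟩⁻¹, ⟨m, y, den, hylat, hd, hd0, ?_⟩, Subtype.ext ?_⟩
  · push_cast; rw [mul_assoc, inv_mul_cancel₀ hden, mul_one]
  · push_cast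
    rw [← mul_assoc, ← hye, ← h, mul_assoc, mul_inv_cancel₀ hden, mul_one]

variable (Δ)

theorem pairRing_fraction (hx : x ∈ S.pairs) (f : Δ.F₀) :
    ∃ a ∈ Δ.pairRing hx, ∃ b ∈ Δ.pairRing hx, b ≠ 0 ∧ f * b = a := by
  obtain ⟨m, a, b, ha, hb, hb0, hfb⟩ := Δ.exists_fraction f.2
  exact ⟨_, ha.mem_pairRing hx, _, hb.mem_pairRing hx,
    fun e => hb0 (congrArg Subtype.val e), Subtype.ext hfb⟩

theorem affineRing_le_pairRing (hx : x ∈ S.pairs) : Δ.affineRing ≤ Δ.pairRing hx := by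
  refine Subring.closure_le.mpr
    (Set.union_subset (W_le_pairRing hx) (Set.range_subset_iff.mpr ?_))
  rintro (_ | j)
  · exact Δ.inLat_T.mem_pairRing hx
  · exact (Δ.inLat_gens j).mem_pairRing hx

theorem isNoetherianRing_pairRing (hx : x ∈ S.pairs) : IsNoetherianRing (Δ.pairRing hx) := by
  have := Δ.isNoetherianRing_affineRing
  refine isNoetherianRing_of_fractions (Δ.affineRing_le_pairRing hx) fun f hf => ?_
  obtain ⟨m, num, den, hn, hd, hd0, h⟩ := hf
  refine ⟨_, Δ.mem_affineRing hn, _, Δ.mem_affineRing hd, fun e => hd0 ?_,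
    ⟨m, 1, den, Δ.one_inLat.mono (Nat.zero_le m), hd, hd0, ?_⟩, Subtype.ext h⟩
  · rw [show den = 0 from congrArg Subtype.val e, S.red_zero, residueConst_zero]
  · have hden : den ≠ 0 := S.ne_zero_of_red_ne (red_ne_of_value hx hd hd0 0).2
    push_cast
    rw [inv_mul_cancel₀ hden]

include Δ in
/-- A multiplier of value one at a branch clearing the poles of `z`, zero at the other branches. -/
theorem exists_clear (hx : x ∈ S.pairs) (i : Fin 2) {z : G} (hz : VanishesTo (branch x i) 0 z) :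
    ∃ m₀ : ℕ, ∀ m : ℕ, m₀ ≤ m → ∃ b : G, b ∈ riemannRochSpace ((m : ℤ) • S.C) ∧
      z * b ∈ riemannRochSpace ((m : ℤ) • S.C) ∧
      residueConst (branch x i) b = 1 ∧
      ∀ y ∈ S.pairs, branch y i ≠ branch x i →
        VanishesTo (branch y i) 1 b ∧ VanishesTo (branch y i) 1 (z * b) := by
  classical
  set P := branch x i with hPdef
  have hC : S.C P = 0 := C_branch hx i
  set s := ((polarDivisor (K := k) z).support ∪ pairPoints S i).erase P
  obtain ⟨m₀, hm₀⟩ := exists_exact_C S P s (Finset.notMem_erase _ _)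
    fun R => (max (-R.ord z) 0).toNat + 1
  refine ⟨m₀, fun m hm => ?_⟩
  obtain ⟨b, hb0, hb, hbP, hbs⟩ := hm₀ m hm
  rw [hC, mul_zero, neg_zero] at hbP
  have hbreg : VanishesTo P 0 b := Or.inr hbP.ge
  have hr : residueConst P b ≠ 0 := fun h => by
    have := ((vanishesTo_one_iff hbreg).mpr h).resolve_left hb0
    omega
  set c := (residueConst P b)⁻¹
  have hzb : z * b ∈ riemannRochSpace ((m : ℤ) • S.C) := by
    rcases eq_or_ne z 0 with h0 | h0
    · rw [h0, zero_mul]; exact Submodule.zero_mem _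
    refine mem_rrs_iff.mpr (Or.inr fun R => ?_)
    rw [R.ord_mul h0 hb0]
    have h2 := (mem_rrs_iff.mp hb).resolve_left hb0 R
    simp only [Finsupp.smul_apply, smul_eq_mul] at h2 ⊢
    by_cases hR : R ∈ s
    · have := hbs R hR
      omega
    · have : 0 ≤ R.ord z := by
        by_cases hRP : R = P
        · subst hRP; exact hz.resolve_left h0
        · have := Finsupp.notMem_support_iff.mp fun hh =>
            hR (Finset.mem_erase.mpr ⟨hRP, Finset.mem_union_left _ hh⟩)
          rw [polarDivisor_apply] at this; omega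
      omega
  refine ⟨c • b, Submodule.smul_mem _ c hb, ?_, ?_, fun y hy hne => ?_⟩
  · rw [mul_smul_comm]; exact Submodule.smul_mem _ c hzb
  · rw [residueConst_smul c hbreg, inv_mul_cancel₀ hr]
  have hmem : branch y i ∈ s :=
    Finset.mem_erase.mpr ⟨hne, Finset.mem_union_right _ (mem_pairPoints hy)⟩
  have h1 := hbs _ hmem
  rw [C_branch hy i, mul_zero, sub_zero] at h1
  refine ⟨VanishesTo.smul c (Or.inr (by omega)), ?_⟩
  rw [mul_smul_comm]
  refine VanishesTo.smul c ?_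
  rcases eq_or_ne z 0 with h0 | h0
  · exact Or.inl (by rw [h0, zero_mul])
  refine Or.inr ?_
  rw [(branch y i).ord_mul h0 hb0]
  omega

theorem branch_ne (hx : x ∈ S.pairs) {y : Place k G × Place k G} (hy : y ∈ S.pairs) (hne : y ≠ x)
    (i : Fin 2) : branch y i ≠ branch x i := by
  have hpy := S.mem_pairs.mp hy
  have hpx := S.mem_pairs.mp hx
  intro h
  refine hne ?_
  obtain rfl | rfl : i = 0 ∨ i = 1 := by omega
  · simp only [branch_zero] at h
    exact Prod.ext h (SplitModel.Pair.right_unique S (h ▸ hpy) hpx)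
  · simp only [branch_one] at h
    exact Prod.ext (SplitModel.Pair.left_unique S (h ▸ hpy) hpx) h

theorem pairRing_surj (hx : x ∈ S.pairs) {z z' : G} (hz : VanishesTo x.1 0 z)
    (hz' : VanishesTo x.2 0 z') (hv : residueConst x.1 z = residueConst x.2 z') :
    ∃ f ∈ Δ.pairRing hx, Δ.glueData.redF 0 f = z ∧ Δ.glueData.redF 1 f = z' := by
  obtain ⟨m0, h0⟩ := Δ.exists_clear hx 0 (z := z) hz
  obtain ⟨m1, h1⟩ := Δ.exists_clear hx 1 (z := z') hz'
  set m := max (max m0 m1) S.baseLevel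
  obtain ⟨b, hb, hzb, hbv, hbo⟩ := h0 m (by omega)
  obtain ⟨b', hb', hzb', hbv', hbo'⟩ := h1 m (by omega)
  rw [branch_zero] at hbv
  rw [branch_one] at hbv'
  have hreg : ∀ {g : G} (_ : g ∈ riemannRochSpace ((m : ℤ) • S.C)) (i : Fin 2),
      VanishesTo (branch x i) 0 g := fun hg i =>
    (mem_rrs_iff.mp hg).imp id fun h => by simpa [C_branch hx i] using h (branch x i)
  have hglue : ∀ {g g' : G}, g ∈ riemannRochSpace ((m : ℤ) • S.C) →
      g' ∈ riemannRochSpace ((m : ℤ) • S.C) → residueConst x.1 g = residueConst x.2 g' →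
      (∀ y ∈ S.pairs, y ≠ x → VanishesTo y.1 1 g ∧ VanishesTo y.2 1 g') →
      ![g, g'] ∈ S.glueSpace m := fun {g g'} hg hg' he ho => by
    refine S.mem_glueSpace.mpr ⟨S.mem_pairSpace.mpr fun j => ?_, fun y hy => ?_⟩
    · fin_cases j <;> simpa
    simp only [SplitModel.ev, Matrix.cons_val_zero, Matrix.cons_val_one]
    rcases eq_or_ne y x with rfl | hne
    · exact he
    · obtain ⟨e1, e2⟩ := ho y hy hne
      have a1 := (mem_rrs_iff.mp hg).imp id fun h => h y.1
      have a2 := (mem_rrs_iff.mp hg').imp id fun h => h y.2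
      rw [(vanishesTo_one_iff (e1.mono (by omega))).mp e1,
        (vanishesTo_one_iff (e2.mono (by omega))).mp e2]
  obtain ⟨den, hd, hdz⟩ := Δ.exists_inLat_glue (le_max_right _ _) (hglue hb hb' (by rw [hbv, hbv'])
    fun y hy hne => ⟨(hbo y hy (Descent.branch_ne hx hy hne 0)).1,
      (hbo' y hy (Descent.branch_ne hx hy hne 1)).1⟩)
  obtain ⟨num, hn, hnz⟩ := Δ.exists_inLat_glue (le_max_right _ _) (hglue hzb hzb' (by
      have e1 : residueConst x.1 (z * b) = _ := residueConst_mul hz (hreg hb 0)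
      have e2 : residueConst x.2 (z' * b') = _ := residueConst_mul hz' (hreg hb' 1)
      rw [e1, e2, hbv, hbv', hv])
    fun y hy hne => ⟨(hbo y hy (Descent.branch_ne hx hy hne 0)).2,
      (hbo' y hy (Descent.branch_ne hx hy hne 1)).2⟩)
  have hd0' : S.red 0 den = b := congrFun hdz 0
  have hd1' : S.red 1 den = b' := congrFun hdz 1
  have hn0' : S.red 0 num = z * b := congrFun hnz 0
  have hn1' : S.red 1 num = z' * b' := congrFun hnz 1
  have hd0 : residueConst x.1 (S.red 0 den) ≠ 0 := by rw [hd0', hbv]; exact one_ne_zero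
  have hden : den ≠ 0 := S.ne_zero_of_red_ne (red_ne_of_value hx hd hd0 0).2
  have hmul : (((⟨num, hn.1⟩ : Δ.F₀) * ⟨den, hd.1⟩⁻¹ : Δ.F₀) : F) * den = num := by
    push_cast; rw [mul_assoc, inv_mul_cancel₀ hden, mul_one]
  refine ⟨_, ⟨m, num, den, hn, hd, hd0, hmul⟩, ?_, ?_⟩
  · rw [(pairRing_spec hx hn hd hd0 hmul 0).2.2.2, hn0', hd0', mul_div_cancel_right₀]
    exact hd0' ▸ (red_ne_of_value hx hd hd0 0).2
  · rw [(pairRing_spec hx hn hd hd0 hmul 1).2.2.2, hn1', hd1', mul_div_cancel_right₀]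
    exact hd1' ▸ (red_ne_of_value hx hd hd0 1).2

/-- The pair before the exponent is known. -/
def prePair (hx : x ∈ S.pairs) {w : Δ.F₀} {kw m : ℕ} (hw : Δ.InLat m w)
    (hw' : Δ.InLat m ((p : F) ^ kw * (w : F)⁻¹)) :
    PrePair Δ.glueData Δ.W (DVPoint.ofPlace x.1) (DVPoint.ofPlace x.2) w kw where
  A := Δ.pairRing hx
  W_le := W_le_pairRing hx
  le := pairRing_le hx
  noetherian := Δ.isNoetherianRing_pairRing hx
  fraction := Δ.pairRing_fraction hx
  red0_mem _f hf := ofPlace_mem.mpr (pairRing_red_mem hx hf 0)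
  red1_mem _f hf := ofPlace_mem.mpr (pairRing_red_mem hx hf 1)
  ev_eq f hf := by
    rw [ofPlace_evF (P := x.1) (pairRing_red_mem hx hf 0), ofPlace_evF (P := x.2) (pairRing_red_mem hx hf 1)]
    exact pairRing_value_eq hx hf
  surj z hz z' hz' hv := Δ.pairRing_surj hx (ofPlace_mem.mp hz) (ofPlace_mem.mp hz') (by
    rwa [ofPlace_evF (ofPlace_mem.mp hz), ofPlace_evF (ofPlace_mem.mp hz')] at hv)
  inv_mem f hf h := pairRing_inv_mem hx hf (by
    rwa [ofPlace_evF (P := x.1) (pairRing_red_mem hx hf 0)] at h)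
  ker _f hf h0 h1 := pairRing_ker hx hf h0 h1
  w_mem := hw.mem_pairRing hx
  w_dual_mem := by
    convert hw'.mem_pairRing hx using 1
    exact Subtype.ext (by push_cast; rfl)

/-- The pair data at a glued pair, with parameters of product a power of `p`. -/
theorem nonempty_pairData (hx : x ∈ S.pairs) {w : Δ.F₀} {kw m : ℕ} (hkw : 0 < kw)
    (hw : Δ.InLat m w) (hw' : Δ.InLat m ((p : F) ^ kw * (w : F)⁻¹))
    (hw0 : S.red 0 (w : F) ≠ 0)
    (hw1 : w * ((p : Δ.F₀) ^ kw)⁻¹ ∈ Δ.glueData.Int 1 ∧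
      Δ.glueData.redF 1 (w * ((p : Δ.F₀) ^ kw)⁻¹) ≠ 0) :
    Nonempty (PairData Δ.glueData Δ.W (DVPoint.ofPlace x.1) (DVPoint.ofPlace x.2) w kw) := by
  set P := DVPoint.ofPlace x.1
  set Q := DVPoint.ofPlace x.2
  let T := Δ.prePair hx hw hw'
  have hu : ∀ R : DVPoint k G, R.IsUnif R.unif := fun R =>
    ⟨1, by rw [map_one]; exact one_ne_zero, by simp⟩
  obtain ⟨a, ha, ha0, ha1⟩ := T.surj P.unif P.unif_mem 0 (zero_mem _)
    (by rw [(hu P).evF_eq_zero, Q.evF_zero])
  obtain ⟨b, hb, hb0, hb1⟩ := T.surj 0 (zero_mem _) Q.unif Q.unif_mem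
    (by rw [(hu Q).evF_eq_zero, P.evF_zero])
  exact T.exists_pairData (fun h => Δ.natCast_F_ne (congrArg Subtype.val h))
    ⟨hw.2.1 0, by rw [Δ.glueData_redF (hw.2.1 0)]; exact hw0⟩ hw1 hkw ha hb
    (ha0 ▸ hu P) ha1 (hb1 ▸ hu Q) hb0

end Descent

end Fermat.Agent.LevelP

end
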