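import Fermat.Agent.SemistableRed.Injective

/-!
# Exact orders and lifts on a split model

Functions with an exact order at one place and zeros at the other special places, decomposition of
`L((m + 1) C)` and of the reached pairs by `Tbar`.
-/

set_option autoImplicit false
set_option linter.unusedSectionVars false

noncomputable section

open AlgebraicCurve Fermat.Agent.FunctionFieldRR Fermat.Agent.SemistableRed

namespace Fermat.Agent.LevelP

variable {L : Type*} [Field L] {A : ValuationSubring L} {k : Type*} [Field k] [IsAlgClosed k]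
  {π : A →+* k} {F : Type*} [Field F] [Algebra L F] {G : Type*} [Field G] [Algebra k G]
  [IsFunctionField k G] (S : SplitModel A π F G)

include S in
/-- A space of large degree contains a function with exact order at a given place. -/
theorem exists_exact : ∃ B : ℤ, ∀ (D : Divisor k G) (P : Place k G), B ≤ Divisor.degree D →
    ∃ b : G, b ≠ 0 ∧ b ∈ riemannRochSpace D ∧ P.ord b = -D P := by
  classical
  refine ⟨|S.rrBound| + |S.gG| + 2, fun D P hD => ?_⟩
  have := le_abs_self S.rrBound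
  have := le_abs_self S.gG
  have := abs_nonneg S.gG
  have := abs_nonneg S.rrBound
  have hdeg : Divisor.degree (D - Finsupp.single P 1) = Divisor.degree D - 1 := by
    rw [map_sub, Divisor.degree_single, deg_eq_one, Nat.cast_one, mul_one]
  have h1 := S.rrG D (by omega)
  have h2 := S.rrG (D - Finsupp.single P 1) (by omega)
  have hnle : ¬ riemannRochSpace D ≤ riemannRochSpace (D - Finsupp.single P 1) := fun hle => by
    have := Module.finite_of_finrank_pos
      (show 0 < Module.finrank k (riemannRochSpace (D - Finsupp.single P 1)) by omega)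
    have := Submodule.finrank_mono hle
    omega
  obtain ⟨b, hb, hb'⟩ := SetLike.not_le_iff_exists.mp hnle
  have hb0 : b ≠ 0 := fun h => hb' (h ▸ Submodule.zero_mem _)
  have hbb := (mem_rrs_iff.mp hb).resolve_left hb0
  refine ⟨b, hb0, hb, le_antisymm ?_ (hbb P)⟩
  by_contra hlt
  refine hb' (mem_rrs_iff.mpr (Or.inr fun Q => ?_))
  have := hbb Q
  rcases eq_or_ne P Q with rfl | hPQ
  · simp only [Finsupp.sub_apply, Finsupp.single_eq_same]; omega
  · simpa [Finsupp.single_eq_of_ne' hPQ] using this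

theorem degree_smul_C_ge (B : ℤ) : ∃ m₀ : ℕ, ∀ m : ℕ, m₀ ≤ m →
    B ≤ (m : ℤ) * Divisor.degree S.C := by
  refine ⟨B.toNat, fun m hm => ?_⟩
  have hC := S.degree_C_pos
  have : (m : ℤ) ≤ (m : ℤ) * Divisor.degree S.C := by nlinarith
  have := Int.self_le_toNat B
  omega

/-- At large level, an exact order at `P` with zeros of order `n` at finitely many other
places. -/
theorem exists_exact_C (P : Place k G) (s : Finset (Place k G)) (hPs : P ∉ s)
    (n : Place k G → ℕ) : ∃ m₀ : ℕ, ∀ m : ℕ, m₀ ≤ m →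
    ∃ b : G, b ≠ 0 ∧ b ∈ riemannRochSpace ((m : ℤ) • S.C) ∧ P.ord b = -((m : ℤ) * S.C P) ∧
      ∀ Q ∈ s, (n Q : ℤ) - (m : ℤ) * S.C Q ≤ Q.ord b := by
  classical
  obtain ⟨B, hB⟩ := exists_exact S
  set E : Divisor k G := ∑ Q ∈ s, Finsupp.single Q (n Q : ℤ) with hE
  obtain ⟨m₀, hm₀⟩ := degree_smul_C_ge S (B + Divisor.degree E)
  refine ⟨m₀, fun m hm => ?_⟩
  have hEP : ∀ Q, E Q = if Q ∈ s then (n Q : ℤ) else 0 := fun Q => by
    rw [hE, Finsupp.finsetSum_apply]
    simp [Finsupp.single_apply]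
  obtain ⟨b, hb0, hb, hbP⟩ := hB ((m : ℤ) • S.C - E) P (by
    rw [map_sub, map_zsmul, smul_eq_mul]; have := hm₀ m hm; omega)
  have hbb := (mem_rrs_iff.mp hb).resolve_left hb0
  refine ⟨b, hb0, rrs_mono (fun Q => ?_) hb, ?_, fun Q hQ => ?_⟩
  · rw [Finsupp.sub_apply, hEP]; split <;> omega
  · rw [hbP, Finsupp.sub_apply, hEP, if_neg hPs, Finsupp.smul_apply, smul_eq_mul]; ring
  · have := hbb Q
    rw [Finsupp.sub_apply, hEP, if_pos hQ, Finsupp.smul_apply, smul_eq_mul] at this
    omega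

theorem Tbar_mem : S.Tbar ∈ riemannRochSpace ((1 : ℤ) • S.C) := by
  refine mem_rrs_iff.mpr (Or.inr fun P => ?_)
  rw [one_smul]
  rcases (S.C_nonneg P).eq_or_lt with h | h
  · have := S.ord_Tbar_nonneg P h.symm; omega
  · rw [S.ord_Tbar P h]

/-- Multiplication by `Tbar` fills the next level. -/
theorem exists_tbar_decomp {m : ℕ} (hm : S.baseLevel + 1 ≤ m) {z : G}
    (hz : z ∈ riemannRochSpace (((m + 1 : ℕ) : ℤ) • S.C)) :
    ∃ y ∈ riemannRochSpace ((m : ℤ) • S.C), z - S.Tbar * y ∈ riemannRochSpace ((m : ℤ) • S.C) := by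
  obtain ⟨l, rfl⟩ : ∃ l, m = l + 1 := ⟨m - 1, by omega⟩
  set μ : G →ₗ[k] G := LinearMap.mulLeft k S.Tbar
  have hinj : Function.Injective μ := fun a b h => mul_left_cancel₀ S.Tbar_ne h
  set U := riemannRochSpace (((l + 1 : ℕ) : ℤ) • S.C) with hU
  set U' := riemannRochSpace ((l : ℤ) • S.C) with hU'
  set V := riemannRochSpace (((l + 1 + 1 : ℕ) : ℤ) • S.C) with hV
  obtain ⟨hfd, h1⟩ := S.finrank_C (m := l + 1) (by omega)
  obtain ⟨hfd', h0⟩ := S.finrank_C (m := l) (by omega)
  obtain ⟨hfd'', h2⟩ := S.finrank_C (m := l + 1 + 1) (by omega)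
  have hμV : U.map μ ⊔ U ≤ V := by
    refine sup_le ?_ (rrs_mono fun P => ?_)
    · rintro _ ⟨u, hu, rfl⟩
      show S.Tbar * u ∈ V
      have := mul_mem_rrs (Tbar_mem S) hu
      rw [← add_smul] at this
      convert this using 4
      push_cast; ring
    · simp only [Finsupp.smul_apply, smul_eq_mul]; push_cast; nlinarith [S.C_nonneg P]
  have hker : U.map μ ⊓ U ≤ U'.map μ := by
    rintro _ ⟨⟨u, hu, rfl⟩, huU⟩
    refine ⟨u, ?_, rfl⟩
    refine S.rrs_of_Tbar_mul (d := 1) ?_ fun P hP =>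
      (mem_rrs_iff.mp hu).imp id fun h => by simpa [hP] using h P
    rw [pow_one, Nat.add_comm]
    exact huU
  have heq : U.map μ ⊔ U = V := by
    refine Submodule.eq_of_le_of_finrank_le hμV ?_
    have e1 := Submodule.finrank_sup_add_finrank_inf_eq (U.map μ) U
    have e2 := Submodule.finrank_mono hker
    rw [← (Submodule.equivMapOfInjective μ hinj U).finrank_eq] at e1
    rw [← (Submodule.equivMapOfInjective μ hinj U').finrank_eq] at e2
    have h1' : (Module.finrank k U : ℤ) = ((l + 1 : ℕ) : ℤ) * Divisor.degree S.C + 1 - S.gG := h1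
    have h0' : (Module.finrank k U' : ℤ) = (l : ℤ) * Divisor.degree S.C + 1 - S.gG := h0
    have h2' : (Module.finrank k V : ℤ) =
      ((l + 1 + 1 : ℕ) : ℤ) * Divisor.degree S.C + 1 - S.gG := h2
    push_cast at h0' h1' h2'
    zify at e1 e2 ⊢
    linarith
  rw [← heq] at hz
  obtain ⟨_, ⟨y, hy, rfl⟩, w, hw, rfl⟩ := Submodule.mem_sup.mp hz
  exact ⟨y, hy, by simpa [μ] using hw⟩

/-- At large level the reached pairs are generated by `Tbar` from the previous level. -/
theorem exists_reach_decomp {m : ℕ} (hm : S.baseLevel + 1 ≤ m) {z : Fin 2 → G}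
    (hz : z ∈ S.imgSpace (riemannRochSpace (((m + 1 : ℕ) : ℤ) • S.H))) :
    ∃ g ∈ S.imgSpace (riemannRochSpace ((m : ℤ) • S.H)),
      z - (fun _ => S.Tbar) * g ∈ S.imgSpace (riemannRochSpace ((m : ℤ) • S.H)) := by
  have hzp := S.mem_pairSpace.mp ((S.imgSpace_le_glueSpace _) hz).1
  choose y hy hy' using fun i => exists_tbar_decomp S hm (hzp i)
  obtain ⟨l, rfl⟩ : ∃ l, m = l + 1 := ⟨m - 1, by omega⟩
  have hlead : S.leadBound ≤ l := by simp only [SplitModel.baseLevel] at hm; omega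
  choose f hf hfi hfr hfo using fun i => S.lead l hlead i (y i) (hy i)
  set g := S.red2 (f 0 + f 1)
  have hgi : S.Int2 (f 0 + f 1) := fun i => S.int_add i _ _ (hfi 0 i) (hfi 1 i)
  have hg : g ∈ S.imgSpace (riemannRochSpace (((l + 1 : ℕ) : ℤ) • S.H)) :=
    ⟨_, add_mem (hf 0) (hf 1), hgi, rfl⟩
  refine ⟨g, hg, S.mem_imgSpace_of_reach (by omega) ?_ ?_⟩
  · refine SplitModel.Reach.sub S ⟨_, hz⟩ ?_
    refine SplitModel.Reach.mul S ?_ ⟨_, hg⟩
    refine ⟨1, S.T, ?_, S.int_T, funext S.red_T⟩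
    refine mem_rrs_iff.mpr (Or.inr fun P => ?_)
    rw [Nat.cast_one, one_smul]
    rcases (S.H_nonneg P).eq_or_lt with h | h
    · have := S.ord_T_nonneg P h.symm; omega
    · rw [S.ord_T P h]
  · refine S.mem_pairSpace.mpr fun i => ?_
    have hgy : g i - y i ∈ riemannRochSpace ((l : ℤ) • S.C) := by
      show S.red i (f 0 + f 1) - y i ∈ _
      rw [S.red_add i _ _ (hfi 0 i) (hfi 1 i)]
      obtain rfl | rfl : i = 0 ∨ i = 1 := by omega
      · rw [hfo 1 0 (by decide), add_zero]; exact hfr 0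
      · rw [hfo 0 1 (by decide), zero_add]; exact hfr 1
    have h2 := mul_mem_rrs (Tbar_mem S) hgy
    rw [← add_smul, add_comm] at h2
    rw [Pi.sub_apply, Pi.mul_apply,
      show z i - S.Tbar * g i = (z i - S.Tbar * y i) - S.Tbar * (g i - y i) by ring]
    exact sub_mem (hy' i) (by exact_mod_cast h2)

end Fermat.Agent.LevelP

end
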