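import Fermat.Agent.LevelP.Inst.Descent
import Fermat.Agent.LevelP.Inst.SplitAux
import Fermat.Agent.FunctionFieldRR.RiemannRochSpace
import Fermat.Agent.FunctionFieldRR.RationalBase
import Mathlib.RingTheory.Polynomial.Basic
import Mathlib.RingTheory.PrincipalIdealDomain

/-!
# The affine rings of a model with a field of rationality

Fixed integral functions with poles along `H` form an algebra of finite type over the fixed
constants, generated by a lift of `Tbar` and a basis at one level; so do their quotients by powers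
of that lift.
-/

set_option autoImplicit false
set_option linter.unusedSectionVars false

noncomputable section

open AlgebraicCurve Fermat.Agent.FunctionFieldRR Fermat.Agent.SemistableRed

namespace Fermat.Agent.LevelP

section Generic

variable {E : Type*} [Field E]

/-- The ring generated by finitely many elements over a Noetherian subring is Noetherian. -/
theorem isNoetherianRing_closure (W : Subring E) [IsNoetherianRing W] {J : Type*} [Finite J]
    (g : J → E) : IsNoetherianRing (Subring.closure ((W : Set E) ∪ Set.range g)) := by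
  set C := Subring.closure ((W : Set E) ∪ Set.range g)
  let φ : MvPolynomial J W →+* C := MvPolynomial.eval₂Hom
    (Subring.inclusion fun x hx => Subring.subset_closure (Or.inl hx))
    fun j => ⟨g j, Subring.subset_closure (Or.inr ⟨j, rfl⟩)⟩
  refine isNoetherianRing_of_surjective _ _ φ fun x => ?_
  have hle : C ≤ ((C.subtype).comp φ).range := Subring.closure_le.mpr (Set.union_subset
    (fun y hy => ⟨MvPolynomial.C ⟨y, hy⟩, by simp [φ]⟩)
    (Set.range_subset_iff.mpr fun j => ⟨MvPolynomial.X j, by simp [φ]⟩))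
  obtain ⟨y, hy⟩ := hle x.2
  exact ⟨y, Subtype.ext hy⟩

/-- A ring of fractions of a Noetherian ring is Noetherian. -/
theorem isNoetherianRing_of_fractions {C A : Subring E} (hCA : C ≤ A) [IsNoetherianRing C]
    (h : ∀ f ∈ A, ∃ c ∈ C, ∃ d ∈ C, d ≠ 0 ∧ d⁻¹ ∈ A ∧ f * d = c) : IsNoetherianRing A := by
  rw [isNoetherianRing_iff_ideal_fg]
  intro I
  let ι := Subring.inclusion hCA
  have hI : Ideal.map ι (Ideal.comap ι I) = I := by
    refine le_antisymm Ideal.map_comap_le fun f hf => ?_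
    obtain ⟨c, hc, d, hd, hd0, hdi, hfd⟩ := h f f.2
    have hc' : ι ⟨c, hc⟩ = f * ι ⟨d, hd⟩ := Subtype.ext hfd.symm
    have e : f = (⟨d⁻¹, hdi⟩ : A) * ι ⟨c, hc⟩ := Subtype.ext (by
      show (f : E) = d⁻¹ * c
      rw [← hfd, mul_comm, mul_assoc, mul_inv_cancel₀ hd0, mul_one])
    rw [e]
    refine Ideal.mul_mem_left _ _ (Ideal.mem_map_of_mem ι ?_)
    show ι ⟨c, hc⟩ ∈ I
    rw [hc']
    exact I.mul_mem_right _ hf
  rw [← hI]
  exact Ideal.FG.map (IsNoetherian.noetherian (Ideal.comap ι I)) ι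

end Generic

variable {L : Type*} [Field L] {A : ValuationSubring L} {k : Type*} [Field k] [IsAlgClosed k]
  {π : A →+* k} {F : Type*} [Field F] [Algebra L F] [IsAlgClosed L] [IsFunctionField L F]
  {G : Type*} [Field G] [Algebra k G] [IsFunctionField k G]
  {S : SplitModel A π F G} {p : ℕ} (Δ : Descent S p)

namespace Descent

/-- The fixed integral constants. -/
def W : Subring Δ.F₀ where
  carrier := {x | ∃ c ∈ A, algebraMap L F c = x}
  mul_mem' := by
    rintro a b ⟨c, hc, hca⟩ ⟨d, hd, hdb⟩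
    exact ⟨c * d, A.mul_mem _ _ hc hd, by rw [map_mul, hca, hdb]; rfl⟩
  one_mem' := ⟨1, A.one_mem, by simp⟩
  add_mem' := by
    rintro a b ⟨c, hc, hca⟩ ⟨d, hd, hdb⟩
    exact ⟨c + d, A.add_mem _ _ hc hd, by rw [map_add, hca, hdb]; rfl⟩
  zero_mem' := ⟨0, A.zero_mem, by simp⟩
  neg_mem' := by
    rintro a ⟨c, hc, hca⟩
    exact ⟨-c, A.neg_mem _ hc, by rw [map_neg, hca]; rfl⟩

theorem W_mem {c : L} (hc : c ∈ A) (h : algebraMap L F c ∈ Δ.F₀) :
    (⟨algebraMap L F c, h⟩ : Δ.F₀) ∈ Δ.W := ⟨c, hc, rfl⟩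

include Δ in
theorem inv_mem_A {c : L} (hc : c ∈ A) (h : π ⟨c, hc⟩ ≠ 0) : c⁻¹ ∈ A := by
  by_contra hn
  have h0 : c ≠ 0 := fun h0 => h (by
    rw [show (⟨c, hc⟩ : A) = 0 from Subtype.ext h0, map_zero])
  refine h ((S.isResidueMap _).mpr fun hu => hn ?_)
  obtain ⟨u, hu⟩ := hu
  have h1 : ((u : A) : L) * ((↑u⁻¹ : A) : L) = 1 := congrArg Subtype.val u.mul_inv
  rw [congrArg Subtype.val hu] at h1
  rw [inv_eq_of_mul_eq_one_right h1]
  exact SetLike.coe_mem _

/-- A nonzero fixed integral constant is a power of `p` times a unit. -/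
theorem W_factor {x : Δ.W} (hx : x ≠ 0) :
    ∃ (n : ℕ) (u : Δ.W), IsUnit u ∧ x = (p : Δ.W) ^ n * u := by
  obtain ⟨c, hc, hcx⟩ := x.2
  have hc0 : c ≠ 0 := fun h => hx (Subtype.ext (Subtype.ext (by
    rw [← hcx, h, map_zero]; rfl)))
  have hfix : algebraMap L F c ∈ Δ.F₀ := hcx ▸ (x : Δ.F₀).2
  obtain ⟨m, hm, hm'⟩ := Δ.const_value c hfix hc0
  have hp := Δ.natCast_ne
  obtain ⟨n, rfl⟩ : ∃ n : ℕ, m = -(n : ℤ) := by
    refine ⟨(-m).toNat, ?_⟩
    by_contra hneg
    obtain ⟨j, rfl⟩ : ∃ j : ℕ, m = ((j + 1 : ℕ) : ℤ) := ⟨m.toNat - 1, by omega⟩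
    refine hm' ?_
    rw [show (⟨_, hm⟩ : A) = ⟨c, hc⟩ * (p : A) ^ (j + 1) from Subtype.ext (by
      push_cast; norm_cast), map_mul, map_pow, Δ.natCast_residue,
      zero_pow j.succ_ne_zero, mul_zero]
  have hu : algebraMap L F (c * (p : L) ^ (-(n : ℤ))) ∈ Δ.F₀ := by
    rw [map_mul, map_zpow₀, map_natCast]
    exact mul_mem hfix (zpow_mem (natCast_mem _ p) _)
  have hu' : algebraMap L F (c * (p : L) ^ (-(n : ℤ)))⁻¹ ∈ Δ.F₀ := by
    rw [map_inv₀]; exact inv_mem hu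
  have hne : c * (p : L) ^ (-(n : ℤ)) ≠ 0 := mul_ne_zero hc0 (zpow_ne_zero _ hp)
  refine ⟨n, ⟨_, Δ.W_mem hm hu⟩, ⟨⟨⟨_, Δ.W_mem hm hu⟩, ⟨_, Δ.W_mem (Δ.inv_mem_A hm hm') hu'⟩,
    ?_, ?_⟩, rfl⟩, Subtype.ext (Subtype.ext ?_)⟩
  · exact Subtype.ext (Subtype.ext (by
      show algebraMap L F _ * algebraMap L F _ = 1
      rw [← map_mul, mul_inv_cancel₀ hne, map_one]))
  · exact Subtype.ext (Subtype.ext (by
      show algebraMap L F _ * algebraMap L F _ = 1
      rw [← map_mul, inv_mul_cancel₀ hne, map_one]))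
  · show ((x : Δ.F₀) : F) = (p : F) ^ n * algebraMap L F (c * (p : L) ^ (-(n : ℤ)))
    rw [← hcx, ← map_natCast (algebraMap L F), ← map_pow, ← map_mul, zpow_neg, zpow_natCast]
    congr 1
    field_simp

theorem isNoetherianRing_W : IsNoetherianRing Δ.W := by
  classical
  have : IsPrincipalIdealRing Δ.W := by
    refine ⟨fun I => ?_⟩
    by_cases hI : ∃ n : ℕ, (p : Δ.W) ^ n ∈ I
    · refine ⟨⟨(p : Δ.W) ^ Nat.find hI, le_antisymm (fun x hx => ?_) ?_⟩⟩
      · by_cases hx0 : x = 0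
        · rw [hx0]; exact Submodule.zero_mem _
        obtain ⟨n, u, hu, rfl⟩ := Δ.W_factor hx0
        have hn : (p : Δ.W) ^ n ∈ I := by
          have := I.mul_mem_right (↑hu.unit⁻¹) hx
          rwa [mul_assoc, IsUnit.mul_val_inv, mul_one] at this
        rw [← Nat.add_sub_cancel' (Nat.find_le (h := hI) hn), pow_add, mul_assoc]
        exact Ideal.mem_span_singleton'.mpr ⟨_, mul_comm _ _⟩
      · rw [Submodule.span_le, Set.singleton_subset_iff]
        exact Nat.find_spec hI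
    · refine ⟨⟨0, ?_⟩⟩
      rw [Submodule.span_singleton_eq_bot.mpr rfl, eq_bot_iff]
      intro x hx
      by_contra hx0
      obtain ⟨n, u, hu, rfl⟩ := Δ.W_factor (by simpa using hx0)
      refine hI ⟨n, ?_⟩
      have := I.mul_mem_right (↑hu.unit⁻¹) hx
      rwa [mul_assoc, IsUnit.mul_val_inv, mul_one] at this
  infer_instance

/-- Fixed, integral on both components, with poles bounded by `m H`. -/
def InLat (m : ℕ) (f : F) : Prop :=
  f ∈ Δ.F₀ ∧ S.Int2 f ∧ f ∈ riemannRochSpace ((m : ℤ) • S.H)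

variable {Δ}

theorem InLat.mono {m m' : ℕ} {f : F} (hf : Δ.InLat m f) (h : m ≤ m') : Δ.InLat m' f :=
  ⟨hf.1, hf.2.1, S.Hspace_mono h hf.2.2⟩

theorem InLat.mul {m m' : ℕ} {f g : F} (hf : Δ.InLat m f) (hg : Δ.InLat m' g) :
    Δ.InLat (m + m') (f * g) := by
  refine ⟨mul_mem hf.1 hg.1, fun i => S.int_mul i _ _ (hf.2.1 i) (hg.2.1 i), ?_⟩
  have := mul_mem_rrs hf.2.2 hg.2.2
  rwa [← add_smul, ← Nat.cast_add] at this

theorem InLat.add {m m' : ℕ} {f g : F} (hf : Δ.InLat m f) (hg : Δ.InLat m' g) :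
    Δ.InLat (max m m') (f + g) :=
  ⟨add_mem hf.1 hg.1, fun i => S.int_add i _ _ (hf.2.1 i) (hg.2.1 i),
    add_mem (S.Hspace_mono (le_max_left _ _) hf.2.2) (S.Hspace_mono (le_max_right _ _) hg.2.2)⟩

theorem InLat.neg {m : ℕ} {f : F} (hf : Δ.InLat m f) : Δ.InLat m (-f) :=
  ⟨neg_mem hf.1, fun i => S.int_neg (hf.2.1 i), Submodule.neg_mem _ hf.2.2⟩

theorem InLat.pow {m : ℕ} {f : F} (hf : Δ.InLat m f) (n : ℕ) : Δ.InLat (n * m) (f ^ n) := by
  induction n with
  | zero =>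
    rw [pow_zero, Nat.zero_mul]
    exact ⟨one_mem _, S.int_one, mem_rrs_iff.mpr (Or.inr fun P => by simp)⟩
  | succ n ih => rw [pow_succ, Nat.succ_mul]; exact ih.mul hf

theorem InLat.red2_mem {m : ℕ} {f : F} (hf : Δ.InLat m f) :
    S.red2 f ∈ S.imgSpace (riemannRochSpace ((m : ℤ) • S.H)) := ⟨f, hf.2.2, hf.2.1, rfl⟩

variable (Δ)

theorem inLat_const {c : L} (hc : c ∈ A) (h : algebraMap L F c ∈ Δ.F₀) :
    Δ.InLat 0 (algebraMap L F c) := by
  refine ⟨h, fun i => (int_const hc i).1, ?_⟩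
  rw [Algebra.algebraMap_eq_smul_one]
  exact Submodule.smul_mem _ _ (mem_rrs_iff.mpr (Or.inr fun P => by simp))

/-- Every reached pair at a level has a fixed lift there. -/
theorem exists_inLat {m : ℕ} {z : Fin 2 → G}
    (hz : z ∈ S.imgSpace (riemannRochSpace ((m : ℤ) • S.H))) :
    ∃ f, Δ.InLat m f ∧ S.red2 f = z := by
  have := finiteDimensional_riemannRochSpace (K := L) ((m : ℤ) • S.H)
  obtain ⟨f, hf, hf0, hfi, hfz⟩ := Δ.exists_fixed_lift _ (Δ.stable_rr m) hz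
  exact ⟨f, ⟨hf0, hfi, hf⟩, hfz⟩

/-- Every pair in the glue space of a large level has a fixed lift there. -/
theorem exists_inLat_glue {m : ℕ} (hm : S.baseLevel ≤ m) {z : Fin 2 → G}
    (hz : z ∈ S.glueSpace m) : ∃ f, Δ.InLat m f ∧ S.red2 f = z :=
  Δ.exists_inLat (S.imgSpace_eq_glueSpace hm ▸ hz)

theorem exists_T : ∃ T : F, Δ.InLat 1 T ∧ S.red2 T = fun _ => S.Tbar := by
  refine Δ.exists_inLat ⟨S.T, ?_, S.int_T, funext S.red_T⟩
  refine mem_rrs_iff.mpr (Or.inr fun P => ?_)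
  rw [Nat.cast_one, one_smul]
  rcases (S.H_nonneg P).eq_or_lt with h | h
  · have := S.ord_T_nonneg P h.symm; omega
  · rw [S.ord_T P h]

/-- A fixed lift of `Tbar`. -/
def T : F := Δ.exists_T.choose

theorem inLat_T : Δ.InLat 1 Δ.T := Δ.exists_T.choose_spec.1

theorem red_T (i : Fin 2) : S.red i Δ.T = S.Tbar := congrFun Δ.exists_T.choose_spec.2 i

theorem T_ne : Δ.T ≠ 0 := fun h => S.Tbar_ne (by rw [← Δ.red_T 0, h, S.red_zero])

/-- A fixed family with spanning reductions spans the lattice over the fixed constants. -/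
theorem exists_repr {m : ℕ} {J : Type*} [Fintype J] (g : J → F) (hg : ∀ j, Δ.InLat m (g j))
    (hspan : S.imgSpace (riemannRochSpace ((m : ℤ) • S.H)) ≤
      Submodule.span k (Set.range fun j => S.red2 (g j)))
    {f : F} (hf : Δ.InLat m f) :
    ∃ c : J → L, (∀ j, c j ∈ A ∧ algebraMap L F (c j) ∈ Δ.F₀) ∧ f = ∑ j, c j • g j := by
  classical
  have := finiteDimensional_riemannRochSpace (K := L) ((m : ℤ) • S.H)
  obtain ⟨b, hbs, hbspan, hb⟩ :=
    exists_linearIndependent k (Set.range fun j => S.red2 (g j))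
  have hbfin : b.Finite := (Set.finite_range _).subset hbs
  have := hbfin.fintype
  choose σ hσ using fun x : b => hbs x.2
  let e : b → F := fun x => g (σ x)
  have hind : LinearIndependent k fun x => S.red2 (e x) := by
    have : (fun x => S.red2 (e x)) = ((↑) : b → Fin 2 → G) := funext fun x => hσ x
    rw [this]; exact hb
  have himg : S.imgSpace (riemannRochSpace ((m : ℤ) • S.H)) =
      Submodule.span k b := le_antisymm (hbspan ▸ hspan) (Submodule.span_le.mpr fun x hx => by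
        obtain ⟨j, rfl⟩ := hbs hx
        exact (hg j).red2_mem)
  have hcard : Fintype.card b =
      Module.finrank k (S.imgSpace (riemannRochSpace ((m : ℤ) • S.H))) := by
    rw [himg, ← finrank_span_eq_card hb, Subtype.range_coe]
  obtain ⟨co, hco, hfe⟩ := S.exists_coords _ (e := e) (fun x => (hg _).2.2) (fun x => (hg _).2.1)
    hind hcard hf.2.2 hf.2.1
  have hLind := S.linearIndependent_of_red (fun x => (hg (σ x)).2.1) hind
  have hfix : ∀ x, algebraMap L F (co x) ∈ Δ.F₀ := fun x τ hτ => by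
    choose c' hc' using fun y => Δ.act_const τ hτ (co y)
    have h1 : ∑ y, (c' y - co y) • e y = 0 := by
      simp only [sub_smul, Finset.sum_sub_distrib, ← hfe]
      rw [sub_eq_zero]
      conv_rhs => rw [← hf.1 τ hτ, hfe, map_sum]
      refine Finset.sum_congr rfl fun y _ => ?_
      rw [Algebra.smul_def, Algebra.smul_def, map_mul, hc', (hg (σ y)).1 τ hτ]
    rw [hc', sub_eq_zero.mp (Fintype.linearIndependent_iff.mp hLind _ h1 x)]
  refine ⟨fun j => ∑ x ∈ Finset.univ.filter fun x => σ x = j, co x, fun j => ⟨?_, ?_⟩, ?_⟩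
  · exact sum_mem fun x _ => hco x
  · rw [map_sum]; exact sum_mem fun x _ => hfix x
  · rw [hfe, ← Finset.sum_fiberwise Finset.univ σ]
    refine Finset.sum_congr rfl fun j _ => ?_
    rw [Finset.sum_smul]
    exact Finset.sum_congr rfl fun x hx => by simp [e, (Finset.mem_filter.mp hx).2]

/-- Every fixed element is a quotient of lattice elements. -/
theorem exists_fraction {f : F} (hf : f ∈ Δ.F₀) :
    ∃ (m : ℕ) (x y : F), Δ.InLat m x ∧ Δ.InLat m y ∧ y ≠ 0 ∧ f * y = x := by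
  obtain ⟨m, hm1, hm2⟩ : ∃ m : ℕ,
      S.rrBound + Divisor.degree (polarDivisor (K := L) f) ≤ (m : ℤ) * Divisor.degree S.C ∧
      S.gF + Divisor.degree (polarDivisor (K := L) f) ≤ (m : ℤ) * Divisor.degree S.C := by
    obtain ⟨m₁, h1⟩ := degree_smul_C_ge S (S.rrBound + Divisor.degree (polarDivisor (K := L) f))
    obtain ⟨m₂, h2⟩ := degree_smul_C_ge S (S.gF + Divisor.degree (polarDivisor (K := L) f))
    exact ⟨max m₁ m₂, h1 _ (le_max_left _ _), h2 _ (le_max_right _ _)⟩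
  set V := riemannRochSpace (K := L) ((m : ℤ) • S.H) with hVdef
  have := finiteDimensional_riemannRochSpace (K := L) ((m : ℤ) • S.H)
  set U : Submodule L F := V ⊓ V.comap (LinearMap.mulLeft L f) with hU
  have : FiniteDimensional L U := Submodule.finiteDimensional_inf_left _ _
  have hUst : Stable Δ.act U := fun τ hτ x hx => by
    refine ⟨Δ.stable_rr m τ hτ x hx.1, ?_⟩
    have := Δ.stable_rr m τ hτ _ hx.2
    rwa [LinearMap.mulLeft_apply, map_mul, hf τ hτ] at this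
  have hUne : ¬ U ≤ ⊥ := by
    have hd : Divisor.degree ((m : ℤ) • S.H - polarDivisor (K := L) f) =
        2 * ((m : ℤ) * Divisor.degree S.C) - Divisor.degree (polarDivisor (K := L) f) := by
      rw [map_sub, map_zsmul, smul_eq_mul, S.degree_H]; ring
    have hC := S.degree_C_pos
    have hm0 : (0 : ℤ) ≤ (m : ℤ) * Divisor.degree S.C := by positivity
    have h := S.rrF ((m : ℤ) • S.H - polarDivisor (K := L) f) (by omega)
    intro hbot
    have hle : riemannRochSpace ((m : ℤ) • S.H - polarDivisor (K := L) f) ≤ U := fun y hy => by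
      rcases mem_rrs_iff.mp hy with h0 | hyb
      · rw [h0]; exact zero_mem _
      refine ⟨rrs_mono (fun P => ?_) hy, mem_rrs_iff.mpr ?_⟩
      · simp only [Finsupp.sub_apply, polarDivisor_apply]; omega
      · rcases eq_or_ne (f * y) 0 with h0 | h0
        · exact Or.inl h0
        refine Or.inr fun P => ?_
        obtain ⟨hf0, hy0⟩ := mul_ne_zero_iff.mp h0
        have := hyb P
        rw [LinearMap.mulLeft_apply, P.ord_mul hf0 hy0]
        simp only [Finsupp.sub_apply, polarDivisor_apply] at this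
        omega
    rw [Submodule.eq_bot_iff .. |>.mpr fun y hy => (hbot (hle hy) : y ∈ (⊥ : Submodule L F)) |>
      (Submodule.mem_bot L).mp] at h
    rw [finrank_bot, Nat.cast_zero] at h
    omega
  obtain ⟨y, ⟨⟨hyV, hyf⟩, hyF⟩, hy0⟩ : ∃ y, (y ∈ U ∧ y ∈ Δ.F₀) ∧ y ≠ 0 := by
    by_contra! hne
    exact hUne ((Δ.stable_span U inferInstance hUst).trans
      (Submodule.span_le.mpr fun y hy => by simp [hne y hy]))
  obtain ⟨j1, hj1⟩ := Δ.exists_int2_scale hyF
  obtain ⟨j2, hj2⟩ := Δ.exists_int2_scale (mul_mem hf hyF)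
  refine ⟨m, ((p : L) ^ (j1 + j2)) • (f * y), ((p : L) ^ (j1 + j2)) • y, ⟨?_, ?_, ?_⟩,
    ⟨?_, ?_, ?_⟩, smul_ne_zero (pow_ne_zero _ Δ.natCast_ne) hy0, mul_smul_comm _ _ _⟩
  · rw [← zpow_natCast]; exact Δ.zpow_smul_mem _ (mul_mem hf hyF)
  · intro i; rw [pow_add, mul_smul]; exact S.int_smul i _ _ (pow_mem natCast_mem_A _) (hj2 i)
  · exact Submodule.smul_mem _ _ hyf
  · rw [← zpow_natCast]; exact Δ.zpow_smul_mem _ hyF
  · intro i
    rw [add_comm, pow_add, mul_smul]; exact S.int_smul i _ _ (pow_mem natCast_mem_A _) (hj1 i)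
  · exact Submodule.smul_mem _ _ hyV

/-- The level of the generators. -/
def genLevel (_Δ : Descent S p) : ℕ := S.baseLevel + 1

theorem exists_gens : ∃ (r : ℕ) (e : Fin r → F), (∀ j, Δ.InLat Δ.genLevel (e j)) ∧
    S.imgSpace (riemannRochSpace ((Δ.genLevel : ℤ) • S.H)) ≤
      Submodule.span k (Set.range fun j => S.red2 (e j)) := by
  have := finiteDimensional_riemannRochSpace (K := L) ((Δ.genLevel : ℤ) • S.H)
  obtain ⟨hfd, -⟩ := S.finrank_imgSpace (riemannRochSpace ((Δ.genLevel : ℤ) • S.H))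
  let b := Module.finBasis k (S.imgSpace (riemannRochSpace ((Δ.genLevel : ℤ) • S.H)))
  choose e he her using fun j => Δ.exists_inLat (b j).2
  refine ⟨_, e, he, fun z hz => ?_⟩
  have h := congrArg Subtype.val (b.sum_repr ⟨z, hz⟩)
  simp only [Submodule.coe_sum, Submodule.coe_smul, ← her] at h
  rw [← h]
  exact sum_mem fun j _ => Submodule.smul_mem _ _ (Submodule.subset_span ⟨j, rfl⟩)

/-- Number of generators. -/
def genCard : ℕ := Δ.exists_gens.choose

/-- The generators. -/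
def gens : Fin Δ.genCard → F := Δ.exists_gens.choose_spec.choose

theorem inLat_gens (j) : Δ.InLat Δ.genLevel (Δ.gens j) :=
  Δ.exists_gens.choose_spec.choose_spec.1 j

theorem imgSpace_le_gens : S.imgSpace (riemannRochSpace ((Δ.genLevel : ℤ) • S.H)) ≤
    Submodule.span k (Set.range fun j => S.red2 (Δ.gens j)) :=
  Δ.exists_gens.choose_spec.choose_spec.2

/-- Levels above the generators are reached from the previous one by `T`. -/
theorem inLat_succ {m : ℕ} (hm : Δ.genLevel ≤ m) {f : F} (hf : Δ.InLat (m + 1) f) :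
    ∃ g h, Δ.InLat m g ∧ Δ.InLat m h ∧ f = Δ.T * g + h := by
  classical
  have := finiteDimensional_riemannRochSpace (K := L) ((m : ℤ) • S.H)
  obtain ⟨hfd, -⟩ := S.finrank_imgSpace (riemannRochSpace ((m : ℤ) • S.H))
  let b := Module.finBasis k (S.imgSpace (riemannRochSpace ((m : ℤ) • S.H)))
  choose e he her using fun j => Δ.exists_inLat (b j).2
  have hspan : ∀ z ∈ S.imgSpace (riemannRochSpace ((m : ℤ) • S.H)),
      ∃ c : Fin _ → k, z = ∑ j, c j • S.red2 (e j) := fun z hz => ⟨fun j => b.repr ⟨z, hz⟩ j, by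
    have h := congrArg Subtype.val (b.sum_repr ⟨z, hz⟩)
    simp only [Submodule.coe_sum, Submodule.coe_smul, ← her] at h
    exact h.symm⟩
  let g : Fin 2 × Fin _ → F := fun x => if x.1 = 0 then e x.2 else Δ.T * e x.2
  have hg : ∀ x, Δ.InLat (m + 1) (g x) := fun x => by
    simp only [g]
    split_ifs
    · exact (he _).mono (Nat.le_succ m)
    · rw [add_comm]; exact Δ.inLat_T.mul (he _)
  obtain ⟨c, hc, hfc⟩ := Δ.exists_repr g hg (fun z hz => by
    obtain ⟨y, hy, hzy⟩ := exists_reach_decomp S hm hz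
    obtain ⟨c1, hc1⟩ := hspan y hy
    obtain ⟨c0, hc0⟩ := hspan _ hzy
    have hmem : ∀ x, S.red2 (g x) ∈ Submodule.span k (Set.range fun x => S.red2 (g x)) :=
      fun x => Submodule.subset_span ⟨x, rfl⟩
    have h0 : ∀ j, S.red2 (g (0, j)) = S.red2 (e j) := fun j => by simp [g]
    have h1 : ∀ j, S.red2 (g (1, j)) = (fun _ => S.Tbar) * S.red2 (e j) := fun j => funext fun i => by
      show S.red i (g (1, j)) = S.Tbar * S.red i (e j)
      simp only [g, show (1 : Fin 2) ≠ 0 by decide, if_false]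
      rw [S.red_mul i _ _ (Δ.inLat_T.2.1 i) ((he j).2.1 i), Δ.red_T]
    rw [show z = (fun _ => S.Tbar) * y + (z - (fun _ => S.Tbar) * y) by abel, hc1]
    refine add_mem ?_ (hc1 ▸ hc0 ▸ sum_mem fun j _ => Submodule.smul_mem _ _ (h0 j ▸ hmem (0, j)))
    rw [Finset.mul_sum]
    exact sum_mem fun j _ => by
      rw [mul_smul_comm]; exact Submodule.smul_mem _ _ (h1 j ▸ hmem (1, j))) hf
  have hcomb : ∀ i : Fin 2, Δ.InLat m (∑ j, c (i, j) • e j) := fun i => by
    refine ⟨sum_mem fun j _ => ?_, fun l => (S.int_sum _ fun j _ =>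
      S.int_smul l _ _ (hc (i, j)).1 ((he j).2.1 l)).1,
      Submodule.sum_mem _ fun j _ => Submodule.smul_mem _ _ (he j).2.2⟩
    rw [Algebra.smul_def]; exact mul_mem (hc (i, j)).2 (he j).1
  refine ⟨_, _, hcomb 1, hcomb 0, ?_⟩
  rw [hfc, Fintype.sum_prod_type, Fin.sum_univ_two, Finset.mul_sum, add_comm]
  simp [g]

/-- Coordinates at the level of the generators. -/
theorem inLat_genLevel {f : F} (hf : Δ.InLat Δ.genLevel f) :
    ∃ c : Fin Δ.genCard → L, (∀ j, c j ∈ A ∧ algebraMap L F (c j) ∈ Δ.F₀) ∧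
      f = ∑ j, c j • Δ.gens j :=
  Δ.exists_repr _ Δ.inLat_gens Δ.imgSpace_le_gens hf

/-- The affine ring. -/
def affineRing : Subring Δ.F₀ := Subring.closure ((Δ.W : Set Δ.F₀) ∪
  Set.range fun o : Option (Fin Δ.genCard) =>
    o.elim ⟨Δ.T, Δ.inLat_T.1⟩ fun j => ⟨Δ.gens j, (Δ.inLat_gens j).1⟩)

/-- The ring at infinity. -/
def inftyRing : Subring Δ.F₀ := Subring.closure ((Δ.W : Set Δ.F₀) ∪
  Set.range fun o : Option (Fin Δ.genCard) =>
    o.elim (⟨Δ.T, Δ.inLat_T.1⟩ : Δ.F₀)⁻¹ fun j =>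
      ⟨Δ.gens j, (Δ.inLat_gens j).1⟩ * (⟨Δ.T, Δ.inLat_T.1⟩ : Δ.F₀)⁻¹ ^ Δ.genLevel)

theorem isNoetherianRing_affineRing : IsNoetherianRing Δ.affineRing :=
  haveI := Δ.isNoetherianRing_W
  isNoetherianRing_closure Δ.W _

theorem isNoetherianRing_inftyRing : IsNoetherianRing Δ.inftyRing :=
  haveI := Δ.isNoetherianRing_W
  isNoetherianRing_closure Δ.W _

theorem mem_affineRing {m : ℕ} {f : F} (hf : Δ.InLat m f) :
    (⟨f, hf.1⟩ : Δ.F₀) ∈ Δ.affineRing := by
  have hgen : ∀ f (hf : Δ.InLat Δ.genLevel f), (⟨f, hf.1⟩ : Δ.F₀) ∈ Δ.affineRing := fun f hf => by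
    obtain ⟨c, hc, hfc⟩ := Δ.inLat_genLevel hf
    rw [show (⟨f, hf.1⟩ : Δ.F₀) =
        ∑ j, (⟨_, (hc j).2⟩ : Δ.F₀) * ⟨Δ.gens j, (Δ.inLat_gens j).1⟩ from Subtype.ext (by
      push_cast; rw [hfc]; exact Finset.sum_congr rfl fun j _ => Algebra.smul_def _ _)]
    exact sum_mem fun j _ => mul_mem (Subring.subset_closure (Or.inl (Δ.W_mem (hc j).1 (hc j).2)))
      (Subring.subset_closure (Or.inr ⟨some j, rfl⟩))
  rcases le_total m Δ.genLevel with h | h
  · exact hgen f (hf.mono h)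
  obtain ⟨n, rfl⟩ := Nat.exists_eq_add_of_le h
  clear h
  induction n generalizing f with
  | zero => exact hgen f hf
  | succ n ih =>
    obtain ⟨g, h, hg, hh, e⟩ := Δ.inLat_succ (Nat.le_add_right _ n) hf
    rw [show (⟨f, hf.1⟩ : Δ.F₀) = ⟨Δ.T, Δ.inLat_T.1⟩ * ⟨g, hg.1⟩ + ⟨h, hh.1⟩ from
      Subtype.ext e]
    exact add_mem (mul_mem (Subring.subset_closure (Or.inr ⟨none, rfl⟩)) (ih hg)) (ih hh)

theorem mem_inftyRing {m : ℕ} {f : F} (hf : Δ.InLat m f) :
    (⟨f, hf.1⟩ : Δ.F₀) * (⟨Δ.T, Δ.inLat_T.1⟩ : Δ.F₀)⁻¹ ^ m ∈ Δ.inftyRing := by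
  set t : Δ.F₀ := ⟨Δ.T, Δ.inLat_T.1⟩ with ht
  have ht0 : t ≠ 0 := fun h => Δ.T_ne (congrArg Subtype.val h)
  have htinv : t⁻¹ ∈ Δ.inftyRing := Subring.subset_closure (Or.inr ⟨none, rfl⟩)
  have hgen : ∀ f (hf : Δ.InLat Δ.genLevel f),
      (⟨f, hf.1⟩ : Δ.F₀) * t⁻¹ ^ Δ.genLevel ∈ Δ.inftyRing := fun f hf => by
    obtain ⟨c, hc, hfc⟩ := Δ.inLat_genLevel hf
    rw [show (⟨f, hf.1⟩ : Δ.F₀) =
        ∑ j, (⟨_, (hc j).2⟩ : Δ.F₀) * ⟨Δ.gens j, (Δ.inLat_gens j).1⟩ from Subtype.ext (by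
      push_cast; rw [hfc]; exact Finset.sum_congr rfl fun j _ => Algebra.smul_def _ _),
      Finset.sum_mul]
    exact sum_mem fun j _ => by
      rw [mul_assoc]
      exact mul_mem (Subring.subset_closure (Or.inl (Δ.W_mem (hc j).1 (hc j).2)))
        (Subring.subset_closure (Or.inr ⟨some j, rfl⟩))
  rcases le_total m Δ.genLevel with h | h
  · obtain ⟨d, hd⟩ := Nat.exists_eq_add_of_le h
    have hfd : Δ.InLat Δ.genLevel (f * Δ.T ^ d) := by
      rw [hd]; simpa using hf.mul (Δ.inLat_T.pow d)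
    have := hgen _ hfd
    rwa [show (⟨f * Δ.T ^ d, hfd.1⟩ : Δ.F₀) = ⟨f, hf.1⟩ * t ^ d from Subtype.ext (by
        push_cast; rfl), hd, pow_add, mul_assoc, mul_left_comm (t ^ d), ← mul_pow,
      mul_inv_cancel₀ ht0, one_pow, mul_one] at this
  obtain ⟨n, rfl⟩ := Nat.exists_eq_add_of_le h
  clear h
  induction n generalizing f with
  | zero => exact hgen f hf
  | succ n ih =>
    obtain ⟨g, h, hg, hh, e⟩ := Δ.inLat_succ (Nat.le_add_right _ n) hf
    rw [show (⟨f, hf.1⟩ : Δ.F₀) = t * ⟨g, hg.1⟩ + ⟨h, hh.1⟩ from Subtype.ext e,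
      show Δ.genLevel + (n + 1) = Δ.genLevel + n + 1 by omega, pow_succ, add_mul,
      show t * (⟨g, hg.1⟩ : Δ.F₀) * (t⁻¹ ^ (Δ.genLevel + n) * t⁻¹) =
        (⟨g, hg.1⟩ : Δ.F₀) * t⁻¹ ^ (Δ.genLevel + n) * (t * t⁻¹) by ring,
      mul_inv_cancel₀ ht0, mul_one, ← mul_assoc]
    exact add_mem (ih hg) (mul_mem (ih hh) htinv)

end Descent

end Fermat.Agent.LevelP

end
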