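import Fermat.Agent.LevelP.Interface
import Fermat.Agent.SemistableRed.Model
import Fermat.Agent.SemistableRed.Spaces

/-!
# A split model with a discretely valued field of rationality

`Descent S p` records a set of ring automorphisms of `F` whose fixed field has discrete valuations
with uniformiser `p` on both components, lifts all residues and has enough fixed elements in
stable spaces. From this every reduction of a function in a stable space has a fixed lift.
-/

set_option autoImplicit false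

noncomputable section

open AlgebraicCurve Fermat.Agent.SemistableRed

namespace Fermat.Agent.LevelP

variable {L : Type*} [Field L] {A : ValuationSubring L} {k : Type*} [Field k] {π : A →+* k}
  {F : Type*} [Field F] [Algebra L F] {G : Type*} [Field G] [Algebra k G]

/-- Fixed by a set of ring automorphisms. -/
def fixedSubfield (act : Set (F ≃+* F)) : Subfield F where
  carrier := {f | ∀ σ ∈ act, σ f = f}
  mul_mem' ha hb σ hσ := by rw [map_mul, ha σ hσ, hb σ hσ]
  one_mem' σ _ := map_one σ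
  add_mem' ha hb σ hσ := by rw [map_add, ha σ hσ, hb σ hσ]
  zero_mem' σ _ := map_zero σ
  neg_mem' ha σ hσ := by rw [map_neg, ha σ hσ]
  inv_mem' x hx σ hσ := by rw [map_inv₀, hx σ hσ]

theorem mem_fixedSubfield {act : Set (F ≃+* F)} {f : F} :
    f ∈ fixedSubfield act ↔ ∀ σ ∈ act, σ f = f := Iff.rfl

/-- Stable under every element of `act`. -/
def Stable (act : Set (F ≃+* F)) (V : Submodule L F) : Prop := ∀ σ ∈ act, ∀ x ∈ V, σ x ∈ V

/-- A field of rationality of a split model, discretely valued with uniformiser `p`. -/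
structure Descent (S : SplitModel A π F G) (p : ℕ) where
  act : Set (F ≃+* F)
  natCast_ne : (p : L) ≠ 0
  act_const : ∀ σ ∈ act, ∀ c : L, ∃ c' : L, σ (algebraMap L F c) = algebraMap L F c'
  natCast_residue : π (p : A) = 0
  const_value : ∀ c : L, algebraMap L F c ∈ fixedSubfield act → c ≠ 0 →
    ∃ (m : ℤ) (h : c * (p : L) ^ m ∈ A), π ⟨_, h⟩ ≠ 0
  exists_lift : ∀ c : k, ∃ x : A, algebraMap L F (x : L) ∈ fixedSubfield act ∧ π x = c
  fixed_normalise : ∀ i, ∀ f ∈ fixedSubfield act, f ≠ 0 →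
    ∃ m : ℤ, S.Int i (((p : L) ^ m) • f) ∧ S.red i (((p : L) ^ m) • f) ≠ 0
  stable_rr : ∀ m : ℕ, Stable act (riemannRochSpace ((m : ℤ) • S.H))
  stable_span : ∀ V : Submodule L F, FiniteDimensional L V → Stable act V →
    V ≤ Submodule.span L {x | x ∈ V ∧ x ∈ fixedSubfield act}

namespace Descent

variable {S : SplitModel A π F G} {p : ℕ} (Δ : Descent S p)

/-- The fixed field. -/
def F₀ : Subfield F := fixedSubfield Δ.act

theorem natCast_eq (L : Type*) [Field L] {F : Type*} [Field F] [Algebra L F] (m : ℕ) :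
    (m : F) = algebraMap L F (m : L) := (map_natCast _ m).symm

theorem zpow_natCast_smul (m : ℤ) (f : F) : ((p : L) ^ m) • f = (p : F) ^ m * f := by
  rw [Algebra.smul_def, map_zpow₀, map_natCast]

theorem zpow_smul_mem (m : ℤ) {f : F} (hf : f ∈ Δ.F₀) : ((p : L) ^ m) • f ∈ Δ.F₀ := by
  rw [zpow_natCast_smul]
  exact mul_mem (zpow_mem (natCast_mem _ p) m) hf

include Δ in
theorem natCast_F_ne : (p : F) ≠ 0 := by
  rw [natCast_eq L]; exact (map_ne_zero _).mpr Δ.natCast_ne

theorem natCast_mem_A : (p : L) ∈ A := natCast_mem A p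

include Δ in
theorem inv_natCast_notMem : ((p : L))⁻¹ ∉ A := fun h => by
  have h1 : (p : A) * ⟨_, h⟩ = 1 := Subtype.ext (by
    push_cast; exact mul_inv_cancel₀ Δ.natCast_ne)
  have := congrArg π h1
  rw [map_mul, Δ.natCast_residue, zero_mul, map_one] at this
  exact zero_ne_one this

include Δ in
/-- Nothing nonzero is divisible by every power of `p`. -/
theorem eq_zero_of_forall_div_pow {y : L} (h : ∀ n : ℕ, y / (p : L) ^ n ∈ A) : y = 0 := by
  by_contra hy
  obtain ⟨m, hm⟩ := S.rankOne y hy (p : A) Δ.natCast_residue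
  refine Δ.inv_natCast_notMem ?_
  have := A.mul_mem _ _ hm (h (m + 1))
  convert this using 1
  rw [show (((p : A) : L)) = (p : L) from map_natCast A.subtype p, pow_succ]
  have := Δ.natCast_ne
  field_simp

include Δ in
theorem int_p_mul {i : Fin 2} {f : F} (hf : S.Int i f) :
    S.Int i ((p : F) * f) ∧ S.red i ((p : F) * f) = 0 := by
  rw [natCast_eq L, ← Algebra.smul_def]
  exact ⟨S.int_smul i _ _ natCast_mem_A hf,
    S.smul_mem_zero natCast_mem_A (by rw [show (⟨(p : L), natCast_mem_A⟩ : A) = (p : A) from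
      Subtype.ext (map_natCast A.subtype p).symm, Δ.natCast_residue]) hf⟩

theorem int_const {c : L} (hc : c ∈ A) (i : Fin 2) :
    S.Int i (algebraMap L F c) ∧ S.red i (algebraMap L F c) = algebraMap k G (π ⟨c, hc⟩) := by
  rw [Algebra.algebraMap_eq_smul_one, Algebra.algebraMap_eq_smul_one]
  exact ⟨S.int_smul i _ _ hc (S.int_one i), by rw [S.red_smul i _ _ hc (S.int_one i), S.red_one]⟩

/-- A fixed integral function with zero reduction is a multiple of `p`. -/
theorem exists_p_mul {i : Fin 2} {f : F} (hf : f ∈ Δ.F₀) (hfi : S.Int i f) (h : S.red i f = 0) :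
    ∃ y ∈ Δ.F₀, S.Int i y ∧ f = (p : F) * y := by
  by_cases hf0 : f = 0
  · exact ⟨0, zero_mem _, S.int_zero i, by rw [hf0, mul_zero]⟩
  obtain ⟨m, hm, hm'⟩ := Δ.fixed_normalise i f hf hf0
  have hp := Δ.natCast_F_ne
  rw [zpow_natCast_smul] at hm hm'
  rcases lt_or_ge m 0 with hneg | hnn
  · obtain ⟨j, rfl⟩ : ∃ j : ℕ, m = -((j : ℤ) + 1) := ⟨(-m - 1).toNat, by omega⟩
    refine ⟨(p : F) ^ j * ((p : F) ^ (-((j : ℤ) + 1)) * f), mul_mem (pow_mem (natCast_mem _ p) _)
      (mul_mem (zpow_mem (natCast_mem _ p) _) hf), ?_, ?_⟩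
    · clear hneg
      suffices ∀ l : ℕ, S.Int i ((p : F) ^ l * ((p : F) ^ (-((j : ℤ) + 1)) * f)) from this j
      intro l
      induction l with
      | zero => simpa using hm
      | succ l ih => rw [pow_succ', mul_assoc]; exact (Δ.int_p_mul ih).1
    · rw [← mul_assoc, ← mul_assoc, ← pow_succ', ← zpow_natCast, ← zpow_add₀ hp]
      push_cast
      rw [add_neg_cancel, zpow_zero, one_mul]
  · exfalso
    obtain ⟨j, rfl⟩ : ∃ j : ℕ, m = (j : ℤ) := ⟨m.toNat, by omega⟩
    rw [zpow_natCast] at hm hm'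
    cases j with
    | zero => exact hm' (by rw [pow_zero, one_mul, h])
    | succ j =>
      refine hm' ?_
      rw [pow_succ', mul_assoc]
      refine (Δ.int_p_mul ?_).2
      rw [natCast_eq L, ← map_pow, ← Algebra.smul_def]
      exact S.int_smul i _ _ (pow_mem natCast_mem_A j) hfi

/-- The two Gauss reductions of the fixed field. -/
def glueData : GlueData p Δ.F₀ k G where
  Int i :=
    { carrier := {f | S.Int i (f : F)}
      mul_mem' := fun {a b} ha hb => S.int_mul i _ _ ha hb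
      one_mem' := S.int_one i
      add_mem' := fun {a b} ha hb => S.int_add i _ _ ha hb
      zero_mem' := S.int_zero i
      neg_mem' := fun {a} ha => S.int_neg ha }
  red i :=
    { toFun := fun f => S.red i ((f.1 : Δ.F₀) : F)
      map_one' := S.red_one i
      map_mul' := fun a b => S.red_mul i _ _ a.2 b.2
      map_zero' := S.red_zero i
      map_add' := fun a b => S.red_add i _ _ a.2 b.2 }
  red_eq_zero i x := by
    refine ⟨fun h => ?_, fun ⟨y, hy, hxy⟩ => ?_⟩
    · obtain ⟨y, hy, hyi, hxy⟩ := Δ.exists_p_mul x.1.2 x.2 h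
      exact ⟨⟨y, hy⟩, hyi, Subtype.ext (by push_cast; exact hxy)⟩
    · show S.red i ((x.1 : Δ.F₀) : F) = 0
      rw [hxy]; push_cast
      exact (Δ.int_p_mul hy).2
  inv_mem i x h := by
    change S.red i ((x.1 : Δ.F₀) : F) ≠ 0 at h
    show S.Int i (((x.1 : Δ.F₀)⁻¹ : Δ.F₀) : F)
    set f : F := ((x.1 : Δ.F₀) : F) with hf
    have hf0 : f ≠ 0 := S.ne_zero_of_red_ne h
    obtain ⟨m, hm, hm'⟩ := Δ.fixed_normalise i f⁻¹ (inv_mem x.1.2) (inv_ne_zero hf0)
    rw [zpow_natCast_smul] at hm hm'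
    have hp := Δ.natCast_F_ne
    push_cast
    rcases le_or_gt m 0 with hle | hgt
    · have : ∀ j : ℕ, S.Int i ((p : F) ^ j * ((p : F) ^ m * f⁻¹)) := fun j => by
        induction j with
        | zero => simpa using hm
        | succ j ih => rw [pow_succ', mul_assoc]; exact (Δ.int_p_mul ih).1
      have := this (-m).toNat
      rwa [← mul_assoc, ← zpow_natCast, ← zpow_add₀ hp, show ((-m).toNat : ℤ) + m = 0 by omega,
        zpow_zero, one_mul] at this
    · exfalso
      have h1 := S.red_mul i _ _ hm x.2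
      rw [mul_assoc, inv_mul_cancel₀ hf0, mul_one] at h1
      obtain ⟨j, rfl⟩ : ∃ j : ℕ, m = ((j + 1 : ℕ) : ℤ) := ⟨m.toNat - 1, by omega⟩
      have h2 : S.red i ((p : F) ^ (j + 1)) = 0 := by
        rw [pow_succ']
        exact (Δ.int_p_mul (S.int_pow (by simpa using (int_const (S := S) (natCast_mem_A (p := p)) i).1) j)).2
      rw [zpow_natCast] at h1 hm'
      exact mul_ne_zero hm' h (h1.symm.trans h2)
  normalise i f hf := by
    obtain ⟨m, hm, hm'⟩ := Δ.fixed_normalise i f f.2 (fun h => hf (Subtype.ext h))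
    have e : ((f * (p : Δ.F₀) ^ m : Δ.F₀) : F) = ((p : L) ^ m) • (f : F) := by
      rw [zpow_natCast_smul, mul_comm ((p : F) ^ m), show ((f * (p : Δ.F₀) ^ m : Δ.F₀) : F) = (f : F) * (p : F) ^ m
        from (map_mul Δ.F₀.subtype f _).trans (by rw [map_zpow₀, map_natCast]; rfl)]
    refine ⟨m, ?_, ?_⟩
    · show S.Int i _; rw [e]; exact hm
    · show S.red i _ ≠ 0; rw [e]; exact hm'

theorem glueData_redF [Fact p.Prime] {i : Fin 2} {f : Δ.F₀} (h : S.Int i (f : F)) :
    Δ.glueData.redF i f = S.red i (f : F) := by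
  rw [GlueData.redF_of_mem _ (show f ∈ Δ.glueData.Int i from h)]
  rfl

/-- A fixed element scales into both lattices. -/
theorem exists_int2_scale {f : F} (hf : f ∈ Δ.F₀) : ∃ j : ℕ, S.Int2 (((p : L) ^ j) • f) := by
  by_cases hf0 : f = 0
  · exact ⟨0, fun i => by rw [hf0, smul_zero]; exact S.int_zero i⟩
  have key : ∀ i, ∃ j : ℕ, S.Int i (((p : L) ^ j) • f) := fun i => by
    obtain ⟨m, hm, -⟩ := Δ.fixed_normalise i f hf hf0
    refine ⟨m.toNat, ?_⟩
    have := S.int_smul i ((p : L) ^ (-m).toNat) _ (pow_mem natCast_mem_A _) hm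
    rwa [smul_smul, ← zpow_natCast, ← zpow_add₀ Δ.natCast_ne,
      show ((-m).toNat : ℤ) + m = (m.toNat : ℤ) by omega, zpow_natCast] at this
  choose j hj using key
  refine ⟨j 0 + j 1, fun i => ?_⟩
  obtain rfl | rfl : i = 0 ∨ i = 1 := by omega
  · rw [add_comm, pow_add, mul_smul]; exact S.int_smul _ _ _ (pow_mem natCast_mem_A _) (hj 0)
  · rw [pow_add, mul_smul]; exact S.int_smul _ _ _ (pow_mem natCast_mem_A _) (hj 1)

/-- Reductions of integral functions in a stable space have fixed lifts. -/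
theorem exists_fixed_lift (V : Submodule L F) [FiniteDimensional L V] (hV : Stable Δ.act V)
    {z : Fin 2 → G} (hz : z ∈ S.imgSpace V) :
    ∃ f ∈ V, f ∈ Δ.F₀ ∧ S.Int2 f ∧ S.red2 f = z := by
  classical
  let Z : Submodule k (Fin 2 → G) :=
    { carrier := {z | ∃ f ∈ V, f ∈ Δ.F₀ ∧ S.Int2 f ∧ S.red2 f = z}
      zero_mem' := ⟨0, zero_mem _, zero_mem _, S.int_zero, funext S.red_zero⟩
      add_mem' := by
        rintro _ _ ⟨f, hf, hf0, hfi, rfl⟩ ⟨g, hg, hg0, hgi, rfl⟩
        exact ⟨f + g, add_mem hf hg, add_mem hf0 hg0, fun i => S.int_add i _ _ (hfi i) (hgi i),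
          funext fun i => S.red_add i _ _ (hfi i) (hgi i)⟩
      smul_mem' := by
        rintro c _ ⟨f, hf, hf0, hfi, rfl⟩
        obtain ⟨x, hx, rfl⟩ := Δ.exists_lift c
        refine ⟨(x : L) • f, V.smul_mem _ hf, ?_, fun i => S.int_smul i _ _ x.2 (hfi i),
          funext fun i => S.red_smul i _ _ x.2 (hfi i)⟩
        rw [Algebra.smul_def]; exact mul_mem hx hf0 }
  suffices hle : S.imgSpace V ≤ Z from hle hz
  have hZle : Z ≤ S.imgSpace V := fun _ ⟨f, hf, _, hfi, hr⟩ => ⟨f, hf, hfi, hr⟩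
  obtain ⟨hfd, -⟩ := S.finrank_imgSpace V
  have : FiniteDimensional k Z := Submodule.finiteDimensional_of_le hZle
  let bZ := Module.finBasis k Z
  choose e heV he0 hei her using fun j => (bZ j).2
  have hind : LinearIndependent k fun j => S.red2 (e j) := by
    simp only [her]
    exact bZ.linearIndependent.map' Z.subtype Z.ker_subtype
  set U := Submodule.span L (Set.range e)
  by_cases hUV : V ≤ U
  · rintro _ ⟨f, hf, hfi, rfl⟩
    obtain ⟨co, rfl⟩ := (Submodule.mem_span_range_iff_exists_fun L).mp (hUV hf)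
    have hco := S.coeff_mem hei hind hfi
    have h : S.red2 (∑ j, co j • e j) = ∑ j, π ⟨co j, hco j⟩ • S.red2 (e j) := funext fun i => by
      show S.red i _ = _
      rw [(S.int_sum Finset.univ fun j _ => S.int_smul i _ _ (hco j) (hei j i)).2,
        Finset.sum_apply]
      exact Finset.sum_congr rfl fun j _ => S.red_smul i _ _ (hco j) (hei j i)
    show S.red2 (∑ j, co j • e j) ∈ Z
    rw [h]
    exact Z.sum_mem fun j _ => Z.smul_mem _ ⟨e j, heV j, he0 j, hei j, rfl⟩
  exfalso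
  obtain ⟨x, ⟨hxV, hx0⟩, hxU⟩ : ∃ x, (x ∈ V ∧ x ∈ Δ.F₀) ∧ x ∉ U := by
    by_contra! hne
    exact hUV ((Δ.stable_span V inferInstance hV).trans (Submodule.span_le.mpr fun y hy => hne y hy))
  obtain ⟨j0, hj0⟩ := Δ.exists_int2_scale hx0
  set y := ((p : L) ^ j0) • x
  have hyU : y ∉ U := fun h => hxU ((Submodule.smul_mem_iff U (pow_ne_zero _ Δ.natCast_ne)).mp h)
  -- improve `y` indefinitely
  have hseq : ∀ n : ℕ, ∃ w ∈ V, w ∈ Δ.F₀ ∧ S.Int2 w ∧ y - ((p : L) ^ n) • w ∈ U := by
    intro n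
    induction n with
    | zero =>
      refine ⟨y, V.smul_mem _ hxV, ?_, hj0, by simp⟩
      simp only [y, ← zpow_natCast]; exact Δ.zpow_smul_mem _ hx0
    | succ n ih =>
      obtain ⟨w, hwV, hw0, hwi, hwU⟩ := ih
      have hwZ : S.red2 w ∈ Z := ⟨w, hwV, hw0, hwi, rfl⟩
      set r := bZ.repr ⟨_, hwZ⟩
      choose c hc hcr using fun j => Δ.exists_lift (r j)
      set s := ∑ j, (c j : L) • e j
      have hsi : ∀ i, S.Int i s ∧ S.red i s = S.red i w := fun i => by
        obtain ⟨h1, h2⟩ := S.int_sum Finset.univ (i := i)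
          fun j _ => S.int_smul i _ _ (c j).2 (hei j i)
        refine ⟨h1, h2.trans ?_⟩
        have h3 := congrArg (fun z : Z => (z : Fin 2 → G) i) (bZ.sum_repr ⟨_, hwZ⟩)
        simp only [Submodule.coe_sum, Submodule.coe_smul, Finset.sum_apply, Pi.smul_apply,
          ← her] at h3
        refine Eq.trans (Finset.sum_congr rfl fun j _ => ?_) h3
        rw [S.red_smul i _ _ (c j).2 (hei j i), hcr]; rfl
      have hsU : s ∈ U := U.sum_mem fun j _ => U.smul_mem _ (Submodule.subset_span ⟨j, rfl⟩)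
      have hs0 : s ∈ Δ.F₀ := sum_mem fun j _ => by
        rw [Algebra.smul_def]; exact mul_mem (hc j) (he0 j)
      refine ⟨(p : L)⁻¹ • (w - s),
        V.smul_mem _ (sub_mem hwV (V.sum_mem fun j _ => V.smul_mem _ (heV j))), ?_, fun i => ?_, ?_⟩
      · rw [show (p : L)⁻¹ = (p : L) ^ (-1 : ℤ) by simp]
        exact Δ.zpow_smul_mem _ (sub_mem hw0 hs0)
      · obtain ⟨z', -, hz'i, hz'⟩ := Δ.exists_p_mul (sub_mem hw0 hs0)
          (S.int_sub (hwi i) (hsi i).1) (by rw [S.red_sub (hwi i) (hsi i).1, (hsi i).2, sub_self])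
        rw [hz', natCast_eq L (F := F), ← Algebra.smul_def, smul_smul, inv_mul_cancel₀ Δ.natCast_ne, one_smul]
        exact hz'i
      · rw [smul_smul, pow_succ, mul_assoc, mul_inv_cancel₀ Δ.natCast_ne, mul_one, smul_sub]
        rw [show y - (((p : L) ^ n) • w - ((p : L) ^ n) • s) =
          (y - ((p : L) ^ n) • w) + ((p : L) ^ n) • s by abel]
        exact add_mem hwU (U.smul_mem _ hsU)
  obtain ⟨e', he', he'i, he'ind⟩ := S.reduced_basis _ V inferInstance rfl
  obtain ⟨ψ, hψy, hψU⟩ : ∃ ψ : F →ₗ[L] L, ψ y ≠ 0 ∧ ∀ u ∈ U, ψ u = 0 := by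
    obtain ⟨ψ, hψ1, hψ2⟩ := Submodule.exists_dual_map_eq_bot_of_notMem hyU inferInstance
    exact ⟨ψ, hψ1, fun u hu => LinearMap.le_ker_iff_map.mpr hψ2 hu⟩
  obtain ⟨b, hb0, hb⟩ : ∃ b : L, b ≠ 0 ∧ ∀ j, b * ψ (e' j) ∈ A := by
    suffices h : ∀ s : Finset (Fin (Module.finrank L V)),
        ∃ b : L, b ≠ 0 ∧ b ∈ A ∧ ∀ j ∈ s, b * ψ (e' j) ∈ A by
      obtain ⟨b, h1, -, h2⟩ := h Finset.univ
      exact ⟨b, h1, fun j => h2 j (Finset.mem_univ j)⟩
    intro s
    induction s using Finset.induction with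
    | empty => exact ⟨1, one_ne_zero, A.one_mem, by simp⟩
    | insert a s _ ih =>
      obtain ⟨b, hb0, hbA, hb⟩ := ih
      rcases A.mem_or_inv_mem (ψ (e' a)) with h | h
      · exact ⟨b, hb0, hbA, Finset.forall_mem_insert _ _ _ |>.mpr ⟨A.mul_mem _ _ hbA h, hb⟩⟩
      · by_cases h0 : ψ (e' a) = 0
        · exact ⟨b, hb0, hbA, Finset.forall_mem_insert _ _ _ |>.mpr
            ⟨by rw [h0, mul_zero]; exact A.zero_mem, hb⟩⟩
        refine ⟨(ψ (e' a))⁻¹ * b, mul_ne_zero (inv_ne_zero h0) hb0, A.mul_mem _ _ h hbA,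
          Finset.forall_mem_insert _ _ _ |>.mpr ⟨?_, fun j hj => ?_⟩⟩
        · rw [mul_comm _ b, mul_assoc, inv_mul_cancel₀ h0, mul_one]; exact hbA
        · rw [mul_assoc]; exact A.mul_mem _ _ h (hb j hj)
  refine hψy ((mul_eq_zero.mp (Δ.eq_zero_of_forall_div_pow fun n => ?_)).resolve_left hb0)
  obtain ⟨w, hwV, -, hwi, hwU⟩ := hseq n
  have h1 : ψ y = (p : L) ^ n * ψ w := by
    have := hψU _ hwU
    rw [map_sub, sub_eq_zero] at this
    rw [this, map_smul, smul_eq_mul]
  rw [h1, mul_left_comm, mul_div_cancel_left₀ _ (pow_ne_zero _ Δ.natCast_ne)]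
  rw [← he', Submodule.mem_span_range_iff_exists_fun] at hwV
  obtain ⟨co, rfl⟩ := hwV
  have hco := S.coeff_mem he'i he'ind hwi
  rw [map_sum, Finset.mul_sum]
  exact sum_mem fun j _ => by
    rw [map_smul, smul_eq_mul, mul_left_comm]
    exact A.mul_mem _ _ (hco j) (hb j)

end Descent

end Fermat.Agent.LevelP

end
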