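import Fermat.Agent.LevelP.Inst.Places
import Fermat.Agent.XHLite.Glue.GenusCount
import Fermat.Agent.Reduction.Igusa

/-!
# The levels `1` and `2` have genus zero in every characteristic prime to them
-/

set_option autoImplicit false

noncomputable section

open IsLocalRing ModularCurve AlgebraicCurve Fermat.Agent.Reduction

namespace Fermat.Agent.LevelP

theorem genus0_one : genus0 1 = 0 := by
  have h := XHLite.genus0_eq SemistableRed.qbarToComplex 1
  have h2 : nuTwo 1 = 1 := by rw [nuTwo, Nat.card_eq_fintype_card]; rfl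
  have h3 : nuThree 1 = 1 := by rw [nuThree, Nat.card_eq_fintype_card]; rfl
  have hc : cuspCount 1 = 1 := by decide
  rw [genusFormula, dedekindPsi_one, h2, h3, hc] at h
  norm_num at h
  exact_mod_cast h

theorem dedekindPsi_two : dedekindPsi 2 = 3 := by
  rw [show dedekindPsi 2 = ∑ d ∈ (2 : ℕ).divisors with Squarefree d, 2 / d from rfl,
    Finset.filter_true_of_mem fun d hd => ?_, Nat.Prime.divisors Nat.prime_two,
    Finset.sum_pair (by norm_num)]
  rcases (Nat.dvd_prime Nat.prime_two).mp (Nat.mem_divisors.mp hd).1 with rfl | rfl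
  · exact squarefree_one
  · exact Nat.prime_two.squarefree

theorem genus0_two : genus0 2 = 0 := by
  have h := XHLite.genus0_eq SemistableRed.qbarToComplex 2
  have h2 : nuTwo 2 = 1 := by rw [nuTwo, Nat.card_eq_fintype_card]; rfl
  have h3 : nuThree 2 = 0 := by rw [nuThree, Nat.card_eq_fintype_card]; rfl
  have hc : cuspCount 2 = 2 := by decide
  rw [genusFormula, dedekindPsi_two, h2, h3, hc] at h
  norm_num at h
  exact_mod_cast h

/-- The special fibre of `X₀(M)`, `M ∈ {1, 2}`, has genus zero. -/
theorem genusZero_of_le_two {A : ValuationSubring (AlgebraicClosure ℚ)} {M ℓ : ℕ} [NeZero M]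
    [Fact ℓ.Prime] (hM : M = 1 ∨ M = 2) (hℓM : ¬ ℓ ∣ M) (hA : A.LiesOverPrime ℓ) :
    GenusZero (ResidueField A) ↥(modularFunctionFieldFullC (ResidueField A) M) := by
  have h0 : genus0 M = 0 := by
    rcases hM with rfl | rfl
    · exact genus0_one
    · exact genus0_two
  intro D _
  have h := (Fermat.Agent.Reduction.reductionFacts hℓM hA).charL.riemann D
  rw [h0, Nat.cast_zero, sub_zero] at h
  exact h

end Fermat.Agent.LevelP

end
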