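import Fermat.Agent.LevelP.Inst.PairRing

/-!
# The geometry of a split model with a field of rationality

For a component of genus zero and a modular unit the data of `Geometry` follow from the split
model and its field of rationality.
-/

set_option autoImplicit false
set_option linter.unusedSectionVars false

noncomputable section

open AlgebraicCurve Fermat.Agent.FunctionFieldRR Fermat.Agent.SemistableRed

namespace Fermat.Agent.LevelP

variable {L : Type*} [Field L] {A : ValuationSubring L} {k : Type} [Field k] [IsAlgClosed k]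
  {π : A →+* k} {F : Type*} [Field F] [Algebra L F] [IsAlgClosed L] [IsFunctionField L F]
  {G : Type} [Field G] [Algebra k G] [IsFunctionField k G]
  {S : SplitModel A π F G} {p : ℕ} [Fact p.Prime] [CharP G p] (Δ : Descent S p)

namespace Descent

include Δ in
theorem exists_place : Nonempty (Place k G) := by
  by_contra h
  rw [not_nonempty_iff] at h
  have := S.degree_C_pos
  rw [degree_eq_sum, Finsupp.sum, Finset.eq_empty_of_isEmpty S.C.support,
    Finset.sum_empty] at this
  omega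

/-- Any pair of functions is the reduction of a fixed function. -/
theorem exists_red_eq (z : Fin 2 → G) :
    ∃ f : Δ.F₀, ∀ i, f ∈ Δ.glueData.Int i ∧ Δ.glueData.redF i f = z i := by
  classical
  obtain ⟨P⟩ := Δ.exists_place
  obtain ⟨B, hB⟩ := exists_exact S
  obtain ⟨m₀, hm₀⟩ := degree_smul_C_ge S
    (B + Divisor.degree (polarDivisor (K := k) (z 0)) + Divisor.degree (polarDivisor (K := k) (z 1)))
  set D := (m₀ : ℤ) • S.C - polarDivisor (K := k) (z 0) - polarDivisor (K := k) (z 1) with hD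
  obtain ⟨y, hy0, hy, -⟩ := hB D P (by
    rw [hD, map_sub, map_sub, map_zsmul, smul_eq_mul]; have := hm₀ m₀ le_rfl; omega)
  have hyb := (mem_rrs_iff.mp hy).resolve_left hy0
  have hmem : ∀ i, z i * y ∈ riemannRochSpace ((m₀ : ℤ) • S.C) ∧
      y ∈ riemannRochSpace ((m₀ : ℤ) • S.C) := fun i => by
    refine ⟨mem_rrs_iff.mpr ?_, rrs_mono (fun R => ?_) hy⟩
    · rcases eq_or_ne (z i) 0 with h0 | h0
      · exact Or.inl (by rw [h0, zero_mul])
      refine Or.inr fun R => ?_
      have := hyb R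
      rw [R.ord_mul h0 hy0]
      simp only [hD, Finsupp.sub_apply, polarDivisor_apply, Finsupp.smul_apply, smul_eq_mul] at this ⊢
      obtain rfl | rfl : i = 0 ∨ i = 1 := by omega
      · omega
      · omega
    · simp only [hD, Finsupp.sub_apply, polarDivisor_apply]; omega
  have hreach : ∀ t : Fin 2 → G, (∀ i, t i ∈ riemannRochSpace ((m₀ : ℤ) • S.C)) →
      S.Reach (fun i => S.hbar * t i) := fun t ht => by
    have h := (S.reach_crit (ht 0) 0).add S (S.reach_crit (ht 1) 1)
    convert h using 1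
    funext i
    obtain rfl | rfl : i = 0 ∨ i = 1 := by omega
    · simp
    · simp
  obtain ⟨m₁, h₁⟩ := hreach _ fun i => (hmem i).1
  obtain ⟨m₂, h₂⟩ := hreach (fun _ => y) fun i => (hmem i).2
  obtain ⟨num, hn, hnz⟩ := Δ.exists_inLat h₁
  obtain ⟨den, hd, hdz⟩ := Δ.exists_inLat h₂
  have hd' : ∀ i, S.red i den = S.hbar * y := congrFun hdz
  have hne : ∀ i, S.red i den ≠ 0 := fun i => hd' i ▸ mul_ne_zero S.hbar_ne hy0
  have hden : den ≠ 0 := S.ne_zero_of_red_ne (hne 0)
  refine ⟨⟨num, hn.1⟩ * ⟨den, hd.1⟩⁻¹, fun i => ?_⟩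
  obtain ⟨h1, h2⟩ := red_quotient (f := ⟨num, hn.1⟩ * ⟨den, hd.1⟩⁻¹)
    (hn.mono (le_max_left m₁ m₂)) (hd.mono (le_max_right m₁ m₂)) (hne i)
    (by push_cast; rw [mul_assoc, inv_mul_cancel₀ hden, mul_one])
  refine ⟨h1, ?_⟩
  rw [Δ.glueData_redF h1, h2, hd', show S.red i num = S.hbar * (z i * y) from congrFun hnz i,
    mul_left_comm, mul_div_assoc, div_self (mul_ne_zero S.hbar_ne hy0), mul_one]

/-- The geometry of a descended split model with components of genus zero. -/
def geometry (hG : GenusZero k G) {w : Δ.F₀} {kw m : ℕ} (hkw : ¬ p ∣ kw)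
    (hw : Δ.InLat m w) (hw' : Δ.InLat m ((p : F) ^ kw * (w : F)⁻¹))
    (hw0 : S.red 0 (w : F) ≠ 0)
    (hw1 : w * ((p : Δ.F₀) ^ kw)⁻¹ ∈ Δ.glueData.Int 1 ∧
      Δ.glueData.redF 1 (w * ((p : Δ.F₀) ^ kw)⁻¹) ≠ 0)
    (hsum : ¬ (p : ℤ) ∣ ∑ x ∈ S.pairs,
      x.2.ord (Δ.glueData.redF 1 (w * ((p : Δ.F₀) ^ kw)⁻¹))) :
    Geometry Δ.glueData where
  ι := Place k G
  pt := DVPoint.ofPlace
  const _g h := exists_eq_algebraMap_of_forall fun P => ofPlace_mem.mp (h P)
  exists_polar _g h := exists_polar_of_genusZero hG fun P => by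
    obtain ⟨z, hz⟩ := h P
    exact ⟨z, ofPlace_mem.mp hz⟩
  exists_root _g hg h := exists_root_of_genusZero hG (Fact.out : p.Prime).pos hg fun P => by
    simpa only [ofPlace_ord] using h P
  degree g _ s h := by
    simp only [ofPlace_ord] at h ⊢
    exact dvd_sum_ord p s h
  W := Δ.W
  W_surj c := by
    obtain ⟨x, hx, hxc⟩ := Δ.exists_lift c
    refine ⟨⟨_, hx⟩, Δ.W_mem x.2 hx, fun i => ⟨(int_const x.2 i).1, ?_⟩⟩
    rw [Δ.glueData_redF (f := ⟨_, hx⟩) (int_const x.2 i).1, (int_const x.2 i).2, hxc]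
  W_const := by
    rintro f ⟨c, hc, hcf⟩
    refine ⟨π ⟨c, hc⟩, fun i => ?_⟩
    have h1 : S.Int i (f : F) := hcf ▸ (int_const hc i).1
    exact ⟨h1, by rw [Δ.glueData_redF h1, ← hcf, (int_const hc i).2]⟩
  surj := Δ.exists_red_eq
  pairs := S.pairs
  pairs_nonempty := Finset.nonempty_iff_ne_empty.mpr fun h => hsum (by simp [h])
  pairs_inj x hx y hy h := Prod.ext
    (SplitModel.Pair.left_unique S (h ▸ S.mem_pairs.mp hx) (S.mem_pairs.mp hy)) h
  w := w
  kw := kw
  kw_not_dvd := hkw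
  w_red0 := ⟨hw.2.1 0, by rw [Δ.glueData_redF (hw.2.1 0)]; exact hw0⟩
  w_red1 := hw1
  w_sum := by simpa only [ofPlace_ord] using hsum
  pairData _x hx := Classical.choice (Δ.nonempty_pairData hx
    (Nat.pos_of_ne_zero fun h => hkw (h ▸ dvd_zero p)) hw hw' hw0 hw1)
  smooth0 P hP := Δ.smoothData (i := 0) fun h => by
    classical
    obtain ⟨x, hx, hxP⟩ := Finset.mem_image.mp (show P ∈ _ from h)
    exact hP x hx hxP
  smooth1 P hP := Δ.smoothData (i := 1) fun h => by
    classical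
    obtain ⟨x, hx, hxP⟩ := Finset.mem_image.mp (show P ∈ _ from h)
    exact hP x hx hxP

end Descent

end Fermat.Agent.LevelP

end
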