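import Fermat.Agent.LevelP.DVPointLemmas
import Fermat.Agent.FunctionFieldRR.RationalBase
import Fermat.Agent.FunctionFieldRR.RiemannRochSpace
import Fermat.Agent.FunctionFieldRR.FiberTheory
import Fermat.Agent.SemistableRed.Gluing

/-!
# Places as points, and function fields of genus zero in characteristic `p`

When every divisor of degree at least zero has a space of dimension greater than the degree,
polar parts can be prescribed, a function whose divisor is divisible by `p` is a `p`-th power and
so is, up to a constant, one whose polar parts are `p`-th powers.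
-/

set_option autoImplicit false
set_option linter.unusedSectionVars false

noncomputable section

open AlgebraicCurve Fermat.Agent.FunctionFieldRR Fermat.Agent.SemistableRed

namespace Fermat.Agent.LevelP

variable {k G : Type*} [Field k] [IsAlgClosed k] [Field G] [Algebra k G] [IsFunctionField k G]

/-- A place as a point of degree one. -/
def DVPoint.ofPlace (P : Place k G) : DVPoint k G where
  O := P.toValuationSubring.toSubring
  algebraMap_mem := P.algebraMap_mem'
  ev := residueHom P
  ev_algebraMap c := (residueHom_apply P ⟨_, P.algebraMap_mem' c⟩).trans (residueConst_algebraMap c)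
  unif := FunctionFieldRR.unif P
  unif_mem := (vanishesTo_zero_iff P).mp (Or.inr (by rw [FunctionFieldRR.ord_unif]; omega))
  unif_ne_zero := FunctionFieldRR.unif_ne_zero P
  ev_eq_zero x := by
    refine (iff_of_eq (congrArg (· = 0) (residueHom_apply P x))).trans
      ((vanishesTo_one_iff ((vanishesTo_zero_iff P).mpr x.2)).symm.trans ⟨fun h => ?_, ?_⟩)
    · refine ⟨(x : G) / FunctionFieldRR.unif P, (vanishesTo_zero_iff P).mp ?_,
        by rw [mul_div_cancel₀ _ (FunctionFieldRR.unif_ne_zero P)]⟩
      rcases h with h | h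
      · exact Or.inl (by rw [h, zero_div])
      · rcases eq_or_ne (x : G) 0 with h0 | h0
        · exact Or.inl (by rw [h0, zero_div])
        · exact Or.inr (by rw [ord_div P h0 (FunctionFieldRR.unif_ne_zero P), FunctionFieldRR.ord_unif]; omega)
    · rintro ⟨y, hy, hxy⟩
      rcases eq_or_ne y 0 with h0 | h0
      · exact Or.inl (by rw [hxy, h0, mul_zero])
      refine Or.inr ?_
      rw [hxy, P.ord_mul (FunctionFieldRR.unif_ne_zero P) h0, FunctionFieldRR.ord_unif]
      have : 0 ≤ P.ord y := (ord_nonneg_iff P y).mpr hy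
      omega
  inv_mem x h := by
    have h1 : ¬ VanishesTo P 1 (x : G) := fun h1 =>
      h ((residueHom_apply P x).trans ((vanishesTo_one_iff ((vanishesTo_zero_iff P).mpr x.2)).mp h1))
    simp only [VanishesTo, not_or, not_le] at h1
    refine (ord_nonneg_iff P _).mp ?_
    rw [P.ord_inv]; omega
  normalise g hg := by
    have hz : (FunctionFieldRR.unif P) ^ (-P.ord g) ≠ 0 := zpow_ne_zero _ (FunctionFieldRR.unif_ne_zero P)
    have ho : P.ord (g * FunctionFieldRR.unif P ^ (-P.ord g)) = 0 := by
      rw [P.ord_mul hg hz, P.ord_zpow, FunctionFieldRR.ord_unif]; ring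
    refine ⟨-P.ord g, (ord_nonneg_iff P _).mp ho.ge, fun h => ?_⟩
    rw [residueHom_apply, ← vanishesTo_one_iff (Or.inr ho.ge)] at h
    rcases h with h | h
    · exact mul_ne_zero hg hz h
    · omega

theorem ofPlace_mem {P : Place k G} {g : G} :
    g ∈ (DVPoint.ofPlace P).O ↔ VanishesTo P 0 g := (vanishesTo_zero_iff P).symm

theorem ofPlace_evF {P : Place k G} {g : G} (h : VanishesTo P 0 g) :
    (DVPoint.ofPlace P).evF g = residueConst P g := by
  rw [DVPoint.evF_of_mem _ (ofPlace_mem.mpr h)]
  exact residueHom_apply P _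

theorem ofPlace_ord (P : Place k G) (g : G) : (DVPoint.ofPlace P).ord g = P.ord g := by
  rcases eq_or_ne g 0 with rfl | hg
  · simp [DVPoint.ord]
  rw [DVPoint.ord, dif_neg hg]
  obtain ⟨h, hev⟩ := ((DVPoint.ofPlace P).normalise g hg).choose_spec
  set m := ((DVPoint.ofPlace P).normalise g hg).choose
  have hz : g * FunctionFieldRR.unif P ^ m ≠ 0 := mul_ne_zero hg (zpow_ne_zero _ (FunctionFieldRR.unif_ne_zero P))
  have h0 : (0 : ℤ) ≤ P.ord (g * FunctionFieldRR.unif P ^ m) := (ord_nonneg_iff P _).mpr h
  have h1 : ¬ (1 : ℤ) ≤ P.ord (g * FunctionFieldRR.unif P ^ m) := fun h1 => hev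
    ((residueHom_apply P _).trans ((vanishesTo_one_iff (Or.inr h0)).mp (Or.inr h1)))
  rw [P.ord_mul hg (zpow_ne_zero _ (FunctionFieldRR.unif_ne_zero P)), P.ord_zpow, FunctionFieldRR.ord_unif, mul_one] at h0 h1
  omega

/-- A function without poles is constant. -/
theorem exists_eq_algebraMap_of_forall {g : G} (h : ∀ P : Place k G, VanishesTo P 0 g) :
    ∃ c : k, g = algebraMap k G c := by
  have hg : g ∈ riemannRochSpace (0 : Divisor k G) :=
    mem_riemannRochSpace_iff.mpr fun P => (h P).imp id fun h' => by simpa using h'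
  rw [riemannRochSpace_zero] at hg
  obtain ⟨c, rfl⟩ := hg
  exact ⟨c, rfl⟩

variable (k G) in
/-- Genus zero, as a bound from below on Riemann–Roch spaces. -/
def GenusZero : Prop :=
  ∀ D : Divisor k G, 0 ≤ Divisor.degree D →
    Divisor.degree D + 1 ≤ (Module.finrank k (riemannRochSpace D) : ℤ)

/-- Divisors of degree zero are principal. -/
theorem exists_ord_eq_of_genusZero (h0 : GenusZero k G) {D : Divisor k G}
    (hD : Divisor.degree D = 0) : ∃ f : G, f ≠ 0 ∧ ∀ P, P.ord f = D P := by
  have h := h0 (-D) (by rw [map_neg, hD]; rfl)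
  rw [map_neg, hD] at h
  obtain ⟨f, hf, hf0⟩ := Submodule.exists_mem_ne_zero_of_ne_bot
    (p := riemannRochSpace (-D)) fun hb => by rw [hb, finrank_bot] at h; omega
  refine ⟨f, hf0, ?_⟩
  have hb := (mem_rrs_iff.mp hf).resolve_left hf0
  have hnn : ∀ P, 0 ≤ (divisorOf (K := k) f - D) P := fun P => by
    have := hb P
    simp only [Finsupp.neg_apply, neg_neg, Finsupp.sub_apply, divisorOf_apply] at this ⊢
    omega
  have hdeg : Divisor.degree (divisorOf (K := k) f - D) = 0 := by
    rw [map_sub, degree_divisorOf, hD, sub_zero]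
  intro P
  by_contra hne
  have hP : 0 < (divisorOf (K := k) f - D) P := by
    have := hnn P
    simp only [Finsupp.sub_apply, divisorOf_apply] at this ⊢
    omega
  rw [degree_eq_sum, Finsupp.sum] at hdeg
  have := Finset.single_le_sum (f := fun Q => (divisorOf (K := k) f - D) Q)
    (fun Q _ => hnn Q) (Finsupp.mem_support_iff.mpr hP.ne')
  omega

theorem exists_root_of_genusZero (h0 : GenusZero k G) {p : ℕ} (hp : 0 < p) {g : G} (hg : g ≠ 0)
    (h : ∀ P : Place k G, (p : ℤ) ∣ P.ord g) : ∃ r : G, g = r ^ p := by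
  set E : Divisor k G := (divisorOf (K := k) g).mapRange (fun n => n / (p : ℤ)) (Int.zero_ediv _)
  have hpE : divisorOf (K := k) g = (p : ℤ) • E := by
    ext P
    simp only [E, Finsupp.smul_apply, Finsupp.mapRange_apply, divisorOf_apply, smul_eq_mul]
    rw [Int.mul_ediv_cancel' (h P)]
  have hdE : Divisor.degree E = 0 := by
    have := degree_divisorOf (K := k) g
    rw [hpE, map_zsmul, smul_eq_mul, mul_eq_zero] at this
    exact this.resolve_left (by omega)
  obtain ⟨f, hf, hfo⟩ := exists_ord_eq_of_genusZero h0 hdE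
  obtain ⟨c, hc⟩ := exists_eq_algebraMap_of_forall (k := k) (g := g / f ^ p) fun P => Or.inr (by
    rw [ord_div P hg (pow_ne_zero _ hf), ord_pow, hfo]
    have := congrArg (fun D => D P) hpE
    simp only [divisorOf_apply, Finsupp.smul_apply, smul_eq_mul] at this
    omega)
  obtain ⟨d, hd⟩ := IsAlgClosed.exists_pow_nat_eq c hp
  refine ⟨algebraMap k G d * f, ?_⟩
  rw [mul_pow, ← map_pow, hd, ← hc, div_mul_cancel₀ _ (pow_ne_zero _ hf)]

/-- Polar parts at finitely many places can be prescribed. -/
theorem exists_polar_part (h0 : GenusZero k G) (s : Finset (Place k G)) (z : Place k G → G) :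
    ∃ y : G, (∀ P ∈ s, VanishesTo P 0 (y - z P)) ∧ ∀ P ∉ s, VanishesTo P 0 y := by
  classical
  obtain ⟨b, hb⟩ := exists_approx s z fun _ => 0
  set E : Divisor k G := (polarDivisor (K := k) b).filter (· ∈ s)
  set E' : Divisor k G := (polarDivisor (K := k) b).filter (· ∉ s)
  have hEE : polarDivisor (K := k) b = E + E' :=
    (Finsupp.filter_add_filter_not _ _).symm
  have hE0 : 0 ≤ E := Finsupp.le_def.mpr fun P => by
    simp only [E, Finsupp.filter_apply, polarDivisor_apply]; split_ifs <;> simp
  have hE'0 : 0 ≤ E' := Finsupp.le_def.mpr fun P => by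
    simp only [E', Finsupp.filter_apply, polarDivisor_apply]; split_ifs <;> simp
  have hdE : 0 ≤ Divisor.degree E ∧ 0 ≤ Divisor.degree E' := by
    constructor <;> rw [degree_eq_sum] <;>
      exact Finset.sum_nonneg fun P _ => by first | exact Finsupp.le_def.mp hE0 P | exact Finsupp.le_def.mp hE'0 P
  have hinf : riemannRochSpace E ⊓ riemannRochSpace E' ≤ riemannRochSpace (0 : Divisor k G) := by
    rintro f ⟨hf, hf'⟩
    refine mem_rrs_iff.mpr ((mem_rrs_iff.mp hf).elim Or.inl fun h1 =>
      (mem_rrs_iff.mp hf').elim Or.inl fun h2 => Or.inr fun P => ?_)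
    have a := h1 P
    have b' := h2 P
    simp only [E, E', Finsupp.filter_apply, Finsupp.zero_apply] at a b' ⊢
    by_cases hP : P ∈ s <;> simp [hP] at a b' <;> omega
  have hsup : riemannRochSpace E ⊔ riemannRochSpace E' = riemannRochSpace (E + E') := by
    refine Submodule.eq_of_le_of_finrank_le (sup_le ?_ ?_) ?_
    · exact rrs_mono fun P => by
        have := Finsupp.le_def.mp hE'0 P; simp only [Finsupp.add_apply, Finsupp.zero_apply] at *; omega
    · exact rrs_mono fun P => by
        have := Finsupp.le_def.mp hE0 P; simp only [Finsupp.add_apply, Finsupp.zero_apply] at *; omega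
    · have e1 := Submodule.finrank_sup_add_finrank_inf_eq (riemannRochSpace E) (riemannRochSpace E')
      have e2 := Submodule.finrank_mono hinf
      rw [finrank_riemannRochSpace_zero] at e2
      have e3 := h0 E hdE.1
      have e4 := h0 E' hdE.2
      have e5 := finrank_le_degree_add_one (D := E + E') (add_nonneg hE0 hE'0)
      rw [map_add] at e5
      omega
  have hbmem : b ∈ riemannRochSpace (E + E') := by
    rw [← hEE]
    exact mem_rrs_iff.mpr (Or.inr fun P => by rw [polarDivisor_apply]; omega)
  rw [← hsup] at hbmem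
  obtain ⟨y, hy, y', hy', hyb⟩ := Submodule.mem_sup.mp hbmem
  refine ⟨y, fun P hP => ?_, fun P hP => ?_⟩
  · have h1 : VanishesTo P 0 y' := (mem_rrs_iff.mp hy').imp id fun h' => by
      simpa [E', Finsupp.filter_apply, hP] using h' P
    rw [show y - z P = (b - z P) - y' by rw [← hyb]; ring]
    exact (hb P hP).sub h1
  · exact (mem_rrs_iff.mp hy).imp id fun h' => by
      simpa [E, Finsupp.filter_apply, hP] using h' P

theorem exists_polar_of_genusZero (h0 : GenusZero k G) {p : ℕ} [Fact p.Prime] [CharP G p] {g : G}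
    (h : ∀ P : Place k G, ∃ z : G, VanishesTo P 0 (g - z ^ p)) :
    ∃ (z : G) (c : k), g = z ^ p + algebraMap k G c := by
  classical
  choose z hz using h
  set s := (polarDivisor (K := k) g).support
  obtain ⟨y, hy, hy'⟩ := exists_polar_part h0 s z
  have hreg : ∀ P, VanishesTo P 0 (g - y ^ p) := fun P => by
    by_cases hP : P ∈ s
    · rw [show g - y ^ p = (g - z P ^ p) - (y - z P) ^ p by rw [sub_pow_char]; ring]
      have := VanishesTo.pow' (hy P hP) p
      rw [mul_zero] at this
      exact (hz P).sub this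
    · have h1 : VanishesTo P 0 g := Or.inr (by
        have := Finsupp.notMem_support_iff.mp hP
        rw [polarDivisor_apply] at this
        omega)
      have := VanishesTo.pow' (hy' P hP) p
      rw [mul_zero] at this
      exact h1.sub this
  obtain ⟨c, hc⟩ := exists_eq_algebraMap_of_forall hreg
  exact ⟨y, c, by rw [← hc]; ring⟩

theorem dvd_sum_ord (p : ℕ) {g : G} (s : Finset (Place k G))
    (h : ∀ P ∉ s, (p : ℤ) ∣ P.ord g) : (p : ℤ) ∣ ∑ P ∈ s, P.ord g := by
  classical
  have h1 := degree_divisorOf (K := k) g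
  rw [degree_eq_sum, Finsupp.sum] at h1
  simp only [divisorOf_apply] at h1
  set t := (divisorOf (K := k) g).support with ht
  have h2 : ∑ P ∈ s, P.ord g + ∑ P ∈ t \ s, P.ord g = 0 := by
    rw [← Finset.sum_union Finset.disjoint_sdiff, Finset.union_sdiff_self_eq_union]
    refine (Finset.sum_subset Finset.subset_union_right fun P _ hP => ?_).symm.trans h1
    simpa [ht] using hP
  rw [show ∑ P ∈ s, P.ord g = -∑ P ∈ t \ s, P.ord g by omega]
  exact dvd_neg.mpr (Finset.dvd_sum fun P hP => h P (Finset.mem_sdiff.mp hP).2)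

end Fermat.Agent.LevelP

end
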