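import Fermat.Agent.LevelP.Inst.Affine
import Fermat.Agent.LevelP.Inst.Places

/-!
# Local rings of a model with a field of rationality

At a place `P` of a component outside the glued pairs the local ring consists of the quotients of
lattice elements whose denominator has exact order at `P`; at a glued pair the denominator is a
unit at both branches.
-/

set_option autoImplicit false
set_option linter.unusedSectionVars false

noncomputable section

open AlgebraicCurve Fermat.Agent.FunctionFieldRR Fermat.Agent.SemistableRed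

namespace Fermat.Agent.LevelP

variable {L : Type*} [Field L] {A : ValuationSubring L} {k : Type*} [Field k] [IsAlgClosed k]
  {π : A →+* k} {F : Type*} [Field F] [Algebra L F] [IsAlgClosed L] [IsFunctionField L F]
  {G : Type*} [Field G] [Algebra k G] [IsFunctionField k G]
  {S : SplitModel A π F G} {p : ℕ} [Fact p.Prime] [CharP G p] (Δ : Descent S p)

namespace Descent

/-- An admissible denominator of level `m` for the place `P` of the component `i`. -/
def Exact (i : Fin 2) (P : Place k G) (m : ℕ) (d : F) : Prop :=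
  Δ.InLat m d ∧ S.red i d ≠ 0 ∧ P.ord (S.red i d) = -((m : ℤ) * S.C P)

variable {Δ} {i : Fin 2} {P Q : Place k G}

theorem Exact.mul {m m' : ℕ} {d d' : F} (hd : Δ.Exact i P m d) (hd' : Δ.Exact i P m' d') :
    Δ.Exact i P (m + m') (d * d') := by
  have h := S.red_mul i _ _ (hd.1.2.1 i) (hd'.1.2.1 i)
  refine ⟨hd.1.mul hd'.1, by rw [h]; exact mul_ne_zero hd.2.1 hd'.2.1, ?_⟩
  rw [h, P.ord_mul hd.2.1 hd'.2.1, hd.2.2, hd'.2.2]; push_cast; ring

theorem Exact.ne_zero {m : ℕ} {d : F} (hd : Δ.Exact i P m d) : d ≠ 0 :=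
  S.ne_zero_of_red_ne hd.2.1

theorem InLat.red_vanishes {m : ℕ} {f : F} (hf : Δ.InLat m f) (i : Fin 2) (P : Place k G) :
    VanishesTo P (-((m : ℤ) * S.C P)) (S.red i f) := by
  have h := S.mem_pairSpace.mp ((S.imgSpace_le_glueSpace m) hf.red2_mem).1 i
  exact (mem_rrs_iff.mp h).imp id fun h' => by simpa [SplitModel.red2] using h' P

theorem exact_one (hP : S.C P = 0) : Δ.Exact i P 0 1 := by
  refine ⟨?_, by rw [S.red_one]; exact one_ne_zero, by simp [S.red_one, hP]⟩
  simpa using Δ.inLat_const A.one_mem (by rw [map_one]; exact one_mem _)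

variable (Δ)

/-- The local ring of the place `P` of the component `i`. -/
def localRing (i : Fin 2) (P : Place k G) : Subring Δ.F₀ where
  carrier := {f | ∃ m num den, Δ.InLat m num ∧ Δ.Exact i P m den ∧ (f : F) * den = num}
  mul_mem' := by
    rintro a b ⟨m, n, d, hn, hd, hf⟩ ⟨m', n', d', hn', hd', hf'⟩
    exact ⟨m + m', n * n', d * d', hn.mul hn', hd.mul hd', by push_cast; rw [← hf, ← hf']; ring⟩
  one_mem' := by
    obtain ⟨m, d, hd⟩ : ∃ m d, Δ.Exact i P m d := by
      rcases (S.C_nonneg P).eq_or_lt with h | h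
      · exact ⟨0, 1, exact_one h.symm⟩
      · exact ⟨1, Δ.T, Δ.inLat_T, by rw [Δ.red_T]; exact S.Tbar_ne, by
          rw [Δ.red_T, S.ord_Tbar P h]; simp⟩
    exact ⟨m, d, d, hd.1, hd, by simp⟩
  add_mem' := by
    rintro a b ⟨m, n, d, hn, hd, hf⟩ ⟨m', n', d', hn', hd', hf'⟩
    refine ⟨m + m', n * d' + n' * d, d * d', ?_, hd.mul hd', by push_cast; rw [← hf, ← hf']; ring⟩
    have h2 := hn'.mul hd.1
    rw [Nat.add_comm m' m] at h2
    simpa using (hn.mul hd'.1).add h2
  zero_mem' := by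
    obtain ⟨m, d, hd⟩ : ∃ m d, Δ.Exact i P m d := by
      rcases (S.C_nonneg P).eq_or_lt with h | h
      · exact ⟨0, 1, exact_one h.symm⟩
      · exact ⟨1, Δ.T, Δ.inLat_T, by rw [Δ.red_T]; exact S.Tbar_ne, by
          rw [Δ.red_T, S.ord_Tbar P h]; simp⟩
    exact ⟨m, 0, d, ⟨zero_mem _, S.int_zero, Submodule.zero_mem _⟩, hd, by simp⟩
  neg_mem' := by
    rintro a ⟨m, n, d, hn, hd, hf⟩
    exact ⟨m, -n, d, hn.neg, hd, by push_cast; rw [← hf]; ring⟩

variable {Δ}

theorem mem_localRing {f : Δ.F₀} : f ∈ Δ.localRing i P ↔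
    ∃ m num den, Δ.InLat m num ∧ Δ.Exact i P m den ∧ (f : F) * den = num := Iff.rfl

theorem Exact.div_mem {m : ℕ} {num den : F} (hn : Δ.InLat m num) (hd : Δ.Exact i P m den) :
    (⟨num, hn.1⟩ : Δ.F₀) * ⟨den, hd.1.1⟩⁻¹ ∈ Δ.localRing i P :=
  ⟨m, num, den, hn, hd, by push_cast; rw [mul_assoc, inv_mul_cancel₀ hd.ne_zero, mul_one]⟩

theorem W_le_localRing : Δ.W ≤ Δ.localRing i P := by
  rintro x ⟨c, hc, hcx⟩
  obtain ⟨m, num, den, hn, hd, h⟩ := (Δ.localRing i P).one_mem
  refine ⟨m, algebraMap L F c * num, den, ?_, hd, by rw [← h, ← hcx]; push_cast; ring⟩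
  simpa using (Δ.inLat_const hc (hcx ▸ x.2)).mul hn

theorem red_quotient {j : Fin 2} {m : ℕ} {num den : F} {f : Δ.F₀} (hn : Δ.InLat m num)
    (hd : Δ.InLat m den) (hd0 : S.red j den ≠ 0) (h : (f : F) * den = num) :
    S.Int j (f : F) ∧ S.red j (f : F) = S.red j num / S.red j den := by
  have hdi : S.Int j den⁻¹ := by
    have := Δ.glueData.inv_mem' (i := j) (x := ⟨den, hd.1⟩) (hd.2.1 j)
      (by rw [Δ.glueData_redF (f := ⟨den, hd.1⟩) (hd.2.1 j)]; exact hd0)
    exact this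
  have hden : den ≠ 0 := S.ne_zero_of_red_ne hd0
  have hfi : S.Int j (f : F) := by
    have := S.int_mul j _ _ (hn.2.1 j) hdi
    rwa [← h, mul_assoc, mul_inv_cancel₀ hden, mul_one] at this
  exact ⟨hfi, by rw [eq_div_iff hd0, ← S.red_mul j _ _ hfi (hd.2.1 j), h]⟩

theorem localRing_le : Δ.localRing i P ≤ Δ.glueData.Int i := by
  rintro f ⟨m, num, den, hn, hd, h⟩
  exact (red_quotient hn hd.1 hd.2.1 h).1

theorem localRing_red_mem {f : Δ.F₀} (hf : f ∈ Δ.localRing i P) :
    VanishesTo P 0 (Δ.glueData.redF i f) := by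
  obtain ⟨m, num, den, hn, hd, h⟩ := hf
  obtain ⟨h1, h2⟩ := red_quotient hn hd.1 hd.2.1 h
  rw [Δ.glueData_redF h1, h2]
  rcases eq_or_ne (S.red i num) 0 with h0 | h0
  · exact Or.inl (by rw [h0, zero_div])
  refine Or.inr ?_
  have := (hn.red_vanishes i P).resolve_left h0
  rw [ord_div P h0 hd.2.1, hd.2.2]; omega

theorem localRing_inv_mem {f : Δ.F₀} (hf : f ∈ Δ.localRing i P)
    (h0 : (DVPoint.ofPlace P).evF (Δ.glueData.redF i f) ≠ 0) : f⁻¹ ∈ Δ.localRing i P := by
  have hv := localRing_red_mem hf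
  obtain ⟨m, num, den, hn, hd, h⟩ := hf
  obtain ⟨h1, h2⟩ := red_quotient hn hd.1 hd.2.1 h
  rw [ofPlace_evF hv, Ne, ← vanishesTo_one_iff hv] at h0
  rw [Δ.glueData_redF h1, h2] at h0 hv
  have hne : S.red i num ≠ 0 := fun e => h0 (Or.inl (by rw [e, zero_div]))
  have hord : P.ord (S.red i num) = -((m : ℤ) * S.C P) := by
    have a := hv.resolve_left (div_ne_zero hne hd.2.1)
    simp only [VanishesTo, not_or, not_le] at h0
    have b := h0.2
    rw [ord_div P hne hd.2.1, hd.2.2] at a b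
    omega
  have hf0 : (f : F) ≠ 0 := left_ne_zero_of_mul (h.trans_ne (S.ne_zero_of_red_ne hne))
  refine ⟨m, den, num, hd.1, ⟨hn, hne, hord⟩, ?_⟩
  push_cast
  rw [← h, ← mul_assoc, inv_mul_cancel₀ hf0, one_mul]

/-- The places of a component lying on glued pairs. -/
def pairPoints (S : SplitModel A π F G) (i : Fin 2) : Finset (Place k G) := by
  classical exact S.pairs.image fun x => if i = 0 then x.1 else x.2

theorem mem_pairPoints {x : Place k G × Place k G} (hx : x ∈ S.pairs) :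
    (if i = 0 then x.1 else x.2) ∈ pairPoints S i := by
  classical
  exact Finset.mem_image.mpr ⟨x, hx, rfl⟩

theorem mem_glue_of_vanish {m : ℕ} {z : Fin 2 → G} (hz : z ∈ S.pairSpace m)
    (h : ∀ x ∈ S.pairs, VanishesTo x.1 1 (z 0) ∧ VanishesTo x.2 1 (z 1)) :
    z ∈ S.glueSpace m := by
  refine S.mem_glueSpace.mpr ⟨hz, fun x hx => ?_⟩
  obtain ⟨h0, h1⟩ := h x hx
  have hp := S.mem_pairs.mp hx
  simp only [SplitModel.ev]
  rw [(vanishesTo_one_iff (S.regular_of_mem_pairSpace hz 0 hp.1)).mp h0,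
    (vanishesTo_one_iff (S.regular_of_mem_pairSpace hz 1 hp.2.1)).mp h1]

variable (Δ)

/-- A separator: exact at a place outside the pairs and zero on the other component. -/
theorem exists_sep (hP : P ∉ pairPoints S i) (s : Finset (Place k G)) (hs : P ∉ s)
    (n : Place k G → ℕ) : ∃ m₀ : ℕ, ∀ m : ℕ, m₀ ≤ m → ∃ b : G,
      b ∈ riemannRochSpace ((m : ℤ) • S.C) ∧
      (∀ R ∈ s, (n R : ℤ) - (m : ℤ) * S.C R ≤ R.ord b) ∧
      (∀ R ∈ pairPoints S i, VanishesTo R 1 b) ∧
      ∃ e, Δ.Exact i P m e ∧ S.red i e = b ∧ ∀ j, j ≠ i → S.red j e = 0 := by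
  classical
  obtain ⟨m₀, hm₀⟩ := exists_exact_C S P (s ∪ pairPoints S i)
    (fun h => (Finset.mem_union.mp h).elim hs hP) (fun R => max (if R ∈ s then n R else 0) 1)
  refine ⟨max m₀ S.baseLevel, fun m hm => ?_⟩
  obtain ⟨b, hb0, hb, hbP, hbs⟩ := hm₀ m (le_trans (le_max_left _ _) hm)
  have hvan : ∀ R ∈ pairPoints S i, VanishesTo R 1 b := fun R hR => by
    refine Or.inr ?_
    have := hbs R (Finset.mem_union_right _ hR)
    obtain ⟨x, hx, rfl⟩ := Finset.mem_image.mp (show R ∈ _ from hR)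
    have hp := S.mem_pairs.mp hx
    have hC : S.C (if i = 0 then x.1 else x.2) = 0 := by split <;> [exact hp.1; exact hp.2.1]
    rw [hC, mul_zero, sub_zero] at this
    omega
  have hz : (fun j => if j = i then b else 0) ∈ S.glueSpace m := by
    refine mem_glue_of_vanish (S.mem_pairSpace.mpr fun j => ?_) fun x hx => ?_
    · split <;> [exact hb; exact Submodule.zero_mem _]
    · obtain rfl | rfl : i = 0 ∨ i = 1 := by omega
      · exact ⟨by simpa using hvan _ (mem_pairPoints (i := 0) hx), by simp [VanishesTo.zero]⟩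
      · exact ⟨by simp [VanishesTo.zero], by simpa using hvan _ (mem_pairPoints (i := 1) hx)⟩
  obtain ⟨e, he, hez⟩ := Δ.exists_inLat_glue (le_trans (le_max_right _ _) hm) hz
  have hr : ∀ j, S.red j e = if j = i then b else 0 := fun j => congrFun hez j
  refine ⟨b, hb, fun R hR => ?_, hvan, e,
    ⟨he, by rw [hr, if_pos rfl]; exact hb0, by rw [hr, if_pos rfl]; exact hbP⟩,
    by rw [hr, if_pos rfl], fun j hj => by rw [hr, if_neg hj]⟩
  have := hbs R (Finset.mem_union_left _ hR)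
  rw [if_pos hR] at this
  omega

theorem exists_exact_large (hP : P ∉ pairPoints S i) :
    ∃ m₀ : ℕ, ∀ m : ℕ, m₀ ≤ m → ∃ e, Δ.Exact i P m e := by
  obtain ⟨m₀, h⟩ := Δ.exists_sep hP ∅ (Finset.notMem_empty _) fun _ => 0
  exact ⟨m₀, fun m hm => let ⟨_, _, _, _, e, he, _⟩ := h m hm; ⟨e, he⟩⟩

theorem localRing_fraction (hP : P ∉ pairPoints S i) (f : Δ.F₀) :
    ∃ x ∈ Δ.localRing i P, ∃ y ∈ Δ.localRing i P, y ≠ 0 ∧ f * y = x := by
  obtain ⟨m, x, y, hx, hy, hy0, hfy⟩ := Δ.exists_fraction f.2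
  obtain ⟨m₀, h⟩ := Δ.exists_exact_large hP
  obtain ⟨d, hd⟩ := h _ (le_max_left m₀ m)
  have hd0 : (⟨d, hd.1.1⟩ : Δ.F₀) ≠ 0 := fun e => hd.ne_zero (congrArg Subtype.val e)
  refine ⟨_, hd.div_mem (hx.mono (le_max_right _ _)), _, hd.div_mem (hy.mono (le_max_right _ _)),
    mul_ne_zero (fun e => hy0 (congrArg Subtype.val e)) (inv_ne_zero hd0), Subtype.ext ?_⟩
  push_cast
  rw [← hfy]; ring

theorem localRing_surj (hP : P ∉ pairPoints S i) {z : G} (hz : VanishesTo P 0 z) :
    ∃ f ∈ Δ.localRing i P, Δ.glueData.redF i f = z := by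
  classical
  obtain ⟨m₀, h⟩ := Δ.exists_sep hP ((polarDivisor (K := k) z).support.erase P)
    (Finset.notMem_erase _ _) fun R => (max (-R.ord z) 0).toNat + 1
  obtain ⟨b, hb, hbs, hbv, e, he, heb, -⟩ := h _ (le_max_left m₀ S.baseLevel)
  set m := max m₀ S.baseLevel
  have hbb := fun R => (mem_rrs_iff.mp hb).imp id fun h' => h' R
  have hzb : z * b ∈ riemannRochSpace ((m : ℤ) • S.C) := by
    rcases eq_or_ne (z * b) 0 with h0 | h0
    · rw [h0]; exact Submodule.zero_mem _
    obtain ⟨hz0, hb0⟩ := mul_ne_zero_iff.mp h0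
    refine mem_rrs_iff.mpr (Or.inr fun R => ?_)
    rw [R.ord_mul hz0 hb0]
    have h2 := (mem_rrs_iff.mp hb).resolve_left hb0 R
    simp only [Finsupp.smul_apply, smul_eq_mul] at h2 ⊢
    by_cases hR : R ∈ (polarDivisor (K := k) z).support.erase P
    · have := hbs R hR
      omega
    · have : 0 ≤ R.ord z := by
        by_cases hRP : R = P
        · subst hRP; exact hz.resolve_left hz0
        · have := Finsupp.notMem_support_iff.mp fun hh => hR (Finset.mem_erase.mpr ⟨hRP, hh⟩)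
          rw [polarDivisor_apply] at this; omega
      omega
  have hg : (fun j => if j = i then z * b else 0) ∈ S.glueSpace m := by
    refine mem_glue_of_vanish (S.mem_pairSpace.mpr fun j => ?_) fun x hx => ?_
    · split <;> [exact hzb; exact Submodule.zero_mem _]
    · have key : ∀ R ∈ pairPoints S i, S.C R = 0 → VanishesTo R 1 (z * b) := fun R hR hC => by
        have hne : R ≠ P := fun e => hP (e ▸ hR)
        rcases eq_or_ne (z * b) 0 with h0 | h0
        · exact Or.inl h0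
        obtain ⟨hz0, hb0⟩ := mul_ne_zero_iff.mp h0
        refine Or.inr ?_
        rw [R.ord_mul hz0 hb0]
        have h1 := (hbv R hR).resolve_left hb0
        by_cases hRs : R ∈ (polarDivisor (K := k) z).support
        · have h2 := hbs R (Finset.mem_erase.mpr ⟨hne, hRs⟩)
          rw [hC, mul_zero, sub_zero] at h2
          omega
        · rw [Finsupp.notMem_support_iff, polarDivisor_apply] at hRs
          omega
      have hp := S.mem_pairs.mp hx
      obtain rfl | rfl : i = 0 ∨ i = 1 := by omega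
      · exact ⟨by simpa using key _ (mem_pairPoints (i := 0) hx) (by simpa using hp.1),
          by simp [VanishesTo.zero]⟩
      · exact ⟨by simp [VanishesTo.zero],
          by simpa using key _ (mem_pairPoints (i := 1) hx) (by simpa using hp.2.1)⟩
  obtain ⟨num, hn, hnz⟩ := Δ.exists_inLat_glue (le_max_right _ _) hg
  have hmul : (((⟨num, hn.1⟩ : Δ.F₀) * ⟨e, he.1.1⟩⁻¹ : Δ.F₀) : F) * e = num := by
    push_cast; rw [mul_assoc, inv_mul_cancel₀ he.ne_zero, mul_one]
  obtain ⟨h1, h2⟩ := red_quotient hn he.1 he.2.1 hmul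
  refine ⟨_, he.div_mem hn, ?_⟩
  rw [Δ.glueData_redF h1, h2, show S.red i num = z * b by simpa [SplitModel.red2] using congrFun hnz i, ← heb,
    mul_div_cancel_right₀ _ he.2.1]

theorem localRing_ker (hP : P ∉ pairPoints S i) {f : Δ.F₀} (hf : f ∈ Δ.localRing i P)
    (h0 : Δ.glueData.redF i f = 0) : ∃ y ∈ Δ.localRing i P, f = p * y := by
  obtain ⟨m, num, den, hn, hd, h⟩ := hf
  obtain ⟨h1, h2⟩ := red_quotient hn hd.1 hd.2.1 h
  rw [Δ.glueData_redF h1, h2, div_eq_zero_iff] at h0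
  have hnum : S.red i num = 0 := h0.resolve_right hd.2.1
  obtain ⟨m₀, hsep⟩ := Δ.exists_sep hP ∅ (Finset.notMem_empty _) fun _ => 0
  obtain ⟨-, -, -, -, e, he, -, heo⟩ := hsep m₀ le_rfl
  have hne := hn.mul he.1
  have hzero : ∀ j, S.red j (num * e) = 0 := fun j => by
    rw [S.red_mul j _ _ (hn.2.1 j) (he.1.2.1 j)]
    rcases eq_or_ne j i with rfl | hj
    · rw [hnum, zero_mul]
    · rw [heo j hj, mul_zero]
  obtain ⟨y, hy, hyi, hye⟩ := Δ.exists_p_mul hne.1 (hne.2.1 0) (hzero 0)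
  obtain ⟨y', -, hy'i, hye'⟩ := Δ.exists_p_mul hne.1 (hne.2.1 1) (hzero 1)
  have hyy : y' = y := mul_left_cancel₀ Δ.natCast_F_ne (hye'.symm.trans hye)
  have hylat : Δ.InLat (m + m₀) y := by
    refine ⟨hy, fun j => ?_, ?_⟩
    · obtain rfl | rfl : j = 0 ∨ j = 1 := by omega
      · exact hyi
      · exact hyy ▸ hy'i
    · rw [show y = ((p : L)⁻¹) • (num * e) by
        rw [hye, natCast_eq L (F := F), ← Algebra.smul_def, smul_smul, inv_mul_cancel₀ Δ.natCast_ne, one_smul]]
      exact Submodule.smul_mem _ _ hne.2.2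
  refine ⟨_, (hd.mul he).div_mem hylat, Subtype.ext ?_⟩
  push_cast
  have := hd.ne_zero
  have := he.ne_zero
  field_simp
  rw [← hye, ← h]

theorem one_inLat : Δ.InLat 0 1 := by
  simpa using Δ.inLat_const A.one_mem (by rw [map_one]; exact one_mem _)

theorem affineRing_le (hP : S.C P = 0) : Δ.affineRing ≤ Δ.localRing i P := by
  refine Subring.closure_le.mpr (Set.union_subset W_le_localRing (Set.range_subset_iff.mpr ?_))
  have key : ∀ {m : ℕ} {f : F} (hf : Δ.InLat m f), (⟨f, hf.1⟩ : Δ.F₀) ∈ Δ.localRing i P :=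
    fun {m f} hf => ⟨m, f, 1, hf, by
      refine ⟨Δ.one_inLat.mono (Nat.zero_le m), by rw [S.red_one]; exact one_ne_zero, ?_⟩
      simp [S.red_one, hP], by simp⟩
  rintro (_ | j)
  · exact key Δ.inLat_T
  · exact key (Δ.inLat_gens j)

theorem exact_T_pow (hP : 0 < S.C P) (m : ℕ) : Δ.Exact i P m (Δ.T ^ m) := by
  have h := S.red_pow (Δ.inLat_T.2.1 i) m
  rw [Δ.red_T] at h
  exact ⟨by simpa using Δ.inLat_T.pow m, by rw [h]; exact pow_ne_zero _ S.Tbar_ne,
    by rw [h, ord_pow, S.ord_Tbar P hP]; ring⟩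

theorem inftyRing_le (hP : 0 < S.C P) : Δ.inftyRing ≤ Δ.localRing i P := by
  refine Subring.closure_le.mpr (Set.union_subset W_le_localRing (Set.range_subset_iff.mpr ?_))
  rintro (_ | j)
  · refine ⟨1, 1, Δ.T ^ 1, Δ.one_inLat.mono (Nat.zero_le 1), Δ.exact_T_pow hP 1, ?_⟩
    show (((⟨Δ.T, Δ.inLat_T.1⟩ : Δ.F₀)⁻¹ : Δ.F₀) : F) * Δ.T ^ 1 = 1
    push_cast
    rw [pow_one, inv_mul_cancel₀ Δ.T_ne]
  · refine ⟨Δ.genLevel, Δ.gens j, _, Δ.inLat_gens j, Δ.exact_T_pow hP _, ?_⟩
    simp only [Option.elim_some]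
    push_cast
    rw [inv_pow, mul_assoc, inv_mul_cancel₀ (pow_ne_zero _ Δ.T_ne), mul_one]

theorem isNoetherianRing_localRing (i : Fin 2) (P : Place k G) :
    IsNoetherianRing (Δ.localRing i P) := by
  rcases (S.C_nonneg P).eq_or_lt with h | h
  · have := Δ.isNoetherianRing_affineRing
    refine isNoetherianRing_of_fractions (Δ.affineRing_le h.symm) fun f hf => ?_
    obtain ⟨m, num, den, hn, hd, he⟩ := hf
    refine ⟨_, Δ.mem_affineRing hn, _, Δ.mem_affineRing hd.1,
      fun e => hd.ne_zero (congrArg Subtype.val e), ?_, Subtype.ext he⟩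
    have := hd.div_mem (Δ.one_inLat.mono (Nat.zero_le m))
    rwa [show (⟨(1 : F), (Δ.one_inLat.mono (Nat.zero_le m)).1⟩ : Δ.F₀) = 1 from rfl, one_mul] at this
  · have := Δ.isNoetherianRing_inftyRing
    refine isNoetherianRing_of_fractions (Δ.inftyRing_le h) fun f hf => ?_
    obtain ⟨m, num, den, hn, hd, he⟩ := hf
    have ht : (⟨Δ.T, Δ.inLat_T.1⟩ : Δ.F₀) ≠ 0 := fun e => Δ.T_ne (congrArg Subtype.val e)
    refine ⟨_, Δ.mem_inftyRing hn, _, Δ.mem_inftyRing hd.1,
      mul_ne_zero (fun e => hd.ne_zero (congrArg Subtype.val e)) (pow_ne_zero _ (inv_ne_zero ht)),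
      ?_, ?_⟩
    · have := hd.div_mem (Δ.exact_T_pow (i := i) h m).1
      rw [mul_inv_rev, ← inv_pow, inv_inv]
      exact this
    · rw [← mul_assoc]; congr 1; exact Subtype.ext he

/-- The local data at a smooth point. -/
def smoothData (hP : P ∉ pairPoints S i) :
    SmoothData Δ.glueData Δ.W i (DVPoint.ofPlace P) where
  A := Δ.localRing i P
  W_le := W_le_localRing
  le := localRing_le
  noetherian := Δ.isNoetherianRing_localRing i P
  fraction := Δ.localRing_fraction hP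
  red_mem f hf := ofPlace_mem.mpr (localRing_red_mem hf)
  surj z hz := Δ.localRing_surj hP (ofPlace_mem.mp hz)
  inv_mem f hf h := localRing_inv_mem hf h
  ker f hf h := Δ.localRing_ker hP hf h

end Descent

end Fermat.Agent.LevelP

end
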