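import Fermat.Agent.LevelP.Inst.Geometry
import Fermat.Agent.LevelP.Inst.Concrete
import Fermat.Agent.LevelP.Inst.Unit
import Fermat.Agent.LevelP.Inst.GenusZero

/-!
# The geometry of `X₀(M p)` at `p` for `M ∈ {1, 2}`

The modular unit has order zero at the affine places away from the glued pairs, so its orders at
the pairs add up to `-(p - 1) ψ(M)`.
-/

set_option autoImplicit false
set_option linter.unusedSectionVars false

noncomputable section

open AlgebraicCurve Fermat.Agent.FunctionFieldRR Fermat.Agent.SemistableRed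

namespace Fermat.Agent.LevelP

namespace Descent

variable {L : Type*} [Field L] {A : ValuationSubring L} {k : Type*} [Field k] [IsAlgClosed k]
  {π : A →+* k} {F : Type*} [Field F] [Algebra L F] [IsAlgClosed L] [IsFunctionField L F]
  {G : Type*} [Field G] [Algebra k G] [IsFunctionField k G]
  {S : SplitModel A π F G} {p : ℕ} [Fact p.Prime] [CharP G p] (Δ : Descent S p)

include Δ in
/-- The reduction of `w / p ^ kw` is a unit at affine places away from the pairs. -/
theorem ord_red_div_eq_zero {w : F} {kw m : ℕ} (hw : Δ.InLat m w)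
    (hw' : Δ.InLat m ((p : F) ^ kw * w⁻¹)) (hw0 : w ≠ 0)
    (hi : S.Int 1 (w * ((p : F) ^ kw)⁻¹)) (hv : S.red 1 (w * ((p : F) ^ kw)⁻¹) ≠ 0)
    {P : Place k G} (hP : P ∉ pairPoints S 1) (hC : S.C P = 0) :
    P.ord (S.red 1 (w * ((p : F) ^ kw)⁻¹)) = 0 := by
  have hp := Δ.natCast_F_ne
  set v := S.red 1 (w * ((p : F) ^ kw)⁻¹)
  refine le_antisymm ?_ ?_
  · -- the inverse is integral
    have hprod : (w * ((p : F) ^ kw)⁻¹) * ((p : F) ^ kw * w⁻¹) = 1 := by field_simp
    have h1 := S.red_mul 1 _ _ hi (hw'.2.1 1)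
    rw [hprod, S.red_one] at h1
    have hu : S.red 1 ((p : F) ^ kw * w⁻¹) = v⁻¹ :=
      (inv_eq_of_mul_eq_one_right h1.symm).symm
    have h2 := hw'.red_vanishes 1 P
    rw [hu, hC, mul_zero, neg_zero] at h2
    have h3 := h2.resolve_left (inv_ne_zero hv)
    rw [P.ord_inv] at h3
    omega
  · obtain ⟨m₀, hsep⟩ := Δ.exists_sep hP ∅ (Finset.notMem_empty _) fun _ => 0
    obtain ⟨-, -, -, -, e, he, -, heo⟩ := hsep m₀ le_rfl
    obtain ⟨y, hy, hy0, hye⟩ := Δ.exists_p_mul he.1.1 (he.1.2.1 0) (heo 0 (by decide))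
    have hid : w * y ^ kw = (w * ((p : F) ^ kw)⁻¹) * e ^ kw := by
      rw [hye, mul_pow, mul_assoc, ← mul_assoc (((p : F) ^ kw)⁻¹),
        inv_mul_cancel₀ (pow_ne_zero _ hp), one_mul]
    have hek := (he.1.pow kw)
    have hlat : Δ.InLat (m + kw * m₀) (w * y ^ kw) := by
      refine ⟨mul_mem hw.1 (pow_mem hy _), fun j => ?_, ?_⟩
      · obtain rfl | rfl : j = 0 ∨ j = 1 := by omega
        · exact S.int_mul 0 _ _ (hw.2.1 0) (S.int_pow hy0 kw)
        · rw [hid]; exact S.int_mul 1 _ _ hi (hek.2.1 1)
      · have hmem := (hw.mul hek).2.2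
        rw [show w * y ^ kw = (((p : L) ^ kw)⁻¹) • (w * e ^ kw) by
          rw [Algebra.smul_def, map_inv₀, map_pow, map_natCast, hid]; ring]
        exact Submodule.smul_mem _ _ hmem
    have h1 := hlat.red_vanishes 1 P
    rw [hid, S.red_mul 1 _ _ hi (hek.2.1 1), S.red_pow (he.1.2.1 1), hC, mul_zero,
      neg_zero] at h1
    have hne : S.red 1 e ^ kw ≠ 0 := pow_ne_zero _ he.2.1
    have h2 := h1.resolve_left (mul_ne_zero hv hne)
    rw [P.ord_mul hv hne, ord_pow, he.2.2, hC, mul_zero, neg_zero, mul_zero, add_zero] at h2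
    exact h2

include Δ in
/-- The orders at the pairs complement those at the poles. -/
theorem sum_pairs_add_sum_poles {v : G} (hv : v ≠ 0)
    (h : ∀ P : Place k G, P ∉ pairPoints S 1 → S.C P = 0 → P.ord v = 0) :
    ∑ x ∈ S.pairs, x.2.ord v + ∑ P ∈ S.C.support, P.ord v = 0 := by
  classical
  have hinj : Set.InjOn (fun x : Place k G × Place k G => x.2) S.pairs := fun x hx y hy e =>
    Prod.ext (SplitModel.Pair.left_unique S
      ((show x.2 = y.2 from e) ▸ S.mem_pairs.mp hx) (S.mem_pairs.mp hy)) e
  have himg : pairPoints S 1 = S.pairs.image fun x => x.2 := by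
    ext P
    simp [pairPoints]
  have hdisj : Disjoint (pairPoints S 1) S.C.support := by
    rw [Finset.disjoint_left]
    intro P hP hP'
    rw [himg, Finset.mem_image] at hP
    obtain ⟨x, hx, rfl⟩ := hP
    exact Finsupp.mem_support_iff.mp hP' (S.mem_pairs.mp hx).2.1
  rw [← Finset.sum_image (f := fun P => P.ord v) hinj, ← himg, ← Finset.sum_union hdisj]
  have hdeg := degree_divisorOf (K := k) v
  rw [degree_eq_sum, Finsupp.sum] at hdeg
  rw [← hdeg]
  simp only [divisorOf_apply]
  refine (Finset.sum_subset ?_ fun P _ hP => ?_).symm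
  · intro P hP
    rw [Finsupp.mem_support_iff, divisorOf_apply] at hP
    by_contra hne
    rw [Finset.mem_union, not_or, Finsupp.notMem_support_iff] at hne
    exact hP (h P hne.1 hne.2)
  · rwa [Finsupp.notMem_support_iff, divisorOf_apply] at hP

end Descent

section Modular

open IsLocalRing ModularCurve Fermat.Agent.Reduction

local notation "Qbar" => AlgebraicClosure ℚ

variable {A : ValuationSubring Qbar} {M q : ℕ} [NeZero M] [NeZero q] [Fact q.Prime]
  [CharP (ResidueField A) q] [IsAlgClosed (ResidueField A)] (S : Setting A M q)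

/-- The unit as an element of the field of rationality. -/
theorem unit_mem_fixed (U : LevelUnit S) : U.w ∈ (descent S).F₀ :=
  mem_fixed_iff.mpr (inertiaFixedSeries_iff.mpr fun σ _ =>
    congrArg Subtype.val (U.galois σ))

theorem unit_inLat (U : LevelUnit S) :
    (descent S).InLat U.m U.w ∧
      (descent S).InLat U.m ((q : ↥(modularFunctionFieldBar (M * q))) ^ 12 * U.w⁻¹) :=
  ⟨⟨unit_mem_fixed S U, U.int, U.mem⟩,
    ⟨mul_mem (pow_mem (natCast_mem _ q) _) (inv_mem (unit_mem_fixed S U)), U.int_dual,
      U.mem_dual⟩⟩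

/-- The orders of the unit at the second branches of the pairs. -/
theorem sum_pairs_unit (U : LevelUnit S) :
    haveI := S.isFunctionField_C
    ∑ x ∈ S.splitModel.pairs,
      x.2.ord (S.splitModel.red 1 (U.w * ((q : ↥(modularFunctionFieldBar (M * q))) ^ 12)⁻¹)) =
        -(((q : ℤ) - 1) * dedekindPsi M) := by
  have := isFunctionField_level (M * q)
  have := S.isFunctionField_C
  have : CharP ↥(modularFunctionFieldFullC (ResidueField A) M) q :=
    charP_of_injective_algebraMap (algebraMap (ResidueField A) _).injective q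
  obtain ⟨h1, h2⟩ := unit_inLat S U
  have hsum := (descent S).sum_pairs_add_sum_poles U.red1_div_ne fun P hP hC =>
    (descent S).ord_red_div_eq_zero h1 h2 U.ne_zero U.int1_div U.red1_div_ne hP hC
  have hpole : ∀ P ∈ S.splitModel.C.support, P.ord (jbar (ResidueField A) M) < 0 :=
    fun P hP => S.ord_jbar_neg (lt_of_le_of_ne (S.polesC_nonneg P)
      (Finsupp.mem_support_iff.mp hP).symm)
  rw [Finset.sum_congr rfl fun P hP => U.ord_red1_div P (hpole P hP)] at hsum
  have hψ := S.degree_polar_jbar
  rw [degree_eq_sum, Finsupp.sum] at hψ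
  have hs : ∑ P ∈ S.splitModel.C.support, P.ord (jbar (ResidueField A) M) = -(dedekindPsi M : ℤ) := by
    rw [← hψ, ← Finset.sum_neg_distrib]
    refine Eq.trans (Finset.sum_congr rfl fun P hP => ?_)
      (Finset.sum_subset (fun P hP => ?_) fun P _ hP' => ?_).symm
    · have := hpole P hP
      rw [polarDivisor_apply, max_eq_left (by omega), neg_neg]
    · rw [Finsupp.mem_support_iff, polarDivisor_apply] at hP
      refine Finsupp.mem_support_iff.mpr ?_
      show S.polesC P ≠ 0
      rw [Setting.polesC_apply]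
      exact mul_ne_zero (by positivity) hP
    · rw [Finsupp.notMem_support_iff] at hP'
      rw [hP', neg_zero]
  simp only [← Finset.mul_sum, Finset.sum_neg_distrib] at hsum
  rw [hs] at hsum
  linarith

/-- The geometry of the descended model, for `M ∈ {1, 2}` and `5 ≤ q`, over the fixed integral
constants. -/
theorem exists_geometry (hM : M = 1 ∨ M = 2) (hq : 5 ≤ q) :
    haveI := isFunctionField_level (M * q)
    haveI := S.isFunctionField_C
    ∃ Γ : Geometry (descent S).glueData, Γ.W = (descent S).W := by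
  have := isFunctionField_level (M * q)
  have := S.isFunctionField_C
  have : CharP ↥(modularFunctionFieldFullC (ResidueField A) M) q :=
    charP_of_injective_algebraMap (algebraMap (ResidueField A) _).injective q
  obtain ⟨U⟩ := nonempty_levelUnit S
  obtain ⟨h1, h2⟩ := unit_inLat S U
  have hqp : q.Prime := Fact.out
  let w : (descent S).F₀ := ⟨U.w, unit_mem_fixed S U⟩
  have hcoe : (((w * ((q : (descent S).F₀) ^ 12)⁻¹ : (descent S).F₀)) :
      ↥(modularFunctionFieldBar (M * q))) =
      U.w * ((q : ↥(modularFunctionFieldBar (M * q))) ^ 12)⁻¹ := by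
    push_cast; rfl
  have hint : S.splitModel.Int 1 ((w * ((q : (descent S).F₀) ^ 12)⁻¹ : (descent S).F₀) :
      ↥(modularFunctionFieldBar (M * q))) := by rw [hcoe]; exact U.int1_div
  have hred : (descent S).glueData.redF 1 (w * ((q : (descent S).F₀) ^ 12)⁻¹) =
      S.splitModel.red 1 (U.w * ((q : ↥(modularFunctionFieldBar (M * q))) ^ 12)⁻¹) := by
    rw [(descent S).glueData_redF hint, hcoe]
  have hψ : dedekindPsi M = 1 ∨ dedekindPsi M = 3 := by
    rcases hM with rfl | rfl
    · exact Or.inl dedekindPsi_one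
    · exact Or.inr dedekindPsi_two
  refine ⟨(descent S).geometry (genusZero_of_le_two hM S.not_dvd S.above) (w := w) (kw := 12)
    (m := U.m) (fun h => ?_) h1 h2 U.red0_ne ⟨hint, by rw [hred]; exact U.red1_div_ne⟩
    fun h => ?_, rfl⟩
  · have := Nat.le_of_dvd (by norm_num) h
    interval_cases q <;> first | omega | norm_num at hqp
  · simp only [hred] at h
    rw [sum_pairs_unit S U, dvd_neg] at h
    rcases (Nat.prime_iff_prime_int.mp hqp).dvd_mul.mp h with h | h
    · have h' : (q : ℤ) ∣ 1 := by
        have := dvd_sub (dvd_refl (q : ℤ)) h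
        simpa using this
      have := Int.le_of_dvd one_pos h'
      omega
    · have h' : q ∣ dedekindPsi M := by exact_mod_cast h
      have := Nat.le_of_dvd (by omega) h'
      omega

end Modular

end Fermat.Agent.LevelP

end
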